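/-
Heights of rational functions: `ent_ht ρ = max (deg num) (deg denom)`, and the fact that two
coprime triples of polynomials which are proportional differ by a nonzero constant.
Part of the x-coordinate approach to `#E[n] = n²` (no division polynomials).
-/
import Mathlib

set_option autoImplicit false

namespace Fermat.Agent.Lib.EN

open Polynomial

variable {K : Type*} [Field K]

/-- The height of a rational function: the maximum of the degrees of its numerator and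
denominator (in lowest terms). -/
noncomputable def ent_ht (ρ : RatFunc K) : ℕ := max ρ.num.natDegree ρ.denom.natDegree

/-- Any coprime representation computes the height. -/
theorem ent_ht_eq_of_coprime {ρ : RatFunc K} {p q : K[X]} (hq : q ≠ 0) (hpq : IsCoprime p q)
    (h : ρ = algebraMap K[X] (RatFunc K) p / algebraMap K[X] (RatFunc K) q) :
    ent_ht ρ = max p.natDegree q.natDegree := by
  have hrel : ρ.num * q = p * ρ.denom := (RatFunc.num_mul_eq_mul_denom_iff hq).mpr h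
  have hcop := RatFunc.isCoprime_num_denom ρ
  -- `num ∣ p` and `p ∣ num`
  have h1 : ρ.num ∣ p := by
    have : ρ.num ∣ p * ρ.denom := ⟨q, hrel.symm⟩
    exact hcop.dvd_of_dvd_mul_right this
  have h2 : p ∣ ρ.num := by
    have : p ∣ ρ.num * q := ⟨ρ.denom, hrel⟩
    exact hpq.dvd_of_dvd_mul_right this
  have h3 : ρ.denom ∣ q := by
    have : ρ.denom ∣ ρ.num * q := ⟨p, by rw [hrel]; ring⟩
    exact hcop.symm.dvd_of_dvd_mul_left this
  have h4 : q ∣ ρ.denom := by
    have : q ∣ p * ρ.denom := ⟨ρ.num, by rw [← hrel]; ring⟩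
    exact hpq.symm.dvd_of_dvd_mul_left this
  unfold ent_ht
  rw [Polynomial.natDegree_eq_of_degree_eq (degree_eq_degree_of_associated
      (associated_of_dvd_dvd h1 h2)),
    Polynomial.natDegree_eq_of_degree_eq (degree_eq_degree_of_associated
      (associated_of_dvd_dvd h3 h4))]

/-- Two coprime (Bezout) triples of polynomials that are proportional differ by a nonzero
constant. -/
theorem ent_triple_prop {p₀ p₁ p₂ q₀ q₁ q₂ : K[X]}
    (hp : ∃ l₀ l₁ l₂ : K[X], l₀ * p₀ + l₁ * p₁ + l₂ * p₂ = 1)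
    (hq : ∃ m₀ m₁ m₂ : K[X], m₀ * q₀ + m₁ * q₁ + m₂ * q₂ = 1)
    (h01 : p₀ * q₁ = p₁ * q₀) (h02 : p₀ * q₂ = p₂ * q₀) (h12 : p₁ * q₂ = p₂ * q₁) :
    ∃ c : K, c ≠ 0 ∧ p₀ = C c * q₀ ∧ p₁ = C c * q₁ ∧ p₂ = C c * q₂ := by
  obtain ⟨l₀, l₁, l₂, hl⟩ := hp
  obtain ⟨m₀, m₁, m₂, hm⟩ := hq
  set cp := l₀ * q₀ + l₁ * q₁ + l₂ * q₂ with hcp
  set cq := m₀ * p₀ + m₁ * p₁ + m₂ * p₂ with hcq
  have e0 : q₀ = p₀ * cp := by linear_combination (-q₀) * hl - l₁ * h01 - l₂ * h02
  have e1 : q₁ = p₁ * cp := by linear_combination (-q₁) * hl + l₀ * h01 - l₂ * h12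
  have e2 : q₂ = p₂ * cp := by linear_combination (-q₂) * hl + l₀ * h02 + l₁ * h12
  have f0 : p₀ = q₀ * cq := by linear_combination (-p₀) * hm + m₁ * h01 + m₂ * h02
  have f1 : p₁ = q₁ * cq := by linear_combination (-p₁) * hm - m₀ * h01 + m₂ * h12
  have f2 : p₂ = q₂ * cq := by linear_combination (-p₂) * hm - m₀ * h02 - m₁ * h12
  have hunit : cp * cq = 1 := by
    have : (1 : K[X]) = l₀ * p₀ + l₁ * p₁ + l₂ * p₂ := hl.symm
    calc cp * cq = (l₀ * (q₀ * cq) + l₁ * (q₁ * cq) + l₂ * (q₂ * cq)) := by rw [hcp]; ring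
      _ = l₀ * p₀ + l₁ * p₁ + l₂ * p₂ := by rw [← f0, ← f1, ← f2]
      _ = 1 := hl
  have hu : IsUnit cq := IsUnit.of_mul_eq_one _ (by rw [mul_comm]; exact hunit)
  obtain ⟨c, hc, hcc⟩ := Polynomial.isUnit_iff.mp hu
  refine ⟨c, hc.ne_zero, ?_, ?_, ?_⟩
  · rw [hcc, mul_comm]; exact f0
  · rw [hcc, mul_comm]; exact f1
  · rw [hcc, mul_comm]; exact f2

end Fermat.Agent.Lib.EN
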