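/-
Bezout from "no common root" over an algebraically closed field, and top-degree computations
for the two triples used in the height relation.
-/
import Fermat.Agent.Lib.EN.Height

set_option autoImplicit false

namespace Fermat.Agent.Lib.EN

open Polynomial

variable {K : Type*} [Field K]

/-- Over an algebraically closed field, three polynomials without a common root satisfy a
Bezout relation. -/
theorem ent_bezout_of_no_common_root [IsAlgClosed K] {p₀ p₁ p₂ : K[X]}
    (h : ∀ z : K, ¬ (p₀.eval z = 0 ∧ p₁.eval z = 0 ∧ p₂.eval z = 0)) :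
    ∃ l₀ l₁ l₂ : K[X], l₀ * p₀ + l₁ * p₁ + l₂ * p₂ = 1 := by
  classical
  set g₁ := EuclideanDomain.gcd p₁ p₂ with hg₁
  set g := EuclideanDomain.gcd p₀ g₁ with hg
  have hg0 : g ∣ p₀ := EuclideanDomain.gcd_dvd_left _ _
  have hgg₁ : g ∣ g₁ := EuclideanDomain.gcd_dvd_right _ _
  have hg1 : g ∣ p₁ := hgg₁.trans (EuclideanDomain.gcd_dvd_left _ _)
  have hg2 : g ∣ p₂ := hgg₁.trans (EuclideanDomain.gcd_dvd_right _ _)
  have hb₁ : g₁ = p₁ * EuclideanDomain.gcdA p₁ p₂ + p₂ * EuclideanDomain.gcdB p₁ p₂ :=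
    EuclideanDomain.gcd_eq_gcd_ab _ _
  have hb : g = p₀ * EuclideanDomain.gcdA p₀ g₁ + g₁ * EuclideanDomain.gcdB p₀ g₁ :=
    EuclideanDomain.gcd_eq_gcd_ab _ _
  have hgne : g ≠ 0 := by
    intro h0
    have h1 : p₀ = 0 ∧ g₁ = 0 := EuclideanDomain.gcd_eq_zero_iff.mp h0
    have h2 : p₁ = 0 ∧ p₂ = 0 := EuclideanDomain.gcd_eq_zero_iff.mp h1.2
    exact h 0 ⟨by rw [h1.1]; simp, by rw [h2.1]; simp, by rw [h2.2]; simp⟩
  have hunit : IsUnit g := by
    by_contra hnu
    have hdeg : g.degree ≠ 0 := by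
      intro hd
      exact hnu (Polynomial.isUnit_iff_degree_eq_zero.mpr hd)
    obtain ⟨z, hz⟩ := IsAlgClosed.exists_root g hdeg
    refine h z ⟨?_, ?_, ?_⟩
    · obtain ⟨c, hc⟩ := hg0; rw [hc, eval_mul, hz.eq_zero, zero_mul]
    · obtain ⟨c, hc⟩ := hg1; rw [hc, eval_mul, hz.eq_zero, zero_mul]
    · obtain ⟨c, hc⟩ := hg2; rw [hc, eval_mul, hz.eq_zero, zero_mul]
  obtain ⟨u, hu⟩ := hunit
  refine ⟨↑u⁻¹ * EuclideanDomain.gcdA p₀ g₁,
    ↑u⁻¹ * (EuclideanDomain.gcdA p₁ p₂ * EuclideanDomain.gcdB p₀ g₁),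
    ↑u⁻¹ * (EuclideanDomain.gcdB p₁ p₂ * EuclideanDomain.gcdB p₀ g₁), ?_⟩
  have : (↑u⁻¹ : K[X]) * g = 1 := by rw [← hu]; exact Units.inv_mul u
  calc _ = (↑u⁻¹ : K[X]) * (p₀ * EuclideanDomain.gcdA p₀ g₁ +
        (p₁ * EuclideanDomain.gcdA p₁ p₂ + p₂ * EuclideanDomain.gcdB p₁ p₂) *
          EuclideanDomain.gcdB p₀ g₁) := by ring
    _ = (↑u⁻¹ : K[X]) * g := by rw [← hb₁, ← hb]
    _ = 1 := this

/-- The maximum of the degrees of three polynomials. -/
noncomputable def ent_max3 (p₀ p₁ p₂ : K[X]) : ℕ :=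
  max p₀.natDegree (max p₁.natDegree p₂.natDegree)

theorem ent_max3_C_mul {c : K} (hc : c ≠ 0) (p₀ p₁ p₂ : K[X]) :
    ent_max3 (C c * p₀) (C c * p₁) (C c * p₂) = ent_max3 p₀ p₁ p₂ := by
  unfold ent_max3
  rw [natDegree_C_mul hc, natDegree_C_mul hc, natDegree_C_mul hc]

/-- If all three polynomials have degree at most `D` and one of them has a nonzero coefficient in
degree `D`, then the maximal degree is `D`. -/
theorem ent_max3_eq {p₀ p₁ p₂ : K[X]} {D : ℕ} (h₀ : p₀.natDegree ≤ D) (h₁ : p₁.natDegree ≤ D)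
    (h₂ : p₂.natDegree ≤ D)
    (hne : p₀.coeff D ≠ 0 ∨ p₁.coeff D ≠ 0 ∨ p₂.coeff D ≠ 0) : ent_max3 p₀ p₁ p₂ = D := by
  unfold ent_max3
  apply le_antisymm
  · exact max_le h₀ (max_le h₁ h₂)
  · rcases hne with h | h | h
    · exact le_trans (le_natDegree_of_ne_zero h) (le_max_left _ _)
    · exact le_trans (le_natDegree_of_ne_zero h) (le_trans (le_max_left _ _) (le_max_right _ _))
    · exact le_trans (le_natDegree_of_ne_zero h) (le_trans (le_max_right _ _) (le_max_right _ _))

/-- For a fraction `a / b` with `b ≠ 0`, one of the two coefficients in degree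
`max (deg a) (deg b)` is nonzero. -/
theorem ent_top_coeff_ne_zero {a b : K[X]} (hb : b ≠ 0) :
    a.coeff (max a.natDegree b.natDegree) ≠ 0 ∨ b.coeff (max a.natDegree b.natDegree) ≠ 0 := by
  rcases le_total a.natDegree b.natDegree with h | h
  · right
    rw [max_eq_right h]
    exact leadingCoeff_ne_zero.mpr hb
  · rcases eq_or_lt_of_le h with h' | h'
    · right
      rw [max_eq_left h, ← h']
      exact leadingCoeff_ne_zero.mpr hb
    · left
      rw [max_eq_left h]
      have ha : a ≠ 0 := by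
        intro h0; rw [h0, natDegree_zero] at h'; exact absurd h' (Nat.not_lt_zero _)
      exact leadingCoeff_ne_zero.mpr ha

/-- Degrees of the "symmetric functions" triple `(a'a'' : a'b'' + a''b' : b'b'')`. -/
theorem ent_max3_sym {a' b' a'' b'' : K[X]} (hb' : b' ≠ 0) (hb'' : b'' ≠ 0) :
    ent_max3 (a' * a'') (a' * b'' + a'' * b') (b' * b'') =
      max a'.natDegree b'.natDegree + max a''.natDegree b''.natDegree := by
  set d' := max a'.natDegree b'.natDegree with hd'
  set d'' := max a''.natDegree b''.natDegree with hd''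
  have ha' : a'.natDegree ≤ d' := le_max_left _ _
  have hb'd : b'.natDegree ≤ d' := le_max_right _ _
  have ha'' : a''.natDegree ≤ d'' := le_max_left _ _
  have hb''d : b''.natDegree ≤ d'' := le_max_right _ _
  have c0 : (a' * a'').coeff (d' + d'') = a'.coeff d' * a''.coeff d'' :=
    coeff_mul_add_eq_of_natDegree_le ha' ha''
  have c2 : (b' * b'').coeff (d' + d'') = b'.coeff d' * b''.coeff d'' :=
    coeff_mul_add_eq_of_natDegree_le hb'd hb''d
  have c1 : (a' * b'' + a'' * b').coeff (d' + d'') =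
      a'.coeff d' * b''.coeff d'' + a''.coeff d'' * b'.coeff d' := by
    rw [coeff_add, coeff_mul_add_eq_of_natDegree_le ha' hb''d, add_comm d' d'',
      coeff_mul_add_eq_of_natDegree_le ha'' hb'd]
  apply ent_max3_eq
  · exact natDegree_mul_le.trans (add_le_add ha' ha'')
  · refine (natDegree_add_le _ _).trans (max_le ?_ ?_)
    · exact natDegree_mul_le.trans (add_le_add ha' hb''d)
    · exact natDegree_mul_le.trans (by rw [add_comm]; exact add_le_add hb'd ha'')
  · exact natDegree_mul_le.trans (add_le_add hb'd hb''d)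
  · rw [c0, c1, c2]
    by_contra hcon
    push Not at hcon
    obtain ⟨e0, e1, e2⟩ := hcon
    rcases ent_top_coeff_ne_zero (a := a') hb' with h' | h' <;>
    rcases ent_top_coeff_ne_zero (a := a'') hb'' with h'' | h''
    · exact mul_ne_zero h' h'' e0
    · -- α' ≠ 0, β'' ≠ 0
      have hα'' : a''.coeff d'' = 0 := by
        rcases mul_eq_zero.mp e0 with h | h
        · exact absurd h h'
        · exact h
      have hβ' : b'.coeff d' = 0 := by
        rcases mul_eq_zero.mp e2 with h | h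
        · exact h
        · exact absurd h h''
      rw [hα'', hβ', zero_mul, add_zero] at e1
      exact mul_ne_zero h' h'' e1
    · -- β' ≠ 0, α'' ≠ 0
      have hα' : a'.coeff d' = 0 := by
        rcases mul_eq_zero.mp e0 with h | h
        · exact h
        · exact absurd h h''
      have hβ'' : b''.coeff d'' = 0 := by
        rcases mul_eq_zero.mp e2 with h | h
        · exact absurd h h'
        · exact h
      rw [hα', hβ'', zero_mul, zero_add] at e1
      exact mul_ne_zero h'' h' e1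
    · exact mul_ne_zero h' h'' e2

end Fermat.Agent.Lib.EN
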