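/-
The height relation `h(σ) + h(τ) = 2 h(ρ) + 2` whenever `σ + τ` and `σ τ` are given by the
addition-and-subtraction map applied to `(ρ, X)`.
-/
import Fermat.Agent.Lib.EN.Height2

set_option autoImplicit false

namespace Fermat.Agent.Lib.EN

open Polynomial

variable {K : Type*} [Field K] (W : WeierstrassCurve K)

/-- `(x₁ - x₂)² (x(P₁+P₂) + x(P₁-P₂))` as a function of `x₁, x₂` (over any `K`-algebra). -/
def ent_V {A : Type*} [CommRing A] [Algebra K A] (x₁ x₂ : A) : A :=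
  2 * x₁ * x₂ * (x₁ + x₂) + algebraMap K A W.b₂ * x₁ * x₂ + algebraMap K A W.b₄ * (x₁ + x₂) +
    algebraMap K A W.b₆

/-- `(x₁ - x₂)² x(P₁+P₂) x(P₁-P₂)` as a function of `x₁, x₂` (over any `K`-algebra). -/
def ent_W {A : Type*} [CommRing A] [Algebra K A] (x₁ x₂ : A) : A :=
  x₁ ^ 2 * x₂ ^ 2 - algebraMap K A W.b₄ * x₁ * x₂ - algebraMap K A W.b₆ * (x₁ + x₂) -
    algebraMap K A W.b₈

/-- The quadratic `Φ(T; x₁, x₂) = (x₁-x₂)² T² - V T + W`, symmetric in its three arguments. -/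
def ent_Phi {A : Type*} [CommRing A] [Algebra K A] (T x₁ x₂ : A) : A :=
  (x₁ - x₂) ^ 2 * T ^ 2 - ent_V W x₁ x₂ * T + ent_W W x₁ x₂

theorem ent_Phi_symm {A : Type*} [CommRing A] [Algebra K A] (T x₁ x₂ : A) :
    ent_Phi W T x₁ x₂ = ent_Phi W x₁ T x₂ := by
  unfold ent_Phi ent_V ent_W; ring

theorem ent_V_symm {A : Type*} [CommRing A] [Algebra K A] (x₁ x₂ : A) :
    ent_V W x₁ x₂ = ent_V W x₂ x₁ := by
  unfold ent_V; ring

theorem ent_W_symm {A : Type*} [CommRing A] [Algebra K A] (x₁ x₂ : A) :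
    ent_W W x₁ x₂ = ent_W W x₂ x₁ := by
  unfold ent_W; ring

/-- Homogenised versions for `x₁ = a / b`, `x₂ = X`. -/
noncomputable def ent_Uh (a b : K[X]) : K[X] := (a - X * b) ^ 2

noncomputable def ent_Vh (a b : K[X]) : K[X] :=
  2 * (a * X) * (a + X * b) + C W.b₂ * (a * X) * b + C W.b₄ * (a + X * b) * b + C W.b₆ * b ^ 2

noncomputable def ent_Wh (a b : K[X]) : K[X] :=
  (a * X) ^ 2 - C W.b₄ * (a * X) * b - C W.b₆ * (a + X * b) * b - C W.b₈ * b ^ 2

section degrees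

variable {a b : K[X]} {d : ℕ}

lemma ent_sub_deg {p q : K[X]} {n : ℕ} (hp : p.natDegree ≤ n) (hq : q.natDegree ≤ n) :
    (p - q).natDegree ≤ n :=
  (natDegree_sub_le p q).trans (max_le hp hq)

lemma ent_C_deg (c : K) : (C c : K[X]).natDegree ≤ 0 := (natDegree_C c).le

lemma ent_aX_deg (ha : a.natDegree ≤ d) : (a * X).natDegree ≤ d + 1 :=
  natDegree_mul_le_of_le ha natDegree_X_le

lemma ent_Xb_deg (hb : b.natDegree ≤ d) : (X * b).natDegree ≤ d + 1 := by
  rw [add_comm]; exact natDegree_mul_le_of_le natDegree_X_le hb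

lemma ent_apXb_deg (ha : a.natDegree ≤ d) (hb : b.natDegree ≤ d) :
    (a + X * b).natDegree ≤ d + 1 :=
  natDegree_add_le_of_degree_le (ha.trans (Nat.le_succ d)) (ent_Xb_deg hb)

theorem ent_Uh_deg (ha : a.natDegree ≤ d) (hb : b.natDegree ≤ d) :
    (ent_Uh a b).natDegree ≤ 2 * (d + 1) := by
  unfold ent_Uh
  exact natDegree_pow_le_of_le 2
    (ent_sub_deg (ha.trans (Nat.le_succ d)) (ent_Xb_deg hb))

theorem ent_Uh_coeff (ha : a.natDegree ≤ d) (hb : b.natDegree ≤ d) :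
    (ent_Uh a b).coeff (2 * (d + 1)) = (b.coeff d) ^ 2 := by
  unfold ent_Uh
  rw [coeff_pow_of_natDegree_le
    (ent_sub_deg (ha.trans (Nat.le_succ d)) (ent_Xb_deg hb)), coeff_sub,
    coeff_eq_zero_of_natDegree_lt (lt_of_le_of_lt ha (Nat.lt_succ_self d)), coeff_X_mul]
  ring

theorem ent_Vh_deg (ha : a.natDegree ≤ d) (hb : b.natDegree ≤ d) :
    (ent_Vh W a b).natDegree ≤ 2 * (d + 1) := by
  unfold ent_Vh
  have h2 : (2 : K[X]).natDegree ≤ 0 := (natDegree_ofNat 2).le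
  refine natDegree_add_le_of_degree_le (natDegree_add_le_of_degree_le
    (natDegree_add_le_of_degree_le ?_ ?_) ?_) ?_
  · have := natDegree_mul_le_of_le (natDegree_mul_le_of_le h2 (ent_aX_deg ha))
      (ent_apXb_deg ha hb)
    refine this.trans (by omega)
  · have := natDegree_mul_le_of_le (natDegree_mul_le_of_le (ent_C_deg W.b₂)
      (ent_aX_deg ha)) hb
    refine this.trans (by omega)
  · have := natDegree_mul_le_of_le (natDegree_mul_le_of_le (ent_C_deg W.b₄)
      (ent_apXb_deg ha hb)) hb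
    refine this.trans (by omega)
  · have := natDegree_mul_le_of_le (ent_C_deg W.b₆) (natDegree_pow_le_of_le 2 hb)
    refine this.trans (by omega)

theorem ent_Wh_deg (ha : a.natDegree ≤ d) (hb : b.natDegree ≤ d) :
    (ent_Wh W a b).natDegree ≤ 2 * (d + 1) := by
  unfold ent_Wh
  refine ent_sub_deg (ent_sub_deg
    (ent_sub_deg ?_ ?_) ?_) ?_
  · exact natDegree_pow_le_of_le 2 (ent_aX_deg ha)
  · have := natDegree_mul_le_of_le (natDegree_mul_le_of_le (ent_C_deg W.b₄)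
      (ent_aX_deg ha)) hb
    refine this.trans (by omega)
  · have := natDegree_mul_le_of_le (natDegree_mul_le_of_le (ent_C_deg W.b₆)
      (ent_apXb_deg ha hb)) hb
    refine this.trans (by omega)
  · have := natDegree_mul_le_of_le (ent_C_deg W.b₈) (natDegree_pow_le_of_le 2 hb)
    refine this.trans (by omega)

theorem ent_Wh_coeff (ha : a.natDegree ≤ d) (hb : b.natDegree ≤ d) :
    (ent_Wh W a b).coeff (2 * (d + 1)) = (a.coeff d) ^ 2 := by
  unfold ent_Wh
  have t1 : ((a * X) ^ 2).coeff (2 * (d + 1)) = (a.coeff d) ^ 2 := by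
    rw [coeff_pow_of_natDegree_le (ent_aX_deg ha), coeff_mul_X]
  have t2 : (C W.b₄ * (a * X) * b).coeff (2 * (d + 1)) = 0 := by
    apply coeff_eq_zero_of_natDegree_lt
    have := natDegree_mul_le_of_le (natDegree_mul_le_of_le (ent_C_deg W.b₄)
      (ent_aX_deg ha)) hb
    omega
  have t3 : (C W.b₆ * (a + X * b) * b).coeff (2 * (d + 1)) = 0 := by
    apply coeff_eq_zero_of_natDegree_lt
    have := natDegree_mul_le_of_le (natDegree_mul_le_of_le (ent_C_deg W.b₆)
      (ent_apXb_deg ha hb)) hb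
    omega
  have t4 : (C W.b₈ * b ^ 2).coeff (2 * (d + 1)) = 0 := by
    apply coeff_eq_zero_of_natDegree_lt
    have := natDegree_mul_le_of_le (ent_C_deg W.b₈) (natDegree_pow_le_of_le 2 hb)
    omega
  rw [coeff_sub, coeff_sub, coeff_sub, t1, t2, t3, t4]
  ring

/-- The maximal degree of the triple `(Wh : Vh : Uh)` is `2 h + 2`. -/
theorem ent_max3_addsub (hb0 : b ≠ 0) :
    ent_max3 (ent_Wh W a b) (ent_Vh W a b) (ent_Uh a b) =
      2 * (max a.natDegree b.natDegree + 1) := by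
  have ha : a.natDegree ≤ max a.natDegree b.natDegree := le_max_left _ _
  have hb : b.natDegree ≤ max a.natDegree b.natDegree := le_max_right _ _
  apply ent_max3_eq (ent_Wh_deg W ha hb) (ent_Vh_deg W ha hb) (ent_Uh_deg ha hb)
  rw [ent_Wh_coeff W ha hb, ent_Uh_coeff ha hb]
  rcases ent_top_coeff_ne_zero (a := a) hb0 with h | h
  · exact Or.inl (pow_ne_zero 2 h)
  · exact Or.inr (Or.inr (pow_ne_zero 2 h))

end degrees

end Fermat.Agent.Lib.EN
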