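/-
The height relation `h(σ) + h(τ) = 2 (h(ρ) + 1)`.
-/
import Fermat.Agent.Lib.EN.AddSubHt

set_option autoImplicit false

namespace Fermat.Agent.Lib.EN

open Polynomial

variable {K : Type*} [Field K] (W : WeierstrassCurve K)

theorem ent_no_common_root_of_isCoprime {a b : K[X]} (hab : IsCoprime a b) (z : K) :
    ¬ (a.eval z = 0 ∧ b.eval z = 0) := by
  rintro ⟨h1, h2⟩
  obtain ⟨u, v, huv⟩ := hab
  have := congrArg (Polynomial.eval z) huv
  simp [h1, h2] at this

theorem ent_addsub_no_common_root [W.IsElliptic] {a b : K[X]} (hab : IsCoprime a b) (z : K) :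
    ¬ ((ent_Wh W a b).eval z = 0 ∧ (ent_Vh W a b).eval z = 0 ∧ (ent_Uh a b).eval z = 0) := by
  rintro ⟨h0, h1, h2⟩
  have hx : (![a.eval z * z, a.eval z + z * b.eval z, b.eval z] : Fin 3 → K) ≠ 0 := by
    intro h
    have e1 := congrFun h 1
    have e2 := congrFun h 2
    simp at e1 e2
    rw [e2] at e1
    simp at e1
    exact ent_no_common_root_of_isCoprime hab z ⟨e1, e2⟩
  have := WeierstrassCurve.addSubMap_ne_zero W hx
  apply this
  funext i
  fin_cases i
  · simp [WeierstrassCurve.addSubMap]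
    simp [ent_Wh] at h0
    linear_combination h0
  · simp [WeierstrassCurve.addSubMap]
    simp [ent_Vh] at h1
    linear_combination h1
  · simp [WeierstrassCurve.addSubMap]
    have h2' : a.eval z - z * b.eval z = 0 := by simpa [ent_Uh] using h2
    linear_combination (a.eval z - z * b.eval z) * h2'

theorem ent_sym_no_common_root {a' b' a'' b'' : K[X]} (h' : IsCoprime a' b')
    (h'' : IsCoprime a'' b'') (z : K) :
    ¬ ((a' * a'').eval z = 0 ∧ (a' * b'' + a'' * b').eval z = 0 ∧ (b' * b'').eval z = 0) := by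
  rintro ⟨h0, h1, h2⟩
  simp only [eval_mul, eval_add] at h0 h1 h2
  rcases mul_eq_zero.mp h2 with hb | hb
  · have ha : a'.eval z ≠ 0 := fun ha => ent_no_common_root_of_isCoprime h' z ⟨ha, hb⟩
    have ha'' : a''.eval z = 0 := by
      rcases mul_eq_zero.mp h0 with h | h
      · exact absurd h ha
      · exact h
    have hb'' : b''.eval z ≠ 0 := fun hb'' => ent_no_common_root_of_isCoprime h'' z ⟨ha'', hb''⟩
    rw [ha'', hb, zero_mul, add_zero] at h1
    exact mul_ne_zero ha hb'' h1
  · have ha : a''.eval z ≠ 0 := fun ha => ent_no_common_root_of_isCoprime h'' z ⟨ha, hb⟩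
    have ha' : a'.eval z = 0 := by
      rcases mul_eq_zero.mp h0 with h | h
      · exact h
      · exact absurd h ha
    have hb' : b'.eval z ≠ 0 := fun hb' => ent_no_common_root_of_isCoprime h' z ⟨ha', hb'⟩
    rw [ha', hb, zero_mul, zero_add] at h1
    exact mul_ne_zero ha hb' h1

/-- **Height relation.** -/
theorem ent_ht_addsub [IsAlgClosed K] [W.IsElliptic] {ρ σ τ : RatFunc K} (hρ : ρ ≠ RatFunc.X)
    (hs : (σ + τ) * (ρ - RatFunc.X) ^ 2 = ent_V W ρ RatFunc.X)
    (hp : σ * τ * (ρ - RatFunc.X) ^ 2 = ent_W W ρ RatFunc.X) :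
    ent_ht σ + ent_ht τ = 2 * (ent_ht ρ + 1) := by
  set φ := algebraMap K[X] (RatFunc K) with hφ
  have hφinj : Function.Injective φ := RatFunc.algebraMap_injective K
  set a := ρ.num
  set b := ρ.denom
  set a' := σ.num
  set b' := σ.denom
  set a'' := τ.num
  set b'' := τ.denom
  have hb : φ b ≠ 0 := RatFunc.algebraMap_ne_zero (RatFunc.denom_ne_zero ρ)
  have hb' : φ b' ≠ 0 := RatFunc.algebraMap_ne_zero (RatFunc.denom_ne_zero σ)
  have hb'' : φ b'' ≠ 0 := RatFunc.algebraMap_ne_zero (RatFunc.denom_ne_zero τ)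
  have eρ : ρ = φ a / φ b := (RatFunc.num_div_denom ρ).symm
  have eσ : σ = φ a' / φ b' := (RatFunc.num_div_denom σ).symm
  have eτ : τ = φ a'' / φ b'' := (RatFunc.num_div_denom τ).symm
  have hX : φ X = RatFunc.X := RatFunc.algebraMap_X
  have hC : ∀ c : K, φ (C c) = algebraMap K (RatFunc K) c := fun c => by
    rw [hφ, RatFunc.algebraMap_C]; rfl
  -- the three homogenised quantities
  have eU : (ρ - RatFunc.X) ^ 2 * (φ b) ^ 2 = φ (ent_Uh a b) := by
    unfold ent_Uh
    rw [map_pow, map_sub, map_mul, hX, eρ]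
    field_simp
  have eV : ent_V W ρ RatFunc.X * (φ b) ^ 2 = φ (ent_Vh W a b) := by
    unfold ent_Vh ent_V
    simp only [map_add, map_mul, map_pow, hX, hC, map_ofNat]
    rw [eρ]
    field_simp
  have eW : ent_W W ρ RatFunc.X * (φ b) ^ 2 = φ (ent_Wh W a b) := by
    unfold ent_Wh ent_W
    simp only [map_add, map_sub, map_mul, map_pow, hX, hC]
    rw [eρ]
    field_simp
  -- cross relations
  have R1 : (a' * a'') * ent_Uh a b = (b' * b'') * ent_Wh W a b := by
    apply hφinj
    simp only [map_mul]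
    rw [← eU, ← eW, ← hp, eσ, eτ]
    field_simp
  have R2 : (a' * b'' + a'' * b') * ent_Uh a b = (b' * b'') * ent_Vh W a b := by
    apply hφinj
    simp only [map_mul, map_add]
    rw [← eU, ← eV, ← hs, eσ, eτ]
    field_simp
  have hU0 : ent_Uh a b ≠ 0 := by
    unfold ent_Uh
    apply pow_ne_zero
    intro h0
    apply hρ
    have : φ a = φ X * φ b := by
      rw [← map_mul]; congr 1; exact sub_eq_zero.mp h0
    rw [eρ, this, hX]
    field_simp
  have hbb : b' * b'' ≠ 0 := mul_ne_zero (RatFunc.denom_ne_zero σ) (RatFunc.denom_ne_zero τ)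
  have R3 : (a' * a'') * ent_Vh W a b = (a' * b'' + a'' * b') * ent_Wh W a b := by
    have hne : ent_Uh a b * (b' * b'') ≠ 0 := mul_ne_zero hU0 hbb
    apply mul_left_cancel₀ hne
    linear_combination (b' * b'' * ent_Vh W a b) * R1 - (b' * b'' * ent_Wh W a b) * R2
  -- Bezout relations
  have B1 := ent_bezout_of_no_common_root
    (ent_sym_no_common_root (RatFunc.isCoprime_num_denom σ) (RatFunc.isCoprime_num_denom τ))
  have B2 := ent_bezout_of_no_common_root
    (ent_addsub_no_common_root W (RatFunc.isCoprime_num_denom ρ))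
  obtain ⟨c, hc, e0, e1, e2⟩ := ent_triple_prop B1 B2 R3 R1 R2
  have hmax : ent_max3 (a' * a'') (a' * b'' + a'' * b') (b' * b'') =
      ent_max3 (ent_Wh W a b) (ent_Vh W a b) (ent_Uh a b) := by
    rw [e0, e1, e2, ent_max3_C_mul hc]
  rw [ent_max3_sym (RatFunc.denom_ne_zero σ) (RatFunc.denom_ne_zero τ),
    ent_max3_addsub W (RatFunc.denom_ne_zero ρ)] at hmax
  exact hmax

end Fermat.Agent.Lib.EN
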