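/-
Generic fibres of a rational function `a / b` in characteristic zero: for all but finitely many
`c`, the polynomial `a - c b` is separable of degree `max (deg a) (deg b)` and its roots avoid
any prescribed finite set.
-/
import Fermat.Agent.Lib.EN.Height2

set_option autoImplicit false
set_option linter.unusedSectionVars false

namespace Fermat.Agent.Lib.EN

open Polynomial

variable {K : Type*} [Field K]

theorem ent_wronskian_ne_zero [CharZero K] {a b : K[X]} (hab : IsCoprime a b)
    (hd : 1 ≤ max a.natDegree b.natDegree) :
    derivative a * b - a * derivative b ≠ 0 := by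
  intro h0
  have hrel : derivative a * b = a * derivative b := sub_eq_zero.mp h0
  have key : ∀ p q : K[X], IsCoprime p q → derivative p * q = p * derivative q →
      p.natDegree = 0 := by
    intro p q hpq hr
    by_cases hp : p = 0
    · rw [hp, natDegree_zero]
    · have hdvd : p ∣ derivative p := by
        have : p ∣ derivative p * q := ⟨derivative q, hr⟩
        exact hpq.dvd_of_dvd_mul_right this
      have hz : derivative p = 0 :=
        eq_zero_of_dvd_of_degree_lt hdvd (degree_derivative_lt hp)
      exact Polynomial.derivative_eq_zero.mp hz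
  have ha := key a b hab hrel
  have hb := key b a hab.symm (by rw [mul_comm, ← hrel, mul_comm])
  rw [ha, hb] at hd
  simp at hd

/-- Generic fibres. -/
theorem ent_generic_fibre [CharZero K] [IsAlgClosed K] {a b : K[X]} (hab : IsCoprime a b)
    (hb0 : b ≠ 0) (hd : 1 ≤ max a.natDegree b.natDegree) (Z : Set K) (hZ : Z.Finite) :
    ∃ Cexc : Set K, Cexc.Finite ∧ ∀ c : K, c ∉ Cexc →
      (a - C c * b).natDegree = max a.natDegree b.natDegree ∧ (a - C c * b).Separable ∧
        ∀ z : K, (a - C c * b).eval z = 0 → z ∉ Z ∧ b.eval z ≠ 0 := by
  classical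
  set d := max a.natDegree b.natDegree with hd'
  set w := derivative a * b - a * derivative b with hw
  have hw0 : w ≠ 0 := ent_wronskian_ne_zero hab hd
  set Z' : Set K := Z ∪ {z | w.eval z = 0} with hZ'
  have hZ'fin : Z'.Finite := by
    apply hZ.union
    have : {z | w.eval z = 0} = ↑(w.roots.toFinset) := by
      ext z; simp [mem_roots hw0]
    rw [this]; exact Finset.finite_toSet _
  refine ⟨{a.coeff d / b.coeff d} ∪ (fun z => a.eval z / b.eval z) '' Z',
    (Set.finite_singleton _).union (hZ'fin.image _), ?_⟩
  intro c hc
  have hc1 : c ≠ a.coeff d / b.coeff d := fun h => hc (Or.inl (by simp [h]))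
  have hc2 : ∀ z ∈ Z', c ≠ a.eval z / b.eval z := fun z hz h =>
    hc (Or.inr ⟨z, hz, h.symm⟩)
  set g := a - C c * b with hg
  -- roots of `g` avoid `Z'` and zeros of `b`
  have hroot : ∀ z : K, g.eval z = 0 → z ∉ Z' ∧ b.eval z ≠ 0 := by
    intro z hz
    have hz' : a.eval z = c * b.eval z := by
      have : g.eval z = a.eval z - c * b.eval z := by simp [hg]
      rw [this] at hz; exact sub_eq_zero.mp hz
    have hbz : b.eval z ≠ 0 := by
      intro hbz
      obtain ⟨u, v, huv⟩ := hab
      have := congrArg (Polynomial.eval z) huv
      simp [hz', hbz] at this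
    refine ⟨fun hzZ => hc2 z hzZ ?_, hbz⟩
    rw [hz']; field_simp
  refine ⟨?_, ?_, fun z hz => ⟨fun hzZ => (hroot z hz).1 (Or.inl hzZ), (hroot z hz).2⟩⟩
  · -- degree
    have hle : g.natDegree ≤ d := by
      refine (natDegree_sub_le _ _).trans (max_le (le_max_left _ _) ?_)
      exact (natDegree_C_mul_le _ _).trans (le_max_right _ _)
    apply le_antisymm hle
    apply le_natDegree_of_ne_zero
    have : g.coeff d = a.coeff d - c * b.coeff d := by simp [hg]
    rw [this]
    intro h0
    by_cases hbd : b.coeff d = 0
    · rw [hbd, mul_zero, sub_zero] at h0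
      rcases ent_top_coeff_ne_zero (a := a) hb0 with h | h
      · exact h h0
      · exact h hbd
    · apply hc1
      rw [eq_div_iff hbd]
      exact (sub_eq_zero.mp h0).symm
  · -- separable
    rw [separable_def]
    obtain ⟨l₀, l₁, l₂, hl⟩ := ent_bezout_of_no_common_root (p₀ := g) (p₁ := derivative g)
      (p₂ := 0) (by
        rintro z ⟨h1, h2, -⟩
        have hz' : a.eval z = c * b.eval z := by
          have : g.eval z = a.eval z - c * b.eval z := by simp [hg]
          rw [this] at h1; exact sub_eq_zero.mp h1
        have hdz : (derivative a).eval z = c * (derivative b).eval z := by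
          have : (derivative g).eval z = (derivative a).eval z - c * (derivative b).eval z := by
            simp [hg]
          rw [this] at h2; exact sub_eq_zero.mp h2
        apply (hroot z h1).1
        right
        show w.eval z = 0
        simp only [hw, eval_sub, eval_mul, hz', hdz]
        ring)
    exact ⟨l₀, l₁, by rw [← hl]; ring⟩

end Fermat.Agent.Lib.EN
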