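/-
Pointwise formulas for x-coordinates: `x(P₁+P₂) + x(P₁-P₂) = V/U`, `x(P₁+P₂) x(P₁-P₂) = W/U`
and the duplication formula.
-/
import Fermat.Agent.Lib.EN.AddSubHt

set_option autoImplicit false
set_option linter.unusedSectionVars false

namespace Fermat.Agent.Lib.EN

open WeierstrassCurve WeierstrassCurve.Affine

variable {K : Type*} [Field K] [DecidableEq K] (W : WeierstrassCurve K)

/-- The affine point `P` has x-coordinate `ξ`. -/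
def ent_HasX (P : W.toAffine.Point) (ξ : K) : Prop :=
  ∃ (y : K) (h : W.toAffine.Nonsingular ξ y), P = Point.some ξ y h

variable {W}

theorem ent_HasX.ne_zero {P : W.toAffine.Point} {ξ : K} (h : ent_HasX W P ξ) : P ≠ 0 := by
  obtain ⟨y, hy, rfl⟩ := h
  exact Point.some_ne_zero hy

theorem ent_HasX.unique {P : W.toAffine.Point} {ξ ξ' : K} (h : ent_HasX W P ξ)
    (h' : ent_HasX W P ξ') : ξ = ξ' := by
  obtain ⟨y, hy, rfl⟩ := h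
  obtain ⟨y', hy', e⟩ := h'
  rw [Point.some.injEq] at e
  exact e.1

theorem ent_HasX.neg {P : W.toAffine.Point} {ξ : K} (h : ent_HasX W P ξ) : ent_HasX W (-P) ξ := by
  obtain ⟨y, hy, rfl⟩ := h
  exact ⟨_, _, Point.neg_some hy⟩

theorem ent_hasX_of_ne_zero {P : W.toAffine.Point} (h : P ≠ 0) : ∃ ξ, ent_HasX W P ξ := by
  cases P with
  | zero => exact absurd rfl h
  | some x y hxy => exact ⟨x, y, hxy, rfl⟩

/-- If two affine points have the same x-coordinate, they are equal or opposite. -/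
theorem ent_HasX.eq_or_eq_neg {P Q : W.toAffine.Point} {ξ : K} (hP : ent_HasX W P ξ)
    (hQ : ent_HasX W Q ξ) : P = Q ∨ P = -Q := by
  obtain ⟨y, hy, rfl⟩ := hP
  obtain ⟨y', hy', rfl⟩ := hQ
  exact Point.X_eq_iff.mp rfl

lemma ent_eqn {x y : K} (h : W.toAffine.Nonsingular x y) :
    y ^ 2 + W.a₁ * x * y + W.a₃ * y = x ^ 3 + W.a₂ * x ^ 2 + W.a₄ * x + W.a₆ :=
  (W.toAffine.equation_iff x y).mp h.1

/-- **Sum and product of `x(P₁ ± P₂)`.** -/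
theorem ent_addsub_X {P₁ P₂ : W.toAffine.Point} {x₁ x₂ : K} (h₁ : ent_HasX W P₁ x₁)
    (h₂ : ent_HasX W P₂ x₂) (hx : x₁ ≠ x₂) :
    ∃ ξ₃ ξ₄ : K, ent_HasX W (P₁ + P₂) ξ₃ ∧ ent_HasX W (P₁ - P₂) ξ₄ ∧
      (ξ₃ + ξ₄) * (x₁ - x₂) ^ 2 = ent_V W x₁ x₂ ∧ ξ₃ * ξ₄ * (x₁ - x₂) ^ 2 = ent_W W x₁ x₂ := by
  obtain ⟨y₁, hy₁, rfl⟩ := h₁
  obtain ⟨y₂, hy₂, rfl⟩ := h₂
  have E₁ := ent_eqn hy₁
  have E₂ := ent_eqn hy₂
  have hD : x₁ - x₂ ≠ 0 := sub_ne_zero.mpr hx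
  refine ⟨W.toAffine.addX x₁ x₂ (W.toAffine.slope x₁ x₂ y₁ y₂),
    W.toAffine.addX x₁ x₂ (W.toAffine.slope x₁ x₂ y₁ (W.toAffine.negY x₂ y₂)), ?_, ?_, ?_, ?_⟩
  · exact ⟨_, _, Point.add_of_X_ne hx⟩
  · rw [sub_eq_add_neg, Point.neg_some]
    exact ⟨_, _, Point.add_of_X_ne hx⟩
  · -- the sum
    have e3 : W.toAffine.addX x₁ x₂ (W.toAffine.slope x₁ x₂ y₁ y₂) * (x₁ - x₂) ^ 2 =
        (y₁ - y₂) ^ 2 + W.a₁ * (y₁ - y₂) * (x₁ - x₂) - (W.a₂ + x₁ + x₂) * (x₁ - x₂) ^ 2 := by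
      rw [Affine.slope_of_X_ne hx, Affine.addX]; field_simp; ring
    have e4 : W.toAffine.addX x₁ x₂ (W.toAffine.slope x₁ x₂ y₁ (W.toAffine.negY x₂ y₂)) *
        (x₁ - x₂) ^ 2 = (y₁ - (-y₂ - W.a₁ * x₂ - W.a₃)) ^ 2 +
          W.a₁ * (y₁ - (-y₂ - W.a₁ * x₂ - W.a₃)) * (x₁ - x₂) -
            (W.a₂ + x₁ + x₂) * (x₁ - x₂) ^ 2 := by
      rw [Affine.slope_of_X_ne hx, Affine.addX, Affine.negY]; field_simp; ring
    rw [add_mul, e3, e4]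
    simp only [ent_V, Algebra.algebraMap_self_apply, WeierstrassCurve.b₂, WeierstrassCurve.b₄,
      WeierstrassCurve.b₆]
    linear_combination 2 * E₁ + 2 * E₂
  · -- the product
    have e3 : W.toAffine.addX x₁ x₂ (W.toAffine.slope x₁ x₂ y₁ y₂) * (x₁ - x₂) ^ 2 =
        (y₁ - y₂) ^ 2 + W.a₁ * (y₁ - y₂) * (x₁ - x₂) - (W.a₂ + x₁ + x₂) * (x₁ - x₂) ^ 2 := by
      rw [Affine.slope_of_X_ne hx, Affine.addX]; field_simp; ring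
    have e4 : W.toAffine.addX x₁ x₂ (W.toAffine.slope x₁ x₂ y₁ (W.toAffine.negY x₂ y₂)) *
        (x₁ - x₂) ^ 2 = (y₁ - (-y₂ - W.a₁ * x₂ - W.a₃)) ^ 2 +
          W.a₁ * (y₁ - (-y₂ - W.a₁ * x₂ - W.a₃)) * (x₁ - x₂) -
            (W.a₂ + x₁ + x₂) * (x₁ - x₂) ^ 2 := by
      rw [Affine.slope_of_X_ne hx, Affine.addX, Affine.negY]; field_simp; ring
    have hD2 : (x₁ - x₂) ^ 2 ≠ 0 := pow_ne_zero 2 hD
    apply mul_right_cancel₀ hD2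
    set ξ₃ := W.toAffine.addX x₁ x₂ (W.toAffine.slope x₁ x₂ y₁ y₂)
    set ξ₄ := W.toAffine.addX x₁ x₂ (W.toAffine.slope x₁ x₂ y₁ (W.toAffine.negY x₂ y₂))
    have : ξ₃ * ξ₄ * (x₁ - x₂) ^ 2 * (x₁ - x₂) ^ 2 =
        (ξ₃ * (x₁ - x₂) ^ 2) * (ξ₄ * (x₁ - x₂) ^ 2) := by ring
    rw [this, e3, e4]
    simp only [ent_W, Algebra.algebraMap_self_apply, WeierstrassCurve.b₄, WeierstrassCurve.b₆,
      WeierstrassCurve.b₈]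
    linear_combination (W.a₁ * W.a₃ * x₁ - W.a₁ * W.a₃ * x₂ + W.a₁ * x₁ * y₁ - 2 * W.a₁ * x₂ * y₂ +
      W.a₁ ^ 2 * x₁ * x₂ - W.a₁ ^ 2 * x₂ ^ 2 + 4 * W.a₂ * x₁ * x₂ - W.a₂ * x₁ ^ 2 -
      2 * W.a₂ * x₂ ^ 2 + W.a₃ * y₁ - 2 * W.a₃ * y₂ + W.a₄ * x₁ + W.a₆ + 2 * x₁ * x₂ ^ 2 +
      2 * x₁ ^ 2 * x₂ - x₁ ^ 3 - 2 * x₂ ^ 3 + y₁ ^ 2 - 2 * y₂ ^ 2) * E₁ +
      (-W.a₁ * W.a₃ * x₁ + W.a₁ * W.a₃ * x₂ + W.a₁ * x₂ * y₂ + W.a₁ ^ 2 * x₁ * x₂ -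
      W.a₁ ^ 2 * x₁ ^ 2 + 4 * W.a₂ * x₁ * x₂ - 4 * W.a₂ * x₁ ^ 2 - W.a₂ * x₂ ^ 2 + W.a₃ * y₂ -
      2 * W.a₄ * x₁ + W.a₄ * x₂ - W.a₆ + 2 * x₁ * x₂ ^ 2 + 2 * x₁ ^ 2 * x₂ - 4 * x₁ ^ 3 -
      x₂ ^ 3 + y₂ ^ 2) * E₂

/-- **Duplication formula**: if `V(x,x) = 4x³ + b₂x² + 2b₄x + b₆ ≠ 0` then `2P` is affine with
`x(2P) V(x,x) = W(x,x)`. -/
theorem ent_dup_X {P : W.toAffine.Point} {x : K} (h : ent_HasX W P x)
    (hf : ent_V W x x ≠ 0) :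
    ∃ ξ : K, ent_HasX W (P + P) ξ ∧ ξ * ent_V W x x = ent_W W x x := by
  obtain ⟨y, hy, rfl⟩ := h
  have E := ent_eqn hy
  have hη2 : (y - W.toAffine.negY x y) ^ 2 = ent_V W x x := by
    simp only [ent_V, Algebra.algebraMap_self_apply, WeierstrassCurve.b₂, WeierstrassCurve.b₄,
      WeierstrassCurve.b₆, Affine.negY]
    linear_combination 4 * E
  have hη : y - W.toAffine.negY x y ≠ 0 := by
    intro h0; rw [h0] at hη2; exact hf (by rw [← hη2]; ring)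
  have hy' : y ≠ W.toAffine.negY x y := sub_ne_zero.mp hη
  refine ⟨W.toAffine.addX x x (W.toAffine.slope x x y y), ⟨_, _, Point.add_self_of_Y_ne hy'⟩, ?_⟩
  rw [← hη2, Affine.slope_of_Y_ne rfl hy', Affine.addX]
  field_simp
  simp only [ent_W, Algebra.algebraMap_self_apply, WeierstrassCurve.b₄, WeierstrassCurve.b₆,
    WeierstrassCurve.b₈, Affine.negY]
  linear_combination (-W.a₁ ^ 2 - 4 * W.a₂ - 8 * x) * E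

end Fermat.Agent.Lib.EN
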