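/-
The x-coordinate recursion `r₁ = X`, `r₂ = W(X,X)/V(X,X)`,
`r_{n+3} = V(r_{n+2}, X)/(r_{n+2} - X)² - r_{n+1}` and the height formula `h(r_n) = n²`.
-/
import Fermat.Agent.Lib.EN.AddSubHt2

set_option autoImplicit false
set_option linter.unusedSectionVars false

namespace Fermat.Agent.Lib.EN

open Polynomial

variable {K : Type*} [Field K] (W : WeierstrassCurve K)

/-- The rational functions `r_n` with `x([n]P) = r_n(x(P))` (value at `0` is junk). -/
noncomputable def ent_r : ℕ → RatFunc K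
  | 0 => 0
  | 1 => RatFunc.X
  | 2 => ent_W W (RatFunc.X : RatFunc K) RatFunc.X / ent_V W (RatFunc.X : RatFunc K) RatFunc.X
  | (n + 3) => ent_V W (ent_r (n + 2)) RatFunc.X / (ent_r (n + 2) - RatFunc.X) ^ 2 - ent_r (n + 1)

theorem ent_r_one : ent_r W 1 = RatFunc.X := rfl

theorem ent_r_two : ent_r W 2 =
    ent_W W (RatFunc.X : RatFunc K) RatFunc.X / ent_V W (RatFunc.X : RatFunc K) RatFunc.X := rfl

theorem ent_r_succ (n : ℕ) : ent_r W (n + 3) =
    ent_V W (ent_r W (n + 2)) RatFunc.X / (ent_r W (n + 2) - RatFunc.X) ^ 2 - ent_r W (n + 1) := by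
  rw [ent_r]

theorem ent_ht_X : ent_ht (RatFunc.X : RatFunc K) = 1 := by
  unfold ent_ht
  rw [RatFunc.num_X, RatFunc.denom_X, natDegree_X, natDegree_one]
  rfl

section base

variable [IsAlgClosed K] [W.IsElliptic]

theorem ent_dup_coprime : IsCoprime (ent_Wh W X 1) (ent_Vh W X 1) := by
  obtain ⟨l₀, l₁, l₂, h⟩ := ent_bezout_of_no_common_root
    (ent_addsub_no_common_root W (a := X) (b := 1) isCoprime_one_right)
  have hU : ent_Uh (X : K[X]) 1 = 0 := by unfold ent_Uh; ring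
  rw [hU, mul_zero, add_zero] at h
  exact ⟨l₀, l₁, h⟩

theorem ent_dup_natDegree : (ent_Wh W X 1).natDegree = 4 := by
  have h1 : (X : K[X]).natDegree ≤ 1 := natDegree_X_le
  have h2 : (1 : K[X]).natDegree ≤ 1 := by rw [natDegree_one]; exact Nat.zero_le _
  apply le_antisymm (ent_Wh_deg W h1 h2)
  apply le_natDegree_of_ne_zero
  have := ent_Wh_coeff W h1 h2
  rw [show 2 * (1 + 1) = 4 from rfl] at this
  rw [this, coeff_X_one]
  norm_num

theorem ent_dup_denom_ne_zero : ent_Vh W (X : K[X]) 1 ≠ 0 := by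
  intro h0
  have hc := ent_dup_coprime W
  rw [h0] at hc
  have hu : IsUnit (ent_Wh W (X : K[X]) 1) := isCoprime_zero_right.mp hc
  have := natDegree_eq_zero_of_isUnit hu
  rw [ent_dup_natDegree] at this
  exact absurd this (by norm_num)

theorem ent_r_two_eq : ent_r W 2 = algebraMap K[X] (RatFunc K) (ent_Wh W X 1) /
    algebraMap K[X] (RatFunc K) (ent_Vh W X 1) := by
  have hX : algebraMap K[X] (RatFunc K) X = RatFunc.X := RatFunc.algebraMap_X
  have hC : ∀ c : K, algebraMap K[X] (RatFunc K) (C c) = algebraMap K (RatFunc K) c := fun c => by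
    rw [RatFunc.algebraMap_C]; rfl
  rw [ent_r_two]
  unfold ent_Wh ent_Vh ent_W ent_V
  simp only [map_add, map_sub, map_mul, map_pow, hX, hC, map_ofNat, map_one]
  congr 1 <;> ring

theorem ent_ht_r_two : ent_ht (ent_r W 2) = 4 := by
  rw [ent_ht_eq_of_coprime (ent_dup_denom_ne_zero W) (ent_dup_coprime W) (ent_r_two_eq W),
    ent_dup_natDegree]
  apply max_eq_left
  have h1 : (X : K[X]).natDegree ≤ 1 := natDegree_X_le
  have h2 : (1 : K[X]).natDegree ≤ 1 := by rw [natDegree_one]; exact Nat.zero_le _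
  exact ent_Vh_deg W h1 h2

theorem ent_V_XX_ne_zero : ent_V W (RatFunc.X : RatFunc K) RatFunc.X ≠ 0 := by
  have hX : algebraMap K[X] (RatFunc K) X = RatFunc.X := RatFunc.algebraMap_X
  have hC : ∀ c : K, algebraMap K[X] (RatFunc K) (C c) = algebraMap K (RatFunc K) c := fun c => by
    rw [RatFunc.algebraMap_C]; rfl
  have : ent_V W (RatFunc.X : RatFunc K) RatFunc.X =
      algebraMap K[X] (RatFunc K) (ent_Vh W X 1) := by
    unfold ent_Vh ent_V
    simp only [map_add, map_mul, map_pow, hX, hC, map_ofNat, map_one]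
    ring
  rw [this]
  exact RatFunc.algebraMap_ne_zero (ent_dup_denom_ne_zero W)

end base

/-- The invariant carried along the recursion. -/
theorem ent_r_inv [IsAlgClosed K] [W.IsElliptic] (n : ℕ) :
    ent_ht (ent_r W (n + 1)) = (n + 1) ^ 2 ∧ ent_ht (ent_r W (n + 2)) = (n + 2) ^ 2 ∧
      ent_Phi W (ent_r W (n + 1)) (ent_r W (n + 2)) RatFunc.X = 0 := by
  induction n with
  | zero =>
    refine ⟨?_, ?_, ?_⟩
    · show ent_ht (ent_r W 1) = (0 + 1) ^ 2
      rw [ent_r_one, ent_ht_X]; norm_num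
    · show ent_ht (ent_r W 2) = (0 + 2) ^ 2
      rw [ent_ht_r_two]; norm_num
    rw [ent_Phi_symm]
    have hV := ent_V_XX_ne_zero W
    simp only [zero_add, ent_r_one, ent_r_two]
    unfold ent_Phi
    field_simp
    ring
  | succ n ih =>
    obtain ⟨h1, h2, h3⟩ := ih
    set τ := ent_r W (n + 1) with hτ
    set ρ := ent_r W (n + 2) with hρ
    set σ := ent_r W (n + 3) with hσ
    have hρX : ρ ≠ RatFunc.X := by
      intro h
      rw [h, ent_ht_X] at h2
      have h4 : 2 ≤ n + 2 := by omega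
      have := Nat.pow_le_pow_left h4 2
      omega
    have hρX' : (ρ - RatFunc.X) ^ 2 ≠ 0 := pow_ne_zero 2 (sub_ne_zero.mpr hρX)
    have eσ : σ = ent_V W ρ RatFunc.X / (ρ - RatFunc.X) ^ 2 - τ := ent_r_succ W n
    have hs : (σ + τ) * (ρ - RatFunc.X) ^ 2 = ent_V W ρ RatFunc.X := by
      rw [eσ]; field_simp; ring
    have hΦ : (ρ - RatFunc.X) ^ 2 * τ ^ 2 - ent_V W ρ RatFunc.X * τ + ent_W W ρ RatFunc.X = 0 := h3
    have hp : σ * τ * (ρ - RatFunc.X) ^ 2 = ent_W W ρ RatFunc.X := by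
      rw [eσ]
      field_simp
      linear_combination -hΦ
    have hht := ent_ht_addsub W hρX hs hp
    refine ⟨h2, ?_, ?_⟩
    · show ent_ht σ = (n + 1 + 2) ^ 2
      rw [h1, h2] at hht
      have : ent_ht σ = 2 * ((n + 2) ^ 2 + 1) - (n + 1) ^ 2 := by omega
      rw [this]
      have : (n + 1) ^ 2 ≤ 2 * ((n + 2) ^ 2 + 1) := by nlinarith
      zify [this]
      ring
    · show ent_Phi W ρ σ RatFunc.X = 0
      rw [ent_Phi_symm]
      unfold ent_Phi
      linear_combination σ * hs - hp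

theorem ent_ht_r [IsAlgClosed K] [W.IsElliptic] (n : ℕ) (hn : 1 ≤ n) :
    ent_ht (ent_r W n) = n ^ 2 := by
  obtain ⟨m, rfl⟩ : ∃ m, n = m + 1 := ⟨n - 1, by omega⟩
  exact (ent_r_inv W m).1

end Fermat.Agent.Lib.EN
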