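/-
Values of rational functions at points where they are regular: `ent_Val ρ x₀ ξ`.
-/
import Fermat.Agent.Lib.EN.AddSubHt

set_option autoImplicit false
set_option linter.unusedSectionVars false

namespace Fermat.Agent.Lib.EN

open Polynomial

variable {K : Type*} [Field K]

local notation "φ" => algebraMap K[X] (RatFunc K)

/-- `ρ` is regular at `x₀` with value `ξ`. -/
def ent_Val (ρ : RatFunc K) (x₀ ξ : K) : Prop :=
  ∃ a b : K[X], b.eval x₀ ≠ 0 ∧ ρ * φ b = φ a ∧ ξ * b.eval x₀ = a.eval x₀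

theorem ent_Val_X (x₀ : K) : ent_Val (RatFunc.X : RatFunc K) x₀ x₀ :=
  ⟨X, 1, by simp, by simp, by simp⟩

theorem ent_Val_C (c x₀ : K) : ent_Val (algebraMap K (RatFunc K) c) x₀ c :=
  ⟨C c, 1, by simp, by
    rw [map_one, mul_one, RatFunc.algebraMap_C]; rfl, by simp⟩

theorem ent_Val_ofNat (n : ℕ) [n.AtLeastTwo] (x₀ : K) :
    ent_Val (OfNat.ofNat n : RatFunc K) x₀ (OfNat.ofNat n) :=
  ⟨C (OfNat.ofNat n), 1, by simp, by
    rw [map_one, mul_one, RatFunc.algebraMap_C]; exact (map_ofNat RatFunc.C n).symm, by simp⟩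

variable {ρ ρ' : RatFunc K} {x₀ ξ ξ' : K}

theorem ent_Val.add (h : ent_Val ρ x₀ ξ) (h' : ent_Val ρ' x₀ ξ') :
    ent_Val (ρ + ρ') x₀ (ξ + ξ') := by
  obtain ⟨a, b, hb, e, v⟩ := h
  obtain ⟨a', b', hb', e', v'⟩ := h'
  refine ⟨a * b' + a' * b, b * b', ?_, ?_, ?_⟩
  · rw [eval_mul]; exact mul_ne_zero hb hb'
  · simp only [map_mul, map_add]; rw [← e, ← e']; ring
  · simp only [eval_mul, eval_add]; rw [← v, ← v']; ring

theorem ent_Val.mul (h : ent_Val ρ x₀ ξ) (h' : ent_Val ρ' x₀ ξ') :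
    ent_Val (ρ * ρ') x₀ (ξ * ξ') := by
  obtain ⟨a, b, hb, e, v⟩ := h
  obtain ⟨a', b', hb', e', v'⟩ := h'
  refine ⟨a * a', b * b', ?_, ?_, ?_⟩
  · rw [eval_mul]; exact mul_ne_zero hb hb'
  · simp only [map_mul]; rw [← e, ← e']; ring
  · simp only [eval_mul]; rw [← v, ← v']; ring

theorem ent_Val.neg (h : ent_Val ρ x₀ ξ) : ent_Val (-ρ) x₀ (-ξ) := by
  obtain ⟨a, b, hb, e, v⟩ := h
  refine ⟨-a, b, hb, ?_, ?_⟩
  · rw [map_neg, ← e]; ring
  · rw [eval_neg, ← v]; ring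

theorem ent_Val.sub (h : ent_Val ρ x₀ ξ) (h' : ent_Val ρ' x₀ ξ') :
    ent_Val (ρ - ρ') x₀ (ξ - ξ') := by
  rw [sub_eq_add_neg, sub_eq_add_neg]; exact h.add h'.neg

theorem ent_Val.pow (h : ent_Val ρ x₀ ξ) (n : ℕ) : ent_Val (ρ ^ n) x₀ (ξ ^ n) := by
  induction n with
  | zero =>
    simp only [pow_zero]
    exact ⟨1, 1, by simp, by simp, by simp⟩
  | succ n ih => rw [pow_succ, pow_succ]; exact ih.mul h

theorem ent_Val.inv (h : ent_Val ρ x₀ ξ) (hξ : ξ ≠ 0) : ent_Val ρ⁻¹ x₀ ξ⁻¹ := by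
  obtain ⟨a, b, hb, e, v⟩ := h
  have ha : a.eval x₀ ≠ 0 := by rw [← v]; exact mul_ne_zero hξ hb
  have ha0 : a ≠ 0 := by rintro rfl; simp at ha
  have hρ : ρ ≠ 0 := by
    rintro rfl
    rw [zero_mul] at e
    exact RatFunc.algebraMap_ne_zero ha0 e.symm
  refine ⟨b, a, ha, ?_, ?_⟩
  · rw [← e]; field_simp
  · rw [← v]; field_simp

theorem ent_Val.div (h : ent_Val ρ x₀ ξ) (h' : ent_Val ρ' x₀ ξ') (hξ' : ξ' ≠ 0) :
    ent_Val (ρ / ρ') x₀ (ξ / ξ') := by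
  rw [div_eq_mul_inv, div_eq_mul_inv]; exact h.mul (h'.inv hξ')

/-- A value determines the numerator/denominator evaluation. -/
theorem ent_Val.num_denom (h : ent_Val ρ x₀ ξ) :
    ρ.denom.eval x₀ ≠ 0 ∧ ξ * ρ.denom.eval x₀ = ρ.num.eval x₀ := by
  obtain ⟨a, b, hb, e, v⟩ := h
  have hb0 : b ≠ 0 := by rintro rfl; simp at hb
  have hrel : ρ.num * b = a * ρ.denom := by
    apply (RatFunc.num_mul_eq_mul_denom_iff hb0).mpr
    have : φ b ≠ 0 := RatFunc.algebraMap_ne_zero hb0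
    rw [← e]; field_simp
  have hdvd : ρ.denom ∣ b := by
    have : ρ.denom ∣ ρ.num * b := ⟨a, by rw [hrel]; ring⟩
    exact (RatFunc.isCoprime_num_denom ρ).symm.dvd_of_dvd_mul_left this
  obtain ⟨c, hc⟩ := hdvd
  have hden : ρ.denom.eval x₀ ≠ 0 := by
    intro h0; apply hb; rw [hc, eval_mul, h0, zero_mul]
  refine ⟨hden, ?_⟩
  have := congrArg (Polynomial.eval x₀) hrel
  simp only [eval_mul] at this
  apply mul_right_cancel₀ hb
  rw [this, ← v]; ring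

theorem ent_Val_of_denom_ne_zero (ρ : RatFunc K) {x₀ : K} (h : ρ.denom.eval x₀ ≠ 0) :
    ent_Val ρ x₀ (ρ.num.eval x₀ / ρ.denom.eval x₀) := by
  refine ⟨ρ.num, ρ.denom, h, ?_, ?_⟩
  · have : φ ρ.denom ≠ 0 := RatFunc.algebraMap_ne_zero (RatFunc.denom_ne_zero ρ)
    calc ρ * φ ρ.denom = (φ ρ.num / φ ρ.denom) * φ ρ.denom := by rw [RatFunc.num_div_denom]
      _ = φ ρ.num := div_mul_cancel₀ _ this
  · field_simp

theorem ent_Val.unique (h : ent_Val ρ x₀ ξ) (h' : ent_Val ρ x₀ ξ') : ξ = ξ' := by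
  obtain ⟨h1, h2⟩ := h.num_denom
  obtain ⟨_, h2'⟩ := h'.num_denom
  apply mul_right_cancel₀ h1
  rw [h2, h2']

variable (W : WeierstrassCurve K)

theorem ent_Val.apV (h : ent_Val ρ x₀ ξ) :
    ent_Val (ent_V W ρ RatFunc.X) x₀ (ent_V W ξ x₀) := by
  unfold ent_V
  have hX := ent_Val_X x₀
  simp only [Algebra.algebraMap_self_apply]
  exact ((((ent_Val_ofNat 2 x₀).mul h).mul hX).mul (h.add hX)).add
    (((ent_Val_C W.b₂ x₀).mul h).mul hX) |>.add ((ent_Val_C W.b₄ x₀).mul (h.add hX)) |>.add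
    (ent_Val_C W.b₆ x₀)

theorem ent_Val.apW (h : ent_Val ρ x₀ ξ) :
    ent_Val (ent_W W ρ RatFunc.X) x₀ (ent_W W ξ x₀) := by
  unfold ent_W
  have hX := ent_Val_X x₀
  simp only [Algebra.algebraMap_self_apply]
  exact (((h.pow 2).mul (hX.pow 2)).sub (((ent_Val_C W.b₄ x₀).mul h).mul hX)).sub
    ((ent_Val_C W.b₆ x₀).mul (h.add hX)) |>.sub (ent_Val_C W.b₈ x₀)

end Fermat.Agent.Lib.EN
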