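/-
Specialisation: outside a finite set of `x₀`, `x([k]P) = r_k(x₀)` for all `1 ≤ k ≤ n`.
-/
import Fermat.Agent.Lib.EN.Rec
import Fermat.Agent.Lib.EN.PointAdd
import Fermat.Agent.Lib.EN.Val

set_option autoImplicit false
set_option linter.unusedSectionVars false

namespace Fermat.Agent.Lib.EN

open Polynomial WeierstrassCurve WeierstrassCurve.Affine

variable {K : Type*} [Field K] [DecidableEq K] (W : WeierstrassCurve K)

/-- `P` (with x-coordinate `x₀`) is good up to `n`: all multiples `k • P`, `1 ≤ k ≤ n`, are affine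
with x-coordinate the value of `r_k` at `x₀`. -/
def ent_Good (n : ℕ) (P : W.toAffine.Point) (x₀ : K) : Prop :=
  ∀ k, 1 ≤ k → k ≤ n → ∃ ξ, ent_HasX W (k • P) ξ ∧ ent_Val (ent_r W k) x₀ ξ

theorem ent_eval_Vh_X_one (x₀ : K) : (ent_Vh W X 1).eval x₀ = ent_V W x₀ x₀ := by
  unfold ent_Vh ent_V
  simp only [eval_add, eval_mul, eval_pow, eval_X, eval_C, eval_one, eval_ofNat,
    Algebra.algebraMap_self_apply]
  ring

theorem ent_r_ne_X [IsAlgClosed K] [W.IsElliptic] (n : ℕ) (hn : 2 ≤ n) :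
    ent_r W n ≠ RatFunc.X := by
  intro h
  have := ent_ht_r W n (by omega)
  rw [h, ent_ht_X] at this
  have h4 := Nat.pow_le_pow_left hn 2
  omega

theorem ent_spec [IsAlgClosed K] [W.IsElliptic] (n : ℕ) (hn : 2 ≤ n) :
    ∃ B : Finset K, ∀ (P : W.toAffine.Point) (x₀ : K), ent_HasX W P x₀ → x₀ ∉ B →
      ent_Good W n P x₀ := by
  induction n, hn using Nat.le_induction with
  | base =>
    refine ⟨(ent_Vh W X 1).roots.toFinset, ?_⟩
    intro P x₀ hP hx₀ k hk1 hk2
    have hf : ent_V W x₀ x₀ ≠ 0 := by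
      intro h0
      apply hx₀
      rw [Multiset.mem_toFinset, mem_roots (ent_dup_denom_ne_zero W), IsRoot.def,
        ent_eval_Vh_X_one, h0]
    have hk : k = 1 ∨ k = 2 := by omega
    rcases hk with rfl | rfl
    · exact ⟨x₀, by rwa [one_nsmul], by rw [ent_r_one]; exact ent_Val_X x₀⟩
    · obtain ⟨ξ, hξ, hrel⟩ := ent_dup_X hP hf
      refine ⟨ξ, by rwa [two_nsmul], ?_⟩
      have hX := ent_Val_X x₀
      have hval : ent_Val (ent_r W 2) x₀ (ent_W W x₀ x₀ / ent_V W x₀ x₀) := by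
        rw [ent_r_two]; exact (hX.apW W).div (hX.apV W) hf
      have : ξ = ent_W W x₀ x₀ / ent_V W x₀ x₀ := by
        rw [eq_div_iff hf]; exact hrel
      rwa [this]
  | succ n hn ih =>
    obtain ⟨B, hB⟩ := ih
    set ρ := ent_r W n with hρ
    have hρX : ρ ≠ RatFunc.X := ent_r_ne_X W n hn
    set q : K[X] := ρ.num - X * ρ.denom with hq
    have hq0 : q ≠ 0 := by
      intro h0
      apply hρX
      have : ρ.num = X * ρ.denom := sub_eq_zero.mp h0
      have hd : algebraMap K[X] (RatFunc K) ρ.denom ≠ 0 :=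
        RatFunc.algebraMap_ne_zero (RatFunc.denom_ne_zero ρ)
      rw [← RatFunc.num_div_denom ρ, this, map_mul, RatFunc.algebraMap_X]
      field_simp
    refine ⟨B ∪ q.roots.toFinset, ?_⟩
    intro P x₀ hP hx₀ k hk1 hk2
    have hxB : x₀ ∉ B := fun h => hx₀ (Finset.mem_union_left _ h)
    have hxq : q.eval x₀ ≠ 0 := by
      intro h0
      apply hx₀
      apply Finset.mem_union_right
      rw [Multiset.mem_toFinset, mem_roots hq0]; exact h0
    have hgood := hB P x₀ hP hxB
    rcases Nat.lt_or_ge k (n + 1) with hlt | hge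
    · exact hgood k hk1 (by omega)
    · have hk : k = n + 1 := by omega
      subst hk
      obtain ⟨ξn, hξn, hvn⟩ := hgood n (by omega) le_rfl
      obtain ⟨ξm, hξm, hvm⟩ := hgood (n - 1) (by omega) (by omega)
      have hne : ξn ≠ x₀ := by
        intro heq
        obtain ⟨h1, h2⟩ := hvn.num_denom
        apply hxq
        rw [hq, eval_sub, eval_mul, eval_X, ← h2, heq]; ring
      obtain ⟨ξ₃, ξ₄, h3, h4, hsum, _⟩ := ent_addsub_X hξn hP hne
      have e3 : n • P + P = (n + 1) • P := (succ_nsmul P n).symm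
      have e4 : n • P - P = (n - 1) • P := by
        have : n • P = (n - 1) • P + P := by
          rw [← succ_nsmul]; congr 1; omega
        rw [this]; abel
      rw [e3] at h3
      rw [e4] at h4
      have h4' : ξ₄ = ξm := h4.unique hξm
      refine ⟨ξ₃, h3, ?_⟩
      have hD : (ξn - x₀) ^ 2 ≠ 0 := pow_ne_zero 2 (sub_ne_zero.mpr hne)
      have hξ₃ : ξ₃ = ent_V W ξn x₀ / (ξn - x₀) ^ 2 - ξm := by
        rw [← h4', eq_sub_iff_add_eq, eq_div_iff hD]; exact hsum
      rw [hξ₃]
      obtain ⟨m, rfl⟩ : ∃ m, n = m + 2 := ⟨n - 2, by omega⟩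
      have : ent_r W (m + 2 + 1) = ent_V W (ent_r W (m + 2)) RatFunc.X /
          (ent_r W (m + 2) - RatFunc.X) ^ 2 - ent_r W (m + 1) := ent_r_succ W m
      rw [this]
      have hvm' : ent_Val (ent_r W (m + 1)) x₀ ξm := by
        have : m + 2 - 1 = m + 1 := by omega
        rwa [this] at hvm
      exact ((hvn.apV W).div ((hvn.sub (ent_Val_X x₀)).pow 2) hD).sub hvm'

end Fermat.Agent.Lib.EN
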