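/-
`#E[n] = n²` for an elliptic curve over an algebraically closed field of characteristic zero.
-/
import Fermat.Agent.Lib.EN.Spec
import Fermat.Agent.Lib.EN.Generic

set_option autoImplicit false
set_option linter.unusedSectionVars false

namespace Fermat.Agent.Lib.EN

open Polynomial WeierstrassCurve WeierstrassCurve.Affine

variable {K : Type*} [Field K] [DecidableEq K] (W : WeierstrassCurve K)

/-- The x-coordinate as a total function (junk value `0` at the point at infinity). -/
def ent_xc : W.toAffine.Point → K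
  | .zero => 0
  | .some x _ _ => x

variable {W}

theorem ent_hasX_iff {P : W.toAffine.Point} {ξ : K} :
    ent_HasX W P ξ ↔ P ≠ 0 ∧ ent_xc W P = ξ := by
  constructor
  · rintro ⟨y, hy, rfl⟩
    exact ⟨Point.some_ne_zero hy, rfl⟩
  · rintro ⟨h0, rfl⟩
    cases P with
    | zero => exact absurd rfl h0
    | some x y hxy => exact ⟨y, hxy, rfl⟩

theorem ent_HasX.xc {P : W.toAffine.Point} {ξ : K} (h : ent_HasX W P ξ) : ent_xc W P = ξ :=
  (ent_hasX_iff.mp h).2

theorem ent_hasX_xc {P : W.toAffine.Point} (h : P ≠ 0) : ent_HasX W P (ent_xc W P) :=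
  ent_hasX_iff.mpr ⟨h, rfl⟩

/-- A point equal to its negative has x-coordinate a root of `V(x,x)`. -/
theorem ent_HasX.two_torsion {Q : W.toAffine.Point} {c : K} (h : ent_HasX W Q c)
    (hQ : Q = -Q) : ent_V W c c = 0 := by
  obtain ⟨y, hy, rfl⟩ := h
  rw [Point.neg_some, Point.some.injEq] at hQ
  have E : y ^ 2 + W.a₁ * c * y + W.a₃ * y = c ^ 3 + W.a₂ * c ^ 2 + W.a₄ * c + W.a₆ :=
    (W.toAffine.equation_iff c y).mp hy.1
  have hy' : y = -y - W.a₁ * c - W.a₃ := hQ.2
  simp only [ent_V, Algebra.algebraMap_self_apply, WeierstrassCurve.b₂, WeierstrassCurve.b₄,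
    WeierstrassCurve.b₆]
  have h2 : 2 * y + W.a₁ * c + W.a₃ = 0 := by linear_combination hy'
  linear_combination (-4) * E + (2 * y + W.a₁ * c + W.a₃) * h2

theorem ent_fibre_finite (z : K) : {P : W.toAffine.Point | ent_HasX W P z}.Finite := by
  by_cases h : ∃ P₀ : W.toAffine.Point, ent_HasX W P₀ z
  · obtain ⟨P₀, hP₀⟩ := h
    apply Set.Finite.subset (Set.toFinite {P₀, -P₀})
    intro P hP
    rcases ent_HasX.eq_or_eq_neg hP hP₀ with h | h
    · exact Or.inl h
    · exact Or.inr h
  · have : {P : W.toAffine.Point | ent_HasX W P z} = ∅ := by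
      ext P; simp only [Set.mem_empty_iff_false, iff_false]
      exact fun hP => h ⟨P, hP⟩
    rw [this]; exact Set.finite_empty

theorem ent_exists_point [IsAlgClosed K] [W.IsElliptic] (x : K) :
    ∃ P : W.toAffine.Point, ent_HasX W P x := by
  obtain ⟨y, hy⟩ := IsAlgClosed.exists_root
    (X ^ 2 + C (W.a₁ * x + W.a₃) * X - C (x ^ 3 + W.a₂ * x ^ 2 + W.a₄ * x + W.a₆) : K[X]) (by
      have : (X ^ 2 + C (W.a₁ * x + W.a₃) * X -
          C (x ^ 3 + W.a₂ * x ^ 2 + W.a₄ * x + W.a₆) : K[X]).degree = 2 := by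
        compute_degree!
      rw [this]; norm_num)
  have heq : W.toAffine.Equation x y := by
    rw [W.toAffine.equation_iff]
    have := hy
    simp only [IsRoot.def, eval_add, eval_sub, eval_mul, eval_pow, eval_X, eval_C] at this
    linear_combination this
  exact ⟨_, y, (W.toAffine.equation_iff_nonsingular).mp heq, rfl⟩

end Fermat.Agent.Lib.EN
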