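/-
`#E[n] = n²`: the main counting argument.
-/
import Fermat.Agent.Lib.EN.Count

set_option autoImplicit false
set_option linter.unusedSectionVars false

namespace Fermat.Agent.Lib.EN

open Polynomial WeierstrassCurve WeierstrassCurve.Affine

variable {K : Type*} [Field K] [DecidableEq K] (W : WeierstrassCurve K)

/-- For `n ≥ 2` there is a point `Q` whose fibre under `[n]` has exactly `n²` elements. -/
theorem ent_exists_fibre [IsAlgClosed K] [CharZero K] [W.IsElliptic] (n : ℕ) (hn : 2 ≤ n) :
    ∃ Q : W.toAffine.Point, {P : W.toAffine.Point | n • P = Q}.ncard = n ^ 2 := by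
  classical
  set ρ := ent_r W n with hρ
  set a := ρ.num with ha
  set b := ρ.denom with hb
  have hab : IsCoprime a b := RatFunc.isCoprime_num_denom ρ
  have hb0 : b ≠ 0 := RatFunc.denom_ne_zero ρ
  have hht : max a.natDegree b.natDegree = n ^ 2 := ent_ht_r W n (by omega)
  have hn2 : 1 ≤ n ^ 2 := Nat.one_le_pow _ _ (by omega)
  obtain ⟨B, hB⟩ := ent_spec W n hn
  -- the bad x-coordinates
  set T2 : Set K := {z | ent_V W z z = 0} with hT2
  have hT2fin : T2.Finite := by
    have : T2 = ↑((ent_Vh W X 1).roots.toFinset) := by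
      ext z
      simp only [hT2, Finset.mem_coe, Multiset.mem_toFinset, mem_roots (ent_dup_denom_ne_zero W),
        IsRoot.def, ent_eval_Vh_X_one]
      rfl
    rw [this]; exact Finset.finite_toSet _
  set Z : Set K := ↑B ∪ T2 with hZ
  have hZfin : Z.Finite := (Finset.finite_toSet B).union hT2fin
  -- the bad points
  set BP : Set W.toAffine.Point := {0} ∪ ⋃ z ∈ Z, {P | ent_HasX W P z} with hBP
  have hBPfin : BP.Finite :=
    (Set.finite_singleton _).union (hZfin.biUnion fun z _ => ent_fibre_finite z)
  set C5 : Set K := (fun P => ent_xc W (n • P)) '' BP with hC5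
  have hC5fin : C5.Finite := hBPfin.image _
  obtain ⟨Cexc, hCfin, hC⟩ := ent_generic_fibre hab hb0 (by rw [hht]; exact hn2) Z hZfin
  -- choose `c`
  obtain ⟨c, hc⟩ := ((hCfin.union hC5fin).union hT2fin).exists_notMem
  have hcC : c ∉ Cexc := fun h => hc (Or.inl (Or.inl h))
  have hc5 : c ∉ C5 := fun h => hc (Or.inl (Or.inr h))
  have hcT : ent_V W c c ≠ 0 := fun h => hc (Or.inr h)
  obtain ⟨hdeg, hsep, hroots⟩ := hC c hcC
  set g := a - C c * b with hg
  obtain ⟨Q, hQ⟩ := ent_exists_point (W := W) c
  have hQ0 : Q ≠ 0 := hQ.ne_zero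
  have hQneg : Q ≠ -Q := fun h => hcT (hQ.two_torsion h)
  refine ⟨Q, ?_⟩
  -- the bijection with the roots of `g`
  have hbij : Set.BijOn (ent_xc W) {P : W.toAffine.Point | n • P = Q} {z | g.eval z = 0} := by
    refine ⟨?_, ?_, ?_⟩
    · -- maps to
      intro P hP
      have hPQ : n • P = Q := hP
      have hP0 : P ≠ 0 := by
        rintro rfl
        rw [smul_zero] at hPQ
        exact hQ0 hPQ.symm
      have hPx := ent_hasX_xc hP0
      have hzB : ent_xc W P ∉ B := by
        intro hmem
        apply hc5
        refine ⟨P, Or.inr ?_, ?_⟩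
        · simp only [Set.mem_iUnion]
          exact ⟨ent_xc W P, Or.inl hmem, hPx⟩
        · show ent_xc W (n • P) = c
          rw [hPQ]; exact hQ.xc
      obtain ⟨ξ, hξ, hval⟩ := hB P _ hPx hzB n (by omega) le_rfl
      rw [hPQ] at hξ
      have hξc : ξ = c := hξ.unique hQ
      rw [hξc] at hval
      obtain ⟨h1, h2⟩ := hval.num_denom
      show g.eval (ent_xc W P) = 0
      simp only [hg, eval_sub, eval_mul, eval_C]
      rw [← h2]; ring
    · -- injective
      intro P hP P' hP' hxx
      have hPQ : n • P = Q := hP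
      have hPQ' : n • P' = Q := hP'
      have hP0 : P ≠ 0 := by
        rintro rfl
        rw [smul_zero] at hPQ
        exact hQ0 hPQ.symm
      have hP0' : P' ≠ 0 := by
        rintro rfl
        rw [smul_zero] at hPQ'
        exact hQ0 hPQ'.symm
      have h1 := ent_hasX_xc hP0
      have h2 := ent_hasX_xc hP0'
      rw [← hxx] at h2
      rcases ent_HasX.eq_or_eq_neg h1 h2 with h | h
      · exact h
      · exfalso
        apply hQneg
        calc Q = n • P := hPQ.symm
          _ = n • (-P') := by rw [h]
          _ = -(n • P') := smul_neg _ _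
          _ = -Q := by rw [hPQ']
    · -- surjective
      intro z hz
      have hz0 : g.eval z = 0 := hz
      obtain ⟨hzZ, hbz⟩ := hroots z hz0
      have hzB : z ∉ B := fun h => hzZ (Or.inl h)
      obtain ⟨P, hP⟩ := ent_exists_point (W := W) z
      obtain ⟨ξ, hξ, hval⟩ := hB P z hP hzB n (by omega) le_rfl
      obtain ⟨_, h2⟩ := hval.num_denom
      have hξc : ξ = c := by
        apply mul_right_cancel₀ hbz
        rw [h2]
        have : g.eval z = a.eval z - c * b.eval z := by simp [hg]
        rw [this] at hz0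
        exact sub_eq_zero.mp hz0
      rw [hξc] at hξ
      rcases ent_HasX.eq_or_eq_neg hξ hQ with h | h
      · exact ⟨P, h, hP.xc⟩
      · refine ⟨-P, ?_, hP.neg.xc⟩
        show n • (-P) = Q
        rw [smul_neg, h, neg_neg]
  have hcard : {P : W.toAffine.Point | n • P = Q}.ncard = {z | g.eval z = 0}.ncard := by
    rw [← hbij.image_eq]; exact hbij.injOn.ncard_image.symm
  rw [hcard]
  -- count the roots
  have hg0 : g ≠ 0 := by
    intro h0
    rw [h0, natDegree_zero, hht] at hdeg
    omega
  have hset : {z | g.eval z = 0} = ↑(g.roots.toFinset) := by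
    ext z; simp [mem_roots hg0]
  rw [hset, Set.ncard_coe_finset, Multiset.toFinset_card_of_nodup (nodup_roots hsep),
    ← (IsAlgClosed.splits g).natDegree_eq_card_roots, hdeg, hht]

end Fermat.Agent.Lib.EN
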