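/-
Moonshot M1 (S13), step (a4), polynomial part: for coprime `a b : K[X]` over an algebraically
closed field of characteristic `0` with `d = max (deg a) (deg b) > 0`, the polynomial `a - c b` is
separable of degree `d` for all `c` outside a finite set (`enc_exists_good`), so it has exactly `d`
distinct roots.
-/
import Mathlib

set_option autoImplicit false

namespace Fermat.Agent.Lib.EN

open Polynomial

variable {K : Type*} [Field K]

/-- the Wronskian of two coprime polynomials, not both constant, is nonzero (characteristic `0`) -/
lemma enc_wronskian_ne_zero [CharZero K] {a b : K[X]} (hcop : IsCoprime a b)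
    (hdeg : 0 < max a.natDegree b.natDegree) :
    derivative a * b - a * derivative b ≠ 0 := by
  intro h
  have h' : derivative a * b = a * derivative b := sub_eq_zero.mp h
  have ha : a.natDegree = 0 := by
    by_contra hne
    have hdvd : a ∣ derivative a :=
      hcop.dvd_of_dvd_mul_right ⟨derivative b, h'⟩
    have hd0 : derivative a ≠ 0 := fun h0 => hne (derivative_eq_zero.mp h0)
    have h1 := natDegree_le_of_dvd hdvd hd0
    have h2 := natDegree_derivative_lt hne
    omega
  have hb : b.natDegree = 0 := by
    by_contra hne
    have hdvd : b ∣ derivative b :=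
      hcop.symm.dvd_of_dvd_mul_left ⟨derivative a, by rw [← h', mul_comm]⟩
    have hd0 : derivative b ≠ 0 := fun h0 => hne (derivative_eq_zero.mp h0)
    have h1 := natDegree_le_of_dvd hdvd hd0
    have h2 := natDegree_derivative_lt hne
    omega
  rw [ha, hb] at hdeg
  simp at hdeg

/-- coprime polynomials have no common root -/
lemma enc_not_both_zero {a b : K[X]} (hcop : IsCoprime a b) (x : K) (ha : a.eval x = 0)
    (hb : b.eval x = 0) : False := by
  obtain ⟨u, v, huv⟩ := hcop
  have := congrArg (eval x) huv
  simp only [eval_add, eval_mul, ha, hb, mul_zero, add_zero, eval_one] at this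
  exact zero_ne_one this

lemma enc_natDegree_sub_C_mul {a b : K[X]} {c : K} {d : ℕ}
    (hd : d = max a.natDegree b.natDegree) (hc : a.coeff d - c * b.coeff d ≠ 0) :
    (a - C c * b).natDegree = d := by
  apply le_antisymm
  · refine (natDegree_sub_le _ _).trans ?_
    rw [hd]
    exact max_le_max le_rfl (natDegree_C_mul_le _ _)
  · apply le_natDegree_of_ne_zero
    rwa [coeff_sub, coeff_C_mul]

lemma enc_separable_sub_C_mul [IsAlgClosed K] {a b : K[X]} {c : K}
    (hc : ∀ x₀ : K, (derivative a * b - a * derivative b).eval x₀ = 0 →
      a.eval x₀ - c * b.eval x₀ ≠ 0) :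
    (a - C c * b).Separable := by
  rw [separable_def, isCoprime_iff_aeval_ne_zero_of_isAlgClosed (k := K) K]
  intro x
  by_contra hcon
  push Not at hcon
  obtain ⟨h1, h2⟩ := hcon
  rw [coe_aeval_eq_eval] at h1 h2
  have h1' : a.eval x - c * b.eval x = 0 := by
    simpa only [eval_sub, eval_mul, eval_C] using h1
  have h2' : (derivative a).eval x - c * (derivative b).eval x = 0 := by
    simpa only [derivative_sub, derivative_mul, derivative_C, zero_mul, zero_add, eval_sub,
      eval_mul, eval_C] using h2
  refine hc x ?_ h1'
  simp only [eval_sub, eval_mul]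
  have e1 : a.eval x = c * b.eval x := sub_eq_zero.mp h1'
  have e2 : (derivative a).eval x = c * (derivative b).eval x := sub_eq_zero.mp h2'
  rw [e1, e2]
  ring

lemma enc_card_roots_toFinset [IsAlgClosed K] [DecidableEq K] {f : K[X]} (hs : f.Separable) :
    f.roots.toFinset.card = f.natDegree := by
  rw [Multiset.toFinset_card_of_nodup (nodup_roots hs), IsAlgClosed.card_roots_eq_natDegree]

/-- **generic separability**: outside any given finite set there is `c` such that `a - c b` is
separable of degree `max (deg a) (deg b)` -/
lemma enc_exists_good [IsAlgClosed K] [CharZero K] [DecidableEq K] {a b : K[X]}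
    (hcop : IsCoprime a b) {d : ℕ} (hd : d = max a.natDegree b.natDegree) (hd0 : 0 < d)
    (Bad : Finset K) :
    ∃ c, c ∉ Bad ∧ (a - C c * b).natDegree = d ∧ (a - C c * b).Separable := by
  have hw : derivative a * b - a * derivative b ≠ 0 :=
    enc_wronskian_ne_zero hcop (hd ▸ hd0)
  set w := derivative a * b - a * derivative b with hwdef
  obtain ⟨c, hc⟩ := Infinite.exists_notMem_finset
    (Bad ∪ {a.coeff d / b.coeff d} ∪ w.roots.toFinset.image (fun x => a.eval x / b.eval x))
  simp only [Finset.mem_union, Finset.mem_singleton, Finset.mem_image, Multiset.mem_toFinset,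
    not_or, not_exists, not_and] at hc
  obtain ⟨⟨hcBad, hcdeg⟩, hcsep⟩ := hc
  refine ⟨c, hcBad, enc_natDegree_sub_C_mul hd ?_, enc_separable_sub_C_mul ?_⟩
  · by_cases hb : b.coeff d = 0
    · rw [hb, mul_zero, sub_zero]
      have hbd : b.natDegree < d := by
        rcases lt_or_eq_of_le (hd ▸ le_max_right a.natDegree b.natDegree : b.natDegree ≤ d) with h | h
        · exact h
        · exfalso
          have hb0 : b ≠ 0 := fun h0 => by
            rw [h0, natDegree_zero] at h
            omega
          rw [← h] at hb
          exact (leadingCoeff_ne_zero.mpr hb0) hb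
      have had : a.natDegree = d := by
        rcases max_choice a.natDegree b.natDegree with h | h
        · rw [hd, h]
        · rw [hd, h] at hbd
          exact absurd hbd (lt_irrefl _)
      have ha0 : a ≠ 0 := fun h0 => by
        rw [h0, natDegree_zero] at had
        omega
      rw [← had]
      exact leadingCoeff_ne_zero.mpr ha0
    · intro h
      apply hcdeg
      rw [eq_div_iff hb]
      exact (sub_eq_zero.mp h).symm
  · intro x₀ hx₀ h
    by_cases hb : b.eval x₀ = 0
    · rw [hb, mul_zero, sub_zero] at h
      exact enc_not_both_zero hcop x₀ h hb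
    · refine hcsep x₀ ((mem_roots hw).mpr hx₀) ?_
      rw [div_eq_iff hb]
      exact sub_eq_zero.mp h

end Fermat.Agent.Lib.EN
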