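/-
Moonshot M1 (S13), step (a4), curve part: **the count** `#E[n](K) = n ^ 2` over an algebraically
closed field of characteristic `0`, from a rational-function description `x([n]P) = a(x(P))/b(x(P))`
(valid off a finite set of abscissae) with `a, b` coprime and `max (deg a) (deg b) = n ^ 2`.
-/
import Fermat.Agent.Lib.EN.CountPoly

set_option autoImplicit false

namespace Fermat.Agent.Lib.EN

open Polynomial WeierstrassCurve WeierstrassCurve.Affine

variable {K : Type*} [Field K]

/-- over an algebraically closed field every abscissa is the abscissa of an affine point -/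
lemma enc_exists_y [IsAlgClosed K] (W : Affine K) (x : K) : ∃ y, W.Equation x y := by
  have hdeg : (C (1 : K) * X ^ 2 + C (W.a₁ * x + W.a₃) * X +
      C (-(x ^ 3 + W.a₂ * x ^ 2 + W.a₄ * x + W.a₆))).degree ≠ 0 := by
    rw [degree_quadratic one_ne_zero]
    norm_num
  obtain ⟨y, hy⟩ := IsAlgClosed.exists_root _ hdeg
  refine ⟨y, (W.equation_iff x y).mpr ?_⟩
  simp only [IsRoot.def, eval_add, eval_mul, eval_C, eval_pow, eval_X] at hy
  linear_combination hy

/-- a chosen ordinate above the abscissa `x` -/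
noncomputable def enc_y [IsAlgClosed K] (W : Affine K) (x : K) : K :=
  (enc_exists_y W x).choose

lemma enc_y_equation [IsAlgClosed K] (W : Affine K) (x : K) : W.Equation x (enc_y W x) :=
  (enc_exists_y W x).choose_spec

lemma enc_y_nonsingular [IsAlgClosed K] (W : Affine K) (hΔ : W.Δ ≠ 0) (x : K) :
    W.Nonsingular x (enc_y W x) :=
  (W.equation_iff_nonsingular_of_Δ_ne_zero hΔ).mp (enc_y_equation W x)

/-- a chosen point above the abscissa `x` -/
noncomputable def enc_pt [IsAlgClosed K] (W : Affine K) (hΔ : W.Δ ≠ 0) (x : K) : W.Point :=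
  Point.some x (enc_y W x) (enc_y_nonsingular W hΔ x)

/-- the abscissa of a point (junk value `0` at infinity) -/
def enc_xOf {W : Affine K} : W.Point → K
  | .zero => 0
  | .some x _ _ => x

@[simp] lemma enc_xOf_some {W : Affine K} {x y : K} (h : W.Nonsingular x y) :
    enc_xOf (Point.some x y h) = x := rfl

@[simp] lemma enc_xOf_pt [IsAlgClosed K] (W : Affine K) (hΔ : W.Δ ≠ 0) (x : K) :
    enc_xOf (enc_pt W hΔ x) = x := rfl

lemma enc_xOf_neg {W : Affine K} (P : W.Point) : enc_xOf (-P) = enc_xOf P := by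
  rcases P with _ | ⟨x, y, h⟩
  · rfl
  · rfl

/-- the abscissae of the points with `P = -P` are roots of the `2`-torsion cubic -/
lemma enc_two_torsion_root (W : Affine K) {x y : K} (h : W.Equation x y)
    (hy : y = W.negY x y) : (W.twoTorsionPolynomial.toPoly).eval x = 0 := by
  rw [W.equation_iff] at h
  simp only [negY] at hy
  simp only [Cubic.toPoly, twoTorsionPolynomial, b₂, b₄, b₆, eval_add, eval_mul, eval_C,
    eval_pow, eval_X]
  linear_combination (2 * y + W.a₁ * x + W.a₃) * hy - 4 * h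

/-- two affine points with the same abscissa agree up to sign -/
lemma enc_eq_or_eq_neg_of_xOf {W : Affine K} {P P' : W.Point} (hP : P ≠ 0) (hP' : P' ≠ 0)
    (hx : enc_xOf P = enc_xOf P') : P = P' ∨ P = -P' := by
  rcases P with _ | ⟨x, y, h⟩
  · exact absurd rfl hP
  rcases P' with _ | ⟨x', y', h'⟩
  · exact absurd rfl hP'
  exact Point.X_eq_iff.mp hx

/-- all nonempty fibres of `[n]` have the cardinality of the kernel -/
lemma enc_card_fiber [DecidableEq K] {W : Affine K} (n : ℕ) {Q P₁ : W.Point} (h₁ : n • P₁ = Q) :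
    Nat.card {P : W.Point // n • P = 0} = Nat.card {P : W.Point // n • P = Q} := by
  refine Nat.card_congr ⟨fun P => ⟨P.1 + P₁, by rw [smul_add, P.2, h₁, zero_add]⟩,
    fun P => ⟨P.1 - P₁, by rw [smul_sub, P.2, h₁, sub_self]⟩, fun P => ?_, fun P => ?_⟩
  · exact Subtype.ext (add_sub_cancel_right _ _)
  · exact Subtype.ext (sub_add_cancel _ _)

/-- **THE COUNT.** If off a finite set `B` of abscissae the abscissa of `[n]P` is
`a(x(P)) / b(x(P))` with `a, b` coprime and `max (deg a) (deg b) = n ^ 2`, then `E[n]` has exactly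
`n ^ 2` points (algebraically closed field of characteristic `0`). -/
theorem enc_card_torsion [IsAlgClosed K] [CharZero K] [DecidableEq K] (W : Affine K)
    (hΔ : W.Δ ≠ 0) (n : ℕ) (hn : 0 < n) (a b : K[X]) (hcop : IsCoprime a b)
    (hdeg : max a.natDegree b.natDegree = n ^ 2) (B : Finset K)
    (hx : ∀ (x y : K) (h : W.Nonsingular x y), x ∉ B → b.eval x ≠ 0 ∧
      ∃ (x' y' : K) (h' : W.Nonsingular x' y'),
        n • (Point.some x y h) = Point.some x' y' h' ∧ x' * b.eval x = a.eval x) :
    Nat.card {P : W.Point // n • P = 0} = n ^ 2 := by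
  have hd0 : 0 < n ^ 2 := by positivity
  have h2 : W.twoTorsionPolynomial.toPoly ≠ 0 :=
    Cubic.ne_zero_of_a_ne_zero (by simp [twoTorsionPolynomial])
  obtain ⟨c, hcBad, hcdeg, hcsep⟩ := enc_exists_good hcop hdeg.symm hd0
    (W.twoTorsionPolynomial.toPoly.roots.toFinset ∪
      B.image (fun x₀ => a.eval x₀ / b.eval x₀) ∪
      B.image (fun x₀ => enc_xOf (n • enc_pt W hΔ x₀)))
  simp only [Finset.mem_union, Finset.mem_image, Multiset.mem_toFinset, not_or, not_exists,
    not_and] at hcBad
  obtain ⟨⟨hc2, hcB⟩, hcB'⟩ := hcBad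
  set f := a - C c * b with hf
  set Q := enc_pt W hΔ c with hQ
  have hf0 : f ≠ 0 := fun h0 => by
    rw [h0, natDegree_zero] at hcdeg
    omega
  -- `Q ≠ -Q`
  have hQne : Q ≠ -Q := by
    intro h
    rw [hQ, enc_pt, Point.neg_some, Point.some.injEq] at h
    exact hc2 ((mem_roots h2).mpr (enc_two_torsion_root W (enc_y_equation W c) h.2))
  have hQ0 : Q ≠ 0 := Point.some_ne_zero _
  -- roots of `f` are not in `B`
  have hroot_notB : ∀ x₀, f.eval x₀ = 0 → x₀ ∉ B := by
    intro x₀ h0 hB
    have h0' : a.eval x₀ - c * b.eval x₀ = 0 := by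
      simpa only [hf, eval_sub, eval_mul, eval_C] using h0
    by_cases hb : b.eval x₀ = 0
    · rw [hb, mul_zero, sub_zero] at h0'
      exact enc_not_both_zero hcop x₀ h0' hb
    · exact hcB x₀ hB (by rw [div_eq_iff hb]; exact sub_eq_zero.mp h0')
  -- a root gives a point of the fibre
  have hsurj : ∀ x₀, f.eval x₀ = 0 → ∃ P : W.Point, n • P = Q ∧ enc_xOf P = x₀ := by
    intro x₀ h0
    have h0' : a.eval x₀ - c * b.eval x₀ = 0 := by
      simpa only [hf, eval_sub, eval_mul, eval_C] using h0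
    obtain ⟨hb, x', y', h', hn', hx'⟩ :=
      hx x₀ (enc_y W x₀) (enc_y_nonsingular W hΔ x₀) (hroot_notB x₀ h0)
    have hx'c : x' = c := by
      apply mul_right_cancel₀ hb
      rw [hx']
      exact sub_eq_zero.mp h0'
    rcases (Point.X_eq_iff (h₁ := h') (h₂ := enc_y_nonsingular W hΔ c)).mp hx'c with e | e
    · exact ⟨enc_pt W hΔ x₀, hn'.trans e, rfl⟩
    · refine ⟨-enc_pt W hΔ x₀, ?_, by rw [enc_xOf_neg]; rfl⟩
      rw [smul_neg]
      change -(n • Point.some x₀ (enc_y W x₀) (enc_y_nonsingular W hΔ x₀)) = Q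
      rw [hn', e, neg_neg]
      rfl
  -- a point of the fibre gives a root
  have hroot : ∀ P : W.Point, n • P = Q → P ≠ 0 ∧ f.eval (enc_xOf P) = 0 := by
    intro P hP
    have hP0 : P ≠ 0 := by
      rintro rfl
      rw [smul_zero] at hP
      exact hQ0 hP.symm
    refine ⟨hP0, ?_⟩
    rcases P with _ | ⟨x, y, h⟩
    · exact absurd rfl hP0
    have hxB : x ∉ B := by
      intro hB
      apply hcB' x hB
      rcases (Point.X_eq_iff (h₁ := h) (h₂ := enc_y_nonsingular W hΔ x)).mp rfl with e | e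
      · have h1 : n • enc_pt W hΔ x = Q := by
          rw [← hP, e]
          rfl
        rw [h1]
        rfl
      · have h1 : n • enc_pt W hΔ x = -Q := by
          rw [← hP, e, smul_neg, neg_neg]
          rfl
        rw [h1, enc_xOf_neg]
        rfl
    obtain ⟨hb, x', y', h', hn', hx'⟩ := hx x y h hxB
    rw [hP, hQ, enc_pt, Point.some.injEq] at hn'
    simp only [enc_xOf_some, hf, eval_sub, eval_mul, eval_C]
    rw [← hx', ← hn'.1]
    ring
  -- the fibre above `Q` is in bijection with the roots of `f`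
  have hcardA : Nat.card {P : W.Point // n • P = Q} = n ^ 2 := by
    rw [← hcdeg, ← enc_card_roots_toFinset hcsep, ← Nat.card_eq_finsetCard]
    refine Nat.card_eq_of_bijective (fun P => ⟨enc_xOf P.1, by
      rw [Multiset.mem_toFinset, mem_roots hf0]
      exact (hroot P.1 P.2).2⟩) ⟨?_, ?_⟩
    · intro P P' hPP'
      have hxx : enc_xOf P.1 = enc_xOf P'.1 := congrArg Subtype.val hPP'
      rcases enc_eq_or_eq_neg_of_xOf (hroot P.1 P.2).1 (hroot P'.1 P'.2).1 hxx with e | e
      · exact Subtype.ext e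
      · exfalso
        apply hQne
        calc Q = n • P.1 := P.2.symm
          _ = n • (-P'.1) := by rw [e]
          _ = -(n • P'.1) := smul_neg _ _
          _ = -Q := by rw [P'.2]
    · rintro ⟨x₀, hx₀⟩
      rw [Multiset.mem_toFinset, mem_roots hf0] at hx₀
      obtain ⟨P, hP, hPx⟩ := hsurj x₀ hx₀
      exact ⟨⟨P, hP⟩, Subtype.ext hPx⟩
  obtain ⟨x₀, hx₀⟩ : ∃ x₀, f.eval x₀ = 0 :=
    IsAlgClosed.exists_root f (by
      rw [degree_eq_natDegree hf0, hcdeg]
      exact_mod_cast hd0.ne')
  obtain ⟨P₁, hP₁, -⟩ := hsurj x₀ hx₀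
  rw [enc_card_fiber n hP₁, hcardA]

/-- the count, in the vocabulary of the frozen statements -/
theorem enc_card_torsionBy [IsAlgClosed K] [CharZero K] [DecidableEq K] (W : Affine K)
    (hΔ : W.Δ ≠ 0) (n : ℕ) (hn : 0 < n) (a b : K[X]) (hcop : IsCoprime a b)
    (hdeg : max a.natDegree b.natDegree = n ^ 2) (B : Finset K)
    (hx : ∀ (x y : K) (h : W.Nonsingular x y), x ∉ B → b.eval x ≠ 0 ∧
      ∃ (x' y' : K) (h' : W.Nonsingular x' y'),
        n • (Point.some x y h) = Point.some x' y' h' ∧ x' * b.eval x = a.eval x) :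
    Nat.card (Submodule.torsionBy ℤ W.Point (n : ℤ)) = n ^ 2 := by
  rw [← enc_card_torsion W hΔ n hn a b hcop hdeg B hx]
  refine Nat.card_congr (Equiv.subtypeEquivRight fun P => ?_)
  rw [Submodule.mem_torsionBy_iff, natCast_zsmul]

end Fermat.Agent.Lib.EN
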