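/-
(PF-1): for a point `P ≠ 0` of prime order `p ≥ 3`, the rational function `r_p` has a pole of order
at least two at `x(P)`: `(X - x(P))² ∣ denom r_p`.
-/
import Fermat.Agent.Lib.EN.Count

set_option autoImplicit false
set_option linter.unusedSectionVars false

namespace Fermat.Agent.Lib.EN

open Polynomial WeierstrassCurve WeierstrassCurve.Affine

variable {K : Type*} [Field K] [DecidableEq K] (W : WeierstrassCurve K)

/-- Explicit form of the specialisation: `P` is good up to `n` as soon as `V(x₀,x₀) ≠ 0` and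
none of `2P, …, (n-1)P` has the same x-coordinate as `P`. -/
theorem ent_good_explicit (n : ℕ) (hn : 2 ≤ n) (P : W.toAffine.Point) (x₀ : K)
    (hP : ent_HasX W P x₀) (hf : ent_V W x₀ x₀ ≠ 0)
    (hne : ∀ k, 2 ≤ k → k < n → ∀ ξ, ent_HasX W (k • P) ξ → ξ ≠ x₀) :
    ent_Good W n P x₀ := by
  induction n, hn using Nat.le_induction with
  | base =>
    intro k hk1 hk2
    have hk : k = 1 ∨ k = 2 := by omega
    rcases hk with rfl | rfl
    · exact ⟨x₀, by rwa [one_nsmul], by rw [ent_r_one]; exact ent_Val_X x₀⟩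
    · obtain ⟨ξ, hξ, hrel⟩ := ent_dup_X hP hf
      refine ⟨ξ, by rwa [two_nsmul], ?_⟩
      have hX := ent_Val_X x₀
      have hval : ent_Val (ent_r W 2) x₀ (ent_W W x₀ x₀ / ent_V W x₀ x₀) := by
        rw [ent_r_two]; exact (hX.apW W).div (hX.apV W) hf
      have : ξ = ent_W W x₀ x₀ / ent_V W x₀ x₀ := by
        rw [eq_div_iff hf]; exact hrel
      rwa [this]
  | succ n hn ih =>
    have hgood := ih (fun k hk1 hk2 => hne k hk1 (by omega))
    intro k hk1 hk2
    rcases Nat.lt_or_ge k (n + 1) with hlt | hge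
    · exact hgood k hk1 (by omega)
    · have hk : k = n + 1 := by omega
      subst hk
      obtain ⟨ξn, hξn, hvn⟩ := hgood n (by omega) le_rfl
      obtain ⟨ξm, hξm, hvm⟩ := hgood (n - 1) (by omega) (by omega)
      have hne' : ξn ≠ x₀ := hne n hn (by omega) ξn hξn
      obtain ⟨ξ₃, ξ₄, h3, h4, hsum, _⟩ := ent_addsub_X hξn hP hne'
      have e3 : n • P + P = (n + 1) • P := (succ_nsmul P n).symm
      have e4 : n • P - P = (n - 1) • P := by
        have : n • P = (n - 1) • P + P := by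
          rw [← succ_nsmul]; congr 1; omega
        rw [this]; abel
      rw [e3] at h3
      rw [e4] at h4
      have h4' : ξ₄ = ξm := h4.unique hξm
      refine ⟨ξ₃, h3, ?_⟩
      have hD : (ξn - x₀) ^ 2 ≠ 0 := pow_ne_zero 2 (sub_ne_zero.mpr hne')
      have hξ₃ : ξ₃ = ent_V W ξn x₀ / (ξn - x₀) ^ 2 - ξm := by
        rw [← h4', eq_sub_iff_add_eq, eq_div_iff hD]; exact hsum
      rw [hξ₃]
      obtain ⟨m, rfl⟩ : ∃ m, n = m + 2 := ⟨n - 2, by omega⟩
      have : ent_r W (m + 2 + 1) = ent_V W (ent_r W (m + 2)) RatFunc.X /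
          (ent_r W (m + 2) - RatFunc.X) ^ 2 - ent_r W (m + 1) := ent_r_succ W m
      rw [this]
      have hvm' : ent_Val (ent_r W (m + 1)) x₀ ξm := by
        have : m + 2 - 1 = m + 1 := by omega
        rwa [this] at hvm
      exact ((hvn.apV W).div ((hvn.sub (ent_Val_X x₀)).pow 2) hD).sub hvm'

variable {W}

/-- Multiples `j • P`, `1 ≤ j < p`, of a nonzero point killed by the prime `p` are nonzero. -/
theorem ent_nsmul_ne_zero {p : ℕ} (hp : p.Prime) {P : W.toAffine.Point} (hP0 : P ≠ 0)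
    (hpP : p • P = 0) {j : ℕ} (hj1 : 1 ≤ j) (hjp : j < p) : j • P ≠ 0 := by
  intro h0
  have h1 : addOrderOf P ∣ p := addOrderOf_dvd_of_nsmul_eq_zero hpP
  rcases (Nat.dvd_prime hp).mp h1 with h | h
  · exact hP0 (AddMonoid.addOrderOf_eq_one_iff.mp h)
  · have h2 : addOrderOf P ∣ j := addOrderOf_dvd_of_nsmul_eq_zero h0
    rw [h] at h2
    exact absurd (Nat.le_of_dvd (by omega) h2) (by omega)

/-- A nonzero point of odd prime order: good up to `p - 1`, and `r_{p-1}(x₀) = x₀`. -/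
theorem ent_torsion_good {p : ℕ} (hp : p.Prime) (hp2 : p ≠ 2) {P : W.toAffine.Point} {x₀ : K}
    (hP : ent_HasX W P x₀) (hpP : p • P = 0) :
    ent_V W x₀ x₀ ≠ 0 ∧ ent_Good W (p - 1) P x₀ ∧ ent_Val (ent_r W (p - 1)) x₀ x₀ := by
  have hP0 : P ≠ 0 := hP.ne_zero
  have hp3 : 3 ≤ p := by
    have := hp.two_le; omega
  have hf : ent_V W x₀ x₀ ≠ 0 := by
    intro h0
    -- then `2 • P = 0`
    by_contra _
    obtain ⟨y, hy, rfl⟩ := hP
    have E : y ^ 2 + W.a₁ * x₀ * y + W.a₃ * y = x₀ ^ 3 + W.a₂ * x₀ ^ 2 + W.a₄ * x₀ + W.a₆ :=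
      (W.toAffine.equation_iff x₀ y).mp hy.1
    have hη2 : (y - W.toAffine.negY x₀ y) ^ 2 = ent_V W x₀ x₀ := by
      simp only [ent_V, Algebra.algebraMap_self_apply, WeierstrassCurve.b₂, WeierstrassCurve.b₄,
        WeierstrassCurve.b₆, Affine.negY]
      linear_combination 4 * E
    rw [h0] at hη2
    have hyy : y = W.toAffine.negY x₀ y := sub_eq_zero.mp (pow_eq_zero_iff (two_ne_zero)|>.mp hη2)
    have h2 : 2 • (Point.some x₀ y hy) = 0 := by
      rw [two_nsmul]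
      exact Point.add_self_of_Y_eq hyy
    exact ent_nsmul_ne_zero hp hP0 hpP (j := 2) (by norm_num) (by omega) h2
  have hgood : ent_Good W (p - 1) P x₀ := by
    apply ent_good_explicit W (p - 1) (by omega) P x₀ hP hf
    intro k hk1 hk2 ξ hξ heq
    subst heq
    rcases ent_HasX.eq_or_eq_neg hξ hP with h | h
    · -- `(k - 1) • P = 0`
      have : (k - 1) • P = 0 := by
        have e : k • P = (k - 1) • P + P := by
          rw [← succ_nsmul]; congr 1; omega
        rw [e] at h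
        exact add_eq_right.mp h
      exact ent_nsmul_ne_zero hp hP0 hpP (j := k - 1) (by omega) (by omega) this
    · have : (k + 1) • P = 0 := by
        rw [succ_nsmul, h]; abel
      exact ent_nsmul_ne_zero hp hP0 hpP (j := k + 1) (by omega) (by omega) this
  refine ⟨hf, hgood, ?_⟩
  obtain ⟨ξ, hξ, hv⟩ := hgood (p - 1) (by omega) le_rfl
  have hneg : (p - 1) • P = -P := by
    have e : p • P = (p - 1) • P + P := by
      rw [← succ_nsmul]; congr 1; omega
    rw [e] at hpP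
    exact eq_neg_of_add_eq_zero_left hpP
  rw [hneg] at hξ
  have : ξ = x₀ := hξ.unique hP.neg
  rwa [this] at hv

/-- Abstract pole lemma: if `σ u² = w` with `u(x₀) = 0` and `w(x₀) ≠ 0`, then `(X - x₀)²` divides
the denominator of `σ`. -/
theorem ent_sq_dvd_denom {σ u w : RatFunc K} {x₀ ω : K} (h : σ * u ^ 2 = w)
    (hu : ent_Val u x₀ 0) (hw : ent_Val w x₀ ω) (hω : ω ≠ 0) :
    (X - C x₀) ^ 2 ∣ σ.denom := by
  obtain ⟨a, b, hb, e, v⟩ := hu
  obtain ⟨a', b', hb', e', v'⟩ := hw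
  rw [zero_mul] at v
  have hroot : (X - C x₀) ∣ a := dvd_iff_isRoot.mpr v.symm
  have ha' : a'.eval x₀ ≠ 0 := by
    rw [← v']; exact mul_ne_zero hω hb'
  set φ := algebraMap K[X] (RatFunc K) with hφ
  have hφinj : Function.Injective φ := RatFunc.algebraMap_injective K
  have hd : φ σ.denom ≠ 0 := RatFunc.algebraMap_ne_zero (RatFunc.denom_ne_zero σ)
  have eσ : σ = φ σ.num / φ σ.denom := (RatFunc.num_div_denom σ).symm
  have key : σ.num * (a ^ 2 * b') = a' * b ^ 2 * σ.denom := by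
    apply hφinj
    simp only [map_mul, map_pow]
    rw [← e, ← e', ← h]
    have : φ σ.num = σ * φ σ.denom := by
      rw [eq_comm, ← eq_div_iff hd]; exact eσ
    rw [this]; ring
  have hdvd : (X - C x₀) ^ 2 ∣ a' * b ^ 2 * σ.denom := by
    rw [← key]
    exact Dvd.dvd.mul_left (Dvd.dvd.mul_right (pow_dvd_pow_of_dvd hroot 2) _) _
  have hcop : IsCoprime ((X - C x₀) ^ 2) (a' * b ^ 2) := by
    apply IsCoprime.pow_left
    rw [(irreducible_X_sub_C x₀).coprime_iff_not_dvd, dvd_iff_isRoot, IsRoot.def, eval_mul,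
      eval_pow]
    exact mul_ne_zero ha' (pow_ne_zero 2 hb)
  exact hcop.dvd_of_dvd_mul_left hdvd

/-- **(PF-1)**: for `P ≠ 0` with `p • P = 0`, `p` an odd prime, `(X - x(P))² ∣ denom r_p`. -/
theorem ent_double_pole [IsAlgClosed K] [W.IsElliptic] {p : ℕ} (hp : p.Prime) (hp2 : p ≠ 2) {P : W.toAffine.Point} {x₀ : K}
    (hP : ent_HasX W P x₀) (hpP : p • P = 0) :
    (X - C x₀) ^ 2 ∣ (ent_r W p).denom := by
  have hp3 : 3 ≤ p := by
    have := hp.two_le; omega
  obtain ⟨hf, hgood, hv1⟩ := ent_torsion_good hp hp2 hP hpP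
  obtain ⟨ξ', _, hv2⟩ := hgood (p - 2) (by omega) (by omega)
  obtain ⟨m, rfl⟩ : ∃ m, p = m + 3 := ⟨p - 3, by omega⟩
  have e1 : m + 3 - 1 = m + 2 := by omega
  have e2 : m + 3 - 2 = m + 1 := by omega
  rw [e1] at hv1
  rw [e2] at hv2
  set ρ := ent_r W (m + 2) with hρ
  set τ := ent_r W (m + 1) with hτ
  have hrec : ent_r W (m + 3) = ent_V W ρ RatFunc.X / (ρ - RatFunc.X) ^ 2 - τ := ent_r_succ W m
  have hu : ent_Val (ρ - RatFunc.X) x₀ 0 := by
    have := hv1.sub (ent_Val_X x₀)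
    rwa [sub_self] at this
  have hw : ent_Val (ent_V W ρ RatFunc.X - τ * (ρ - RatFunc.X) ^ 2) x₀
      (ent_V W x₀ x₀ - ξ' * 0 ^ 2) := (hv1.apV W).sub (hv2.mul (hu.pow 2))
  have hω : ent_V W x₀ x₀ - ξ' * 0 ^ 2 ≠ 0 := by
    rw [zero_pow two_ne_zero, mul_zero, sub_zero]; exact hf
  have hρX : ρ - RatFunc.X ≠ 0 := sub_ne_zero.mpr (ent_r_ne_X W (m + 2) (by omega))
  refine ent_sq_dvd_denom (u := ρ - RatFunc.X)
    (w := ent_V W ρ RatFunc.X - τ * (ρ - RatFunc.X) ^ 2) ?_ hu hw hω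
  rw [hrec]
  have : (ρ - RatFunc.X) ^ 2 ≠ 0 := pow_ne_zero 2 hρX
  field_simp

end Fermat.Agent.Lib.EN
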