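/-
`#E[n] = n²` for an elliptic curve over an algebraically closed field of characteristic zero:
final statements.
-/
import Fermat.Agent.Lib.EN.Count2

set_option autoImplicit false
set_option linter.unusedSectionVars false

namespace Fermat.Agent.Lib.EN

open WeierstrassCurve WeierstrassCurve.Affine

variable {K : Type*} [Field K] [DecidableEq K] (W : WeierstrassCurve K)

/-- **The `n`-torsion of an elliptic curve over an algebraically closed field of characteristic
zero has exactly `n²` elements.** -/
theorem ent_ncard_torsion [IsAlgClosed K] [CharZero K] [W.IsElliptic] (n : ℕ) (hn : 1 ≤ n) :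
    {P : W.toAffine.Point | n • P = 0}.ncard = n ^ 2 := by
  rcases Nat.lt_or_ge n 2 with h | h
  · have : n = 1 := by omega
    subst this
    have : {P : W.toAffine.Point | 1 • P = 0} = {0} := by
      ext P; simp
    rw [this, Set.ncard_singleton]; norm_num
  · obtain ⟨Q, hQ⟩ := ent_exists_fibre W n h
    have hpos : 0 < {P : W.toAffine.Point | n • P = Q}.ncard := by
      rw [hQ]; exact Nat.pos_of_ne_zero (by positivity)
    obtain ⟨P₀, hP₀⟩ := (Set.ncard_pos (Set.finite_of_ncard_pos hpos)).mp hpos
    have hP₀' : n • P₀ = Q := hP₀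
    rw [← hQ]
    apply Set.ncard_congr (fun P _ => P + P₀)
    · intro P hP
      have hP' : n • P = 0 := hP
      show n • (P + P₀) = Q
      rw [smul_add, hP', hP₀', zero_add]
    · intro P P' _ _ h
      exact add_right_cancel h
    · intro R hR
      have hR' : n • R = Q := hR
      refine ⟨R - P₀, ?_, by abel⟩
      show n • (R - P₀) = 0
      rw [smul_sub, hR', hP₀', sub_self]

theorem ent_natCard_torsion [IsAlgClosed K] [CharZero K] [W.IsElliptic] (n : ℕ) (hn : 1 ≤ n) :
    Nat.card {P : W.toAffine.Point // n • P = 0} = n ^ 2 := by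
  rw [← ent_ncard_torsion W n hn]
  exact Nat.card_coe_set_eq _

theorem ent_natCard_torsionBy [IsAlgClosed K] [CharZero K] [W.IsElliptic] (n : ℕ) (hn : 1 ≤ n) :
    Nat.card (Submodule.torsionBy ℤ W.toAffine.Point n) = n ^ 2 := by
  rw [← ent_natCard_torsion W n hn]
  apply Nat.card_congr
  refine Equiv.subtypeEquivRight fun P => ?_
  rw [Submodule.mem_torsionBy_iff, Nat.cast_smul_eq_nsmul]

end Fermat.Agent.Lib.EN
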