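/-
(A) of the S13 interface: `#E[p](ℚ̄) = p²` for the Frey curve.
-/
import Fermat.Agent.Lib.EN.Torsion
import Fermat.Agent.Lib.S13.Iface

set_option autoImplicit false

namespace Fermat.Agent.Lib.EN

open WeierstrassCurve Fermat.Agent.Lib.S13

/-- The discriminant of the Frey curve is `(a^p b^p c^p)² / 2⁸`. -/
theorem ent_frey_Δ (P : FreyPackage) :
    P.freyCurve.Δ = ((P.a : ℚ) ^ P.p * (P.b : ℚ) ^ P.p * (P.c : ℚ) ^ P.p) ^ 2 / 256 := by
  have h : (P.c : ℚ) ^ P.p = (P.a : ℚ) ^ P.p + (P.b : ℚ) ^ P.p := by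
    have := P.hFLT
    exact_mod_cast this.symm
  rw [h]
  simp only [WeierstrassCurve.Δ, WeierstrassCurve.b₂, WeierstrassCurve.b₄, WeierstrassCurve.b₆,
    WeierstrassCurve.b₈, FreyPackage.freyCurve]
  ring

theorem ent_frey_Δ_ne_zero (P : FreyPackage) : P.freyCurve.Δ ≠ 0 := by
  rw [ent_frey_Δ]
  have ha : (P.a : ℚ) ≠ 0 := by exact_mod_cast P.ha0
  have hb : (P.b : ℚ) ≠ 0 := by exact_mod_cast P.hb0
  have hc : (P.c : ℚ) ≠ 0 := by exact_mod_cast P.hc0
  positivity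

instance ent_frey_isElliptic (P : FreyPackage) : P.freyCurve.IsElliptic :=
  ⟨isUnit_iff_ne_zero.mpr (ent_frey_Δ_ne_zero P)⟩

/-- **(A)** of the S13 interface. -/
theorem ent_ifaceCard : s13_IfaceCard := by
  intro P
  classical
  have : (P.freyCurve.baseChange (AlgebraicClosure ℚ)).IsElliptic :=
    inferInstanceAs ((P.freyCurve.map (algebraMap ℚ (AlgebraicClosure ℚ))).IsElliptic)
  exact ent_natCard_torsionBy (P.freyCurve.baseChange (AlgebraicClosure ℚ)) P.p P.pp.one_le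

end Fermat.Agent.Lib.EN
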