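/-
(PF-2), polynomial part: the twisted reversal `f ↦ X^N f(c/X)` and the consequence of the
functional equation `c · b(x) b(c/x) = a(x) a(c/x)`.
-/
import Mathlib

set_option autoImplicit false
set_option linter.unusedSectionVars false

namespace Fermat.Agent.Lib.EN

open Polynomial

variable {K : Type*} [Field K]

/-- `X^N f(c/X)` as a polynomial (for `deg f ≤ N`). -/
noncomputable def ent_twist (c : K) (N : ℕ) (f : K[X]) : K[X] :=
  ∑ i ∈ Finset.range (N + 1), C (f.coeff i * c ^ i) * X ^ (N - i)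

theorem ent_twist_eval (c : K) (N : ℕ) (f : K[X]) (hf : f.natDegree ≤ N) {x : K} (hx : x ≠ 0) :
    (ent_twist c N f).eval x = x ^ N * f.eval (c / x) := by
  unfold ent_twist
  rw [eval_finsetSum, eval_eq_sum_range' (Nat.lt_succ_of_le hf), Finset.mul_sum]
  apply Finset.sum_congr rfl
  intro i hi
  have hi' : i ≤ N := Nat.lt_succ_iff.mp (Finset.mem_range.mp hi)
  rw [eval_mul, eval_C, eval_pow, eval_X, div_pow]
  have : x ^ N = x ^ (N - i) * x ^ i := by rw [← pow_add]; congr 1; omega
  rw [this]
  have hxi : x ^ i ≠ 0 := pow_ne_zero i hx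
  field_simp

theorem ent_twist_natDegree_le (c : K) (N : ℕ) (f : K[X]) : (ent_twist c N f).natDegree ≤ N := by
  unfold ent_twist
  apply natDegree_sum_le_of_forall_le
  intro i _
  refine (natDegree_C_mul_X_pow_le _ _).trans (Nat.sub_le N i)

theorem ent_twist_coeff_top (c : K) (N : ℕ) (f : K[X]) :
    (ent_twist c N f).coeff N = f.coeff 0 := by
  unfold ent_twist
  rw [finsetSum_coeff]
  rw [Finset.sum_eq_single 0]
  · simp
  · intro i hi hi0
    rw [coeff_C_mul_X_pow, if_neg]
    have hi' : i ≤ N := Nat.lt_succ_iff.mp (Finset.mem_range.mp hi)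
    omega
  · intro h; exact absurd (Finset.mem_range.mpr (Nat.succ_pos N)) h

theorem ent_twist_coeff_zero (c : K) (N : ℕ) (f : K[X]) :
    (ent_twist c N f).coeff 0 = f.coeff N * c ^ N := by
  unfold ent_twist
  rw [finsetSum_coeff]
  rw [Finset.sum_eq_single N]
  · rw [Nat.sub_self, pow_zero, mul_one, coeff_C_zero]
  · intro i hi hiN
    rw [coeff_C_mul_X_pow, if_neg]
    have hi' : i ≤ N := Nat.lt_succ_iff.mp (Finset.mem_range.mp hi)
    omega
  · intro h; exact absurd (Finset.mem_range.mpr (Nat.lt_succ_self N)) h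

/-- **Polynomial core of (PF-2).** If `a, b` are coprime, `deg a = N > deg b`, `c ≠ 0`, and
`c · b(x) b(c/x) = a(x) a(c/x)` for infinitely many `x`, then `b(0)² = c^{N-1} lc(a)²`. -/
theorem ent_feq_poly [Infinite K] (c : K) (hc : c ≠ 0) (N : ℕ) (a b : K[X]) (hcop : IsCoprime a b)
    (hda : a.natDegree = N) (hdb : b.natDegree < N)
    (S : Set K) (hS : S.Infinite)
    (h : ∀ x ∈ S, x ≠ 0 ∧ c * (b.eval x * b.eval (c / x)) = a.eval x * a.eval (c / x)) :
    b.eval 0 ^ 2 = c ^ (N - 1) * a.leadingCoeff ^ 2 := by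
  have hN : 1 ≤ N := by omega
  have ha0 : a ≠ 0 := by
    intro h0; rw [h0, natDegree_zero] at hda; omega
  set at' := ent_twist c N a with hat
  set bt := ent_twist c N b with hbt
  -- the polynomial identity
  have hI : C c * bt * b = at' * a := by
    apply eq_of_infinite_eval_eq
    apply hS.mono
    intro x hx
    obtain ⟨hx0, hx1⟩ := h x hx
    show eval x (C c * bt * b) = eval x (at' * a)
    rw [eval_mul, eval_mul, eval_C, eval_mul, hbt, hat,
      ent_twist_eval c N b (by omega) hx0, ent_twist_eval c N a hda.le hx0]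
    linear_combination x ^ N * hx1
  -- divisibility
  have hdvd : a ∣ C c * bt := by
    apply hcop.dvd_of_dvd_mul_right
    rw [hI]; exact dvd_mul_left a at'
  obtain ⟨q, hq⟩ := hdvd
  have hat' : at' = q * b := by
    have : a * (q * b) = a * at' := by
      rw [← mul_assoc, ← hq, hI, mul_comm]
    exact (mul_left_cancel₀ ha0 this).symm
  -- coefficients
  have hat0 : at'.coeff 0 = a.leadingCoeff * c ^ N := by
    rw [hat, ent_twist_coeff_zero, leadingCoeff, hda]
  have hlc : a.leadingCoeff ≠ 0 := leadingCoeff_ne_zero.mpr ha0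
  have hq0 : q ≠ 0 := by
    intro h0
    rw [h0, zero_mul] at hat'
    rw [hat', coeff_zero] at hat0
    exact mul_ne_zero hlc (pow_ne_zero N hc) hat0.symm
  have hqdeg : q.natDegree = 0 := by
    have h1 : (C c * bt).natDegree ≤ N :=
      (natDegree_C_mul_le _ _).trans (ent_twist_natDegree_le c N b)
    rw [hq, natDegree_mul ha0 hq0, hda] at h1
    omega
  obtain ⟨l, rfl⟩ : ∃ l, q = C l := ⟨q.coeff 0, eq_C_of_natDegree_eq_zero hqdeg⟩
  have e1 : c * b.eval 0 = a.leadingCoeff * l := by
    have := congrArg (fun f => f.coeff N) hq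
    simp only [coeff_C_mul, coeff_mul_C] at this
    rw [hbt, ent_twist_coeff_top, coeff_zero_eq_eval_zero] at this
    rw [this, leadingCoeff, hda]
  have e2 : a.leadingCoeff * c ^ N = l * b.eval 0 := by
    rw [← hat0, hat', coeff_C_mul, coeff_zero_eq_eval_zero]
  have hcN : c ^ N = c * c ^ (N - 1) := by
    rw [← pow_succ']; congr 1; omega
  rw [hcN] at e2
  apply mul_left_cancel₀ hc
  linear_combination b.eval 0 * e1 - a.leadingCoeff * e2

end Fermat.Agent.Lib.EN
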