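/-
(PF-2): translation by the 2-torsion point `T₀ = (0,0)` on a curve with `a₃ = a₆ = 0`:
`x(P + T₀) = a₄ / x(P)`, and the resulting functional equation for any pair `(a, b)` of polynomials
computing `x(nP)`, `n` odd: `b(0)² = a₄^{N-1} lc(a)²`.
-/
import Fermat.Agent.Lib.EN.FunEqPoly
import Fermat.Agent.Lib.EN.Count

set_option autoImplicit false
set_option linter.unusedSectionVars false

namespace Fermat.Agent.Lib.EN

open Polynomial WeierstrassCurve WeierstrassCurve.Affine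

variable {K : Type*} [Field K] [DecidableEq K] (W : WeierstrassCurve K)

theorem ent_a₄_ne_zero [W.IsElliptic] (h3 : W.a₃ = 0) (h6 : W.a₆ = 0) : W.a₄ ≠ 0 := by
  intro h4
  have hΔ : W.Δ ≠ 0 := W.isUnit_Δ.ne_zero
  apply hΔ
  simp only [WeierstrassCurve.Δ, WeierstrassCurve.b₂, WeierstrassCurve.b₄, WeierstrassCurve.b₆,
    WeierstrassCurve.b₈, h3, h4, h6]
  ring

theorem ent_T0_nonsingular [W.IsElliptic] (h3 : W.a₃ = 0) (h6 : W.a₆ = 0) :
    W.toAffine.Nonsingular 0 0 :=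
  (W.toAffine.nonsingular_zero).mpr ⟨h6, Or.inr (ent_a₄_ne_zero W h3 h6)⟩

variable {W}

theorem ent_T0_add_self (h3 : W.a₃ = 0) (h0 : W.toAffine.Nonsingular 0 0) :
    Point.some 0 0 h0 + Point.some 0 0 h0 = 0 := by
  apply Point.add_self_of_Y_eq
  simp [Affine.negY, h3]

theorem ent_T0_neg (h3 : W.a₃ = 0) (h0 : W.toAffine.Nonsingular 0 0) :
    -Point.some 0 0 h0 = Point.some 0 0 h0 :=
  neg_eq_of_add_eq_zero_left (ent_T0_add_self h3 h0)

theorem ent_T0_nsmul_odd (h3 : W.a₃ = 0) (h0 : W.toAffine.Nonsingular 0 0) {n : ℕ} (hn : Odd n) :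
    n • Point.some 0 0 h0 = Point.some 0 0 h0 := by
  obtain ⟨k, rfl⟩ := hn
  rw [add_nsmul, mul_nsmul, two_nsmul, ent_T0_add_self h3 h0, nsmul_zero, zero_add, one_nsmul]

/-- `x(P + T₀) = a₄ / x(P)`. -/
theorem ent_add_T0_X (h2 : (2 : K) ≠ 0) (h3 : W.a₃ = 0) (h6 : W.a₆ = 0)
    (h0 : W.toAffine.Nonsingular 0 0) {P : W.toAffine.Point} {x₀ : K} (hP : ent_HasX W P x₀)
    (hx₀ : x₀ ≠ 0) : ent_HasX W (P + Point.some 0 0 h0) (W.a₄ / x₀) := by
  have hT : ent_HasX W (Point.some 0 0 h0) 0 := ⟨0, h0, rfl⟩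
  obtain ⟨ξ₃, ξ₄, h3', h4', hsum, _⟩ := ent_addsub_X hP hT hx₀
  have hsub : P - Point.some 0 0 h0 = P + Point.some 0 0 h0 := by
    rw [sub_eq_add_neg, ent_T0_neg h3 h0]
  rw [hsub] at h4'
  have e : ξ₄ = ξ₃ := h4'.unique h3'
  rw [e] at hsum
  have hV : ent_V W x₀ 0 = 2 * W.a₄ * x₀ := by
    simp only [ent_V, Algebra.algebraMap_self_apply, WeierstrassCurve.b₄, WeierstrassCurve.b₆,
      h3, h6]
    ring
  rw [hV, sub_zero] at hsum
  have : ξ₃ = W.a₄ / x₀ := by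
    rw [eq_div_iff hx₀]
    have h1 : 2 * x₀ * (ξ₃ * x₀ - W.a₄) = 0 := by linear_combination hsum
    rcases mul_eq_zero.mp h1 with h | h
    · exact absurd h (mul_ne_zero h2 hx₀)
    · exact sub_eq_zero.mp h
  rwa [this] at h3'

variable (W)

/-- **(PF-2)**, abstract form: any coprime pair `(a, b)` with `deg a = N > deg b` computing the
x-coordinate of `n • P` (`n` odd) outside a finite set of abscissae satisfies
`b(0)² = a₄^{N-1} lc(a)²`. -/
theorem ent_feq [IsAlgClosed K] [CharZero K] [W.IsElliptic] (h3 : W.a₃ = 0) (h6 : W.a₆ = 0)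
    (n : ℕ) (hn : Odd n) (N : ℕ) (a b : K[X]) (hcop : IsCoprime a b) (hda : a.natDegree = N)
    (hdb : b.natDegree < N) (B : Finset K)
    (hx : ∀ (P : W.toAffine.Point) (x₀ : K), ent_HasX W P x₀ → x₀ ∉ B →
      b.eval x₀ ≠ 0 ∧ ∃ ξ, ent_HasX W (n • P) ξ ∧ ξ * b.eval x₀ = a.eval x₀) :
    b.eval 0 ^ 2 = W.a₄ ^ (N - 1) * a.leadingCoeff ^ 2 := by
  have h4 : W.a₄ ≠ 0 := ent_a₄_ne_zero W h3 h6
  have h0 : W.toAffine.Nonsingular 0 0 := ent_T0_nonsingular W h3 h6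
  have h2 : (2 : K) ≠ 0 := two_ne_zero
  set T₀ : W.toAffine.Point := Point.some 0 0 h0 with hT₀
  set S : Set K := {x | x ∉ B ∧ x ≠ 0 ∧ W.a₄ / x ∉ B} with hS
  have hSinf : S.Infinite := by
    have hfin : (↑(B ∪ {0} ∪ B.image (fun z => W.a₄ / z)) : Set K).Finite := Finset.finite_toSet _
    apply (hfin.infinite_compl).mono
    intro x hx'
    simp only [Set.mem_compl_iff, Finset.mem_coe, Finset.mem_union, Finset.mem_singleton,
      Finset.mem_image, not_or, not_exists, not_and] at hx'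
    obtain ⟨⟨hxB, hx0⟩, himg⟩ := hx'
    refine ⟨hxB, hx0, ?_⟩
    intro hmem
    apply himg _ hmem
    field_simp
  apply ent_feq_poly W.a₄ h4 N a b hcop hda hdb S hSinf
  rintro x₀ ⟨hxB, hx0, hx1B⟩
  refine ⟨hx0, ?_⟩
  obtain ⟨P, hP⟩ := ent_exists_point (W := W) x₀
  have hP1 : ent_HasX W (P + T₀) (W.a₄ / x₀) := ent_add_T0_X h2 h3 h6 h0 hP hx0
  obtain ⟨hb0, ξ, hξ, hv⟩ := hx P x₀ hP hxB
  obtain ⟨hb1, ξ', hξ', hv'⟩ := hx (P + T₀) (W.a₄ / x₀) hP1 hx1B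
  rw [smul_add, hT₀, ent_T0_nsmul_odd h3 h0 hn] at hξ'
  have hξ0 : ξ ≠ 0 := by
    intro h
    rw [h] at hξ
    have hT : ent_HasX W (Point.some 0 0 h0) 0 := ⟨0, h0, rfl⟩
    have : n • P + Point.some 0 0 h0 = 0 := by
      rcases ent_HasX.eq_or_eq_neg hξ hT with e | e
      · rw [e]; exact ent_T0_add_self h3 h0
      · rw [e, ent_T0_neg h3 h0]; exact ent_T0_add_self h3 h0
    exact hξ'.ne_zero this
  have hξ'' : ent_HasX W (n • P + Point.some 0 0 h0) (W.a₄ / ξ) :=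
    ent_add_T0_X h2 h3 h6 h0 hξ hξ0
  have e : ξ' = W.a₄ / ξ := hξ'.unique hξ''
  have hprod : ξ * ξ' = W.a₄ := by rw [e]; field_simp
  linear_combination (-(b.eval x₀ * b.eval (W.a₄ / x₀))) * hprod + ξ' * b.eval (W.a₄ / x₀) * hv
    + a.eval x₀ * hv'

end Fermat.Agent.Lib.EN
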