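/-
(PF-1), continued: for an odd prime `p`, `denom r_p = ∏ (X - x(P))²` over the classes `±P` of
nonzero `p`-torsion points (given the degree bound `deg (denom r_p) ≤ p² - 1`), hence
`(denom r_p)(0) = ∏_{P ∈ E[p] ∖ 0} x(P)`.
-/
import Fermat.Agent.Lib.EN.DoublePole
import Fermat.Agent.Lib.EN.Torsion

set_option autoImplicit false
set_option linter.unusedSectionVars false

namespace Fermat.Agent.Lib.EN

open Polynomial WeierstrassCurve WeierstrassCurve.Affine

variable {K : Type*} [Field K] [DecidableEq K] (W : WeierstrassCurve K)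

/-- The fibres of the x-coordinate on the nonzero `p`-torsion have exactly two elements. -/
theorem ent_card_fibre_two {p : ℕ} (hp : p.Prime) (hp2 : p ≠ 2)
    (T : Finset W.toAffine.Point) (hT : ∀ P, P ∈ T ↔ (p • P = 0 ∧ P ≠ 0))
    {x₀ : K} (hx₀ : x₀ ∈ T.image (ent_xc W)) :
    (T.filter (fun P => ent_xc W P = x₀)).card = 2 := by
  obtain ⟨P₀, hP₀T, hP₀x⟩ := Finset.mem_image.mp hx₀
  obtain ⟨hpP₀, hP₀0⟩ := (hT P₀).mp hP₀T
  have hX₀ : ent_HasX W P₀ x₀ := ent_hasX_iff.mpr ⟨hP₀0, hP₀x⟩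
  have hneg : P₀ ≠ -P₀ := by
    intro h
    have h2 : 2 • P₀ = 0 := by
      rw [two_nsmul]; nth_rewrite 2 [h]; exact add_neg_cancel P₀
    have hp3 : 3 ≤ p := by
      have := hp.two_le; omega
    exact ent_nsmul_ne_zero hp hP₀0 hpP₀ (j := 2) (by norm_num) (by omega) h2
  have : T.filter (fun P => ent_xc W P = x₀) = {P₀, -P₀} := by
    ext P
    simp only [Finset.mem_filter, Finset.mem_insert, Finset.mem_singleton]
    constructor
    · rintro ⟨hPT, hPx⟩
      obtain ⟨_, hP0⟩ := (hT P).mp hPT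
      exact ent_HasX.eq_or_eq_neg (ent_hasX_iff.mpr ⟨hP0, hPx⟩) hX₀
    · rintro (rfl | rfl)
      · exact ⟨hP₀T, hP₀x⟩
      · refine ⟨(hT _).mpr ⟨by rw [smul_neg, hpP₀, neg_zero], neg_ne_zero.mpr hP₀0⟩, ?_⟩
        exact hX₀.neg.xc
  rw [this, Finset.card_pair hneg]

variable [IsAlgClosed K] [W.IsElliptic]

/-- **(PF-1)**: `denom r_p = ∏ (X - x₀)²`, the product over the x-coordinates of the nonzero
`p`-torsion points, provided `deg (denom r_p) ≤ #(E[p] ∖ 0)`. -/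
theorem ent_denom_eq_prod {p : ℕ} (hp : p.Prime) (hp2 : p ≠ 2)
    (T : Finset W.toAffine.Point) (hT : ∀ P, P ∈ T ↔ (p • P = 0 ∧ P ≠ 0))
    (hdeg : (ent_r W p).denom.natDegree ≤ T.card) :
    (ent_r W p).denom = ∏ x₀ ∈ T.image (ent_xc W), (X - C x₀) ^ 2 := by
  set S := T.image (ent_xc W) with hS
  have hcard : T.card = 2 * S.card := by
    rw [Finset.card_eq_sum_card_fiberwise (f := ent_xc W) (t := S)
      (fun P hP => Finset.mem_image_of_mem _ hP)]
    rw [Finset.sum_congr rfl (fun x₀ hx₀ => ent_card_fibre_two W hp hp2 T hT hx₀)]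
    rw [Finset.sum_const, smul_eq_mul, mul_comm]
  have hdvd : ∏ x₀ ∈ S, (X - C x₀) ^ 2 ∣ (ent_r W p).denom := by
    apply Finset.prod_dvd_of_coprime
    · intro x hx x' hx' hne
      apply IsCoprime.pow
      exact isCoprime_X_sub_C_of_isUnit_sub (sub_ne_zero.mpr hne).isUnit
    · intro x₀ hx₀
      obtain ⟨P₀, hP₀T, hP₀x⟩ := Finset.mem_image.mp hx₀
      obtain ⟨hpP₀, hP₀0⟩ := (hT P₀).mp hP₀T
      exact ent_double_pole hp hp2 (ent_hasX_iff.mpr ⟨hP₀0, hP₀x⟩) hpP₀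
  have hmonic : (∏ x₀ ∈ S, (X - C x₀) ^ 2 : K[X]).Monic :=
    monic_prod_of_monic _ _ (fun x₀ _ => (monic_X_sub_C x₀).pow 2)
  have hnd : (∏ x₀ ∈ S, (X - C x₀) ^ 2 : K[X]).natDegree = 2 * S.card := by
    rw [natDegree_prod_of_monic _ _ (fun x₀ _ => (monic_X_sub_C x₀).pow 2)]
    rw [Finset.sum_congr rfl (fun x₀ _ => by
      rw [natDegree_pow, natDegree_X_sub_C])]
    rw [Finset.sum_const, smul_eq_mul, mul_comm]
  exact eq_of_monic_of_dvd_of_natDegree_le hmonic (RatFunc.monic_denom _) hdvd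
    (by rw [hnd, ← hcard]; exact hdeg)

/-- The value at `0` of `denom r_p` is the product of the x-coordinates of all nonzero
`p`-torsion points. -/
theorem ent_denom_eval_zero {p : ℕ} (hp : p.Prime) (hp2 : p ≠ 2)
    (T : Finset W.toAffine.Point) (hT : ∀ P, P ∈ T ↔ (p • P = 0 ∧ P ≠ 0))
    (hdeg : (ent_r W p).denom.natDegree ≤ T.card) :
    (ent_r W p).denom.eval 0 = ∏ P ∈ T, ent_xc W P := by
  rw [ent_denom_eq_prod W hp hp2 T hT hdeg, eval_prod]
  rw [← Finset.prod_fiberwise_of_maps_to (g := ent_xc W) (t := T.image (ent_xc W))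
    (fun P hP => Finset.mem_image_of_mem _ hP)]
  apply Finset.prod_congr rfl
  intro x₀ hx₀
  rw [Finset.prod_congr rfl (fun P hP => (Finset.mem_filter.mp hP).2), Finset.prod_const,
    ent_card_fibre_two W hp hp2 T hT hx₀]
  simp

end Fermat.Agent.Lib.EN
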