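/-
Moonshot M1 (S13), step (a): the three biquadratic forms `U, V, W` governing the abscissae of
`P₁ ± P₂` on a Weierstrass curve (in bihomogeneous form, over any commutative ring), the symmetry of
the associated trihomogeneous form, and base-point-freeness (`Δ ≠ 0`).
-/
import Mathlib

set_option autoImplicit false

namespace Fermat.Agent.Lib.EN

open WeierstrassCurve

section forms

variable {R : Type*} [CommRing R]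

/-- `U = (x₁ - x₂)²`, bihomogenised -/
def enc_Uh (s₁ t₁ s₂ t₂ : R) : R := (s₁ * t₂ - s₂ * t₁) ^ 2

/-- `V = 2x₁x₂(x₁+x₂) + b₂x₁x₂ + b₄(x₁+x₂) + b₆`, bihomogenised -/
def enc_Vh (b₂ b₄ b₆ : R) (s₁ t₁ s₂ t₂ : R) : R :=
  2 * s₁ * s₂ * (s₁ * t₂ + s₂ * t₁) + b₂ * s₁ * s₂ * t₁ * t₂ +
    b₄ * t₁ * t₂ * (s₁ * t₂ + s₂ * t₁) + b₆ * t₁ ^ 2 * t₂ ^ 2

/-- `W = x₁²x₂² - b₄x₁x₂ - b₆(x₁+x₂) - b₈`, bihomogenised -/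
def enc_Wh (b₄ b₆ b₈ : R) (s₁ t₁ s₂ t₂ : R) : R :=
  s₁ ^ 2 * s₂ ^ 2 - b₄ * s₁ * s₂ * t₁ * t₂ - b₆ * t₁ * t₂ * (s₁ * t₂ + s₂ * t₁) -
    b₈ * t₁ ^ 2 * t₂ ^ 2

/-- the quadratic form `U T² - V T S + W S²` whose roots are the abscissae of `P₁ ± P₂` -/
def enc_Qh (b₂ b₄ b₆ b₈ : R) (s₁ t₁ s₂ t₂ T S : R) : R :=
  enc_Uh s₁ t₁ s₂ t₂ * T ^ 2 - enc_Vh b₂ b₄ b₆ s₁ t₁ s₂ t₂ * T * S +
    enc_Wh b₄ b₆ b₈ s₁ t₁ s₂ t₂ * S ^ 2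

/-- the form is symmetric in its three pairs of arguments (swap of the first with the third) -/
lemma enc_Qh_symm (b₂ b₄ b₆ b₈ : R) (s₁ t₁ s₂ t₂ T S : R) :
    enc_Qh b₂ b₄ b₆ b₈ s₁ t₁ s₂ t₂ T S = enc_Qh b₂ b₄ b₆ b₈ T S s₂ t₂ s₁ t₁ := by
  simp only [enc_Qh, enc_Uh, enc_Vh, enc_Wh]
  ring

lemma enc_Uh_smul (l m s₁ t₁ s₂ t₂ : R) :
    enc_Uh (l * s₁) (l * t₁) (m * s₂) (m * t₂) = l ^ 2 * m ^ 2 * enc_Uh s₁ t₁ s₂ t₂ := by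
  simp only [enc_Uh]
  ring

lemma enc_Vh_smul (b₂ b₄ b₆ l m s₁ t₁ s₂ t₂ : R) :
    enc_Vh b₂ b₄ b₆ (l * s₁) (l * t₁) (m * s₂) (m * t₂) =
      l ^ 2 * m ^ 2 * enc_Vh b₂ b₄ b₆ s₁ t₁ s₂ t₂ := by
  simp only [enc_Vh]
  ring

lemma enc_Wh_smul (b₄ b₆ b₈ l m s₁ t₁ s₂ t₂ : R) :
    enc_Wh b₄ b₆ b₈ (l * s₁) (l * t₁) (m * s₂) (m * t₂) =
      l ^ 2 * m ^ 2 * enc_Wh b₄ b₆ b₈ s₁ t₁ s₂ t₂ := by
  simp only [enc_Wh]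
  ring

lemma enc_map_Uh {S : Type*} [CommRing S] (f : R →+* S) (s₁ t₁ s₂ t₂ : R) :
    f (enc_Uh s₁ t₁ s₂ t₂) = enc_Uh (f s₁) (f t₁) (f s₂) (f t₂) := by
  simp only [enc_Uh, map_pow, map_sub, map_mul]

lemma enc_map_Vh {S : Type*} [CommRing S] (f : R →+* S) (b₂ b₄ b₆ s₁ t₁ s₂ t₂ : R) :
    f (enc_Vh b₂ b₄ b₆ s₁ t₁ s₂ t₂) =
      enc_Vh (f b₂) (f b₄) (f b₆) (f s₁) (f t₁) (f s₂) (f t₂) := by
  simp only [enc_Vh, map_pow, map_add, map_mul, map_ofNat]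

lemma enc_map_Wh {S : Type*} [CommRing S] (f : R →+* S) (b₄ b₆ b₈ s₁ t₁ s₂ t₂ : R) :
    f (enc_Wh b₄ b₆ b₈ s₁ t₁ s₂ t₂) =
      enc_Wh (f b₄) (f b₆) (f b₈) (f s₁) (f t₁) (f s₂) (f t₂) := by
  simp only [enc_Wh, map_pow, map_sub, map_add, map_mul]

/-- on the diagonal: `V(x,x) = Ψ₂Sq(x)` -/
lemma enc_Vh_diag (b₂ b₄ b₆ x : R) :
    enc_Vh b₂ b₄ b₆ x 1 x 1 = 4 * x ^ 3 + b₂ * x ^ 2 + 2 * b₄ * x + b₆ := by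
  simp only [enc_Vh]
  ring

/-- on the diagonal: `W(x,x) = Φ₂(x)` -/
lemma enc_Wh_diag (b₄ b₆ b₈ x : R) :
    enc_Wh b₄ b₆ b₈ x 1 x 1 = x ^ 4 - b₄ * x ^ 2 - 2 * b₆ * x - b₈ := by
  simp only [enc_Wh]
  ring

/-- the Bezout identity for `Ψ₂Sq` and `Φ₂` in terms of the discriminant -/
lemma enc_Δ_identity (W : WeierstrassCurve R) (x : R) :
    W.Δ = (12 * x ^ 3 - W.b₂ * x ^ 2 - 10 * W.b₄ * x + W.b₂ * W.b₄ - 27 * W.b₆) *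
        (4 * x ^ 3 + W.b₂ * x ^ 2 + 2 * W.b₄ * x + W.b₆) -
      (48 * x ^ 2 + 8 * W.b₂ * x - W.b₂ ^ 2 + 32 * W.b₄) *
        (x ^ 4 - W.b₄ * x ^ 2 - 2 * W.b₆ * x - W.b₈) := by
  simp only [WeierstrassCurve.Δ, b₂, b₄, b₆, b₈]
  ring

end forms

section bpf

variable {K : Type*} [Field K]

/-- **base-point-freeness** (in the form needed): if `Δ ≠ 0` then `U, V, W` have no common zero at
`((s:t), (x:1))` with `(s,t) ≠ (0,0)` -/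
lemma enc_bpf (W : WeierstrassCurve K) (hΔ : W.Δ ≠ 0) {s t x : K} (hst : s ≠ 0 ∨ t ≠ 0)
    (hU : enc_Uh s t x 1 = 0) (hV : enc_Vh W.b₂ W.b₄ W.b₆ s t x 1 = 0)
    (hW : enc_Wh W.b₄ W.b₆ W.b₈ s t x 1 = 0) : False := by
  have hs : s = t * x := by
    have := pow_eq_zero_iff (two_ne_zero) |>.mp hU
    linear_combination this
  have ht : t ≠ 0 := by
    rcases hst with h | h
    · intro h0
      apply h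
      rw [hs, h0, zero_mul]
    · exact h
  have hV' : enc_Vh W.b₂ W.b₄ W.b₆ x 1 x 1 = 0 := by
    have h1 := enc_Vh_smul W.b₂ W.b₄ W.b₆ t 1 x 1 x 1
    rw [mul_one, one_mul, one_mul, ← hs, hV] at h1
    have : t ^ 2 ≠ 0 := pow_ne_zero _ ht
    simpa [this] using h1.symm
  have hW' : enc_Wh W.b₄ W.b₆ W.b₈ x 1 x 1 = 0 := by
    have h1 := enc_Wh_smul W.b₄ W.b₆ W.b₈ t 1 x 1 x 1
    rw [mul_one, one_mul, one_mul, ← hs, hW] at h1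
    have : t ^ 2 ≠ 0 := pow_ne_zero _ ht
    simpa [this] using h1.symm
  apply hΔ
  rw [enc_Δ_identity W x, ← enc_Vh_diag, ← enc_Wh_diag, hV', hW']
  ring

end bpf

end Fermat.Agent.Lib.EN
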