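/-
Moonshot M1 (S13), step (a): the multiplication-by-`k` pairs `(a_k, b_k) ∈ K[X]²`
(`x([k]P) = a_k(x(P)) / b_k(x(P))`), defined by exact division from the symmetric addition forms,
with their invariants: coprimality, the three factorisation identities, `a_k` monic of degree `k²`,
`b_k` of degree `k² - 1` with leading coefficient `k²`.
-/
import Fermat.Agent.Lib.EN.SymForms
import Fermat.Agent.Lib.EN.CountPoly

set_option autoImplicit false

namespace Fermat.Agent.Lib.EN

open Polynomial WeierstrassCurve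

variable {K : Type*} [Field K]

/-- the form `U` at `((a : b), (X : 1))` -/
noncomputable def enc_UX (a b : K[X]) : K[X] := enc_Uh a b X 1

/-- the form `V` at `((a : b), (X : 1))` -/
noncomputable def enc_VX (W : WeierstrassCurve K) (a b : K[X]) : K[X] :=
  enc_Vh (C W.b₂) (C W.b₄) (C W.b₆) a b X 1

/-- the form `W` at `((a : b), (X : 1))` -/
noncomputable def enc_WX (W : WeierstrassCurve K) (a b : K[X]) : K[X] :=
  enc_Wh (C W.b₄) (C W.b₆) (C W.b₈) a b X 1

lemma enc_eval_UX (a b : K[X]) (x : K) :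
    (enc_UX a b).eval x = enc_Uh (a.eval x) (b.eval x) x 1 := by
  simp [enc_UX, enc_Uh]

lemma enc_eval_VX (W : WeierstrassCurve K) (a b : K[X]) (x : K) :
    (enc_VX W a b).eval x = enc_Vh W.b₂ W.b₄ W.b₆ (a.eval x) (b.eval x) x 1 := by
  simp [enc_VX, enc_Vh]

lemma enc_eval_WX (W : WeierstrassCurve K) (a b : K[X]) (x : K) :
    (enc_WX W a b).eval x = enc_Wh W.b₄ W.b₆ W.b₈ (a.eval x) (b.eval x) x 1 := by
  simp [enc_WX, enc_Wh]

/-- the multiplication-by-`k` pairs -/
noncomputable def enc_ab (W : WeierstrassCurve K) : ℕ → K[X] × K[X]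
  | 0 => (1, 0)
  | 1 => (X, 1)
  | 2 => (enc_WX W X 1, enc_VX W X 1)
  | (k + 3) =>
    (enc_WX W (enc_ab W (k + 2)).1 (enc_ab W (k + 2)).2 / (enc_ab W (k + 1)).1,
      enc_UX (enc_ab W (k + 2)).1 (enc_ab W (k + 2)).2 / (enc_ab W (k + 1)).2)

/-- numerator of `x([k]P)` -/
noncomputable def enc_a (W : WeierstrassCurve K) (k : ℕ) : K[X] := (enc_ab W k).1

/-- denominator of `x([k]P)` -/
noncomputable def enc_b (W : WeierstrassCurve K) (k : ℕ) : K[X] := (enc_ab W k).2

@[simp] lemma enc_a_zero (W : WeierstrassCurve K) : enc_a W 0 = 1 := rfl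
@[simp] lemma enc_b_zero (W : WeierstrassCurve K) : enc_b W 0 = 0 := rfl
@[simp] lemma enc_a_one (W : WeierstrassCurve K) : enc_a W 1 = X := rfl
@[simp] lemma enc_b_one (W : WeierstrassCurve K) : enc_b W 1 = 1 := rfl
lemma enc_a_two (W : WeierstrassCurve K) : enc_a W 2 = enc_WX W X 1 := rfl
lemma enc_b_two (W : WeierstrassCurve K) : enc_b W 2 = enc_VX W X 1 := rfl

lemma enc_a_succ (W : WeierstrassCurve K) (k : ℕ) :
    enc_a W (k + 3) = enc_WX W (enc_a W (k + 2)) (enc_b W (k + 2)) / enc_a W (k + 1) := rfl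

lemma enc_b_succ (W : WeierstrassCurve K) (k : ℕ) :
    enc_b W (k + 3) = enc_UX (enc_a W (k + 2)) (enc_b W (k + 2)) / enc_b W (k + 1) := rfl

/-- the three factorisation identities with middle index `k + 1` -/
def enc_Id (W : WeierstrassCurve K) (k : ℕ) : Prop :=
  enc_UX (enc_a W (k + 1)) (enc_b W (k + 1)) = enc_b W (k + 2) * enc_b W k ∧
  enc_VX W (enc_a W (k + 1)) (enc_b W (k + 1)) =
    enc_a W (k + 2) * enc_b W k + enc_a W k * enc_b W (k + 2) ∧
  enc_WX W (enc_a W (k + 1)) (enc_b W (k + 1)) = enc_a W (k + 2) * enc_a W k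

lemma enc_Id_zero (W : WeierstrassCurve K) : enc_Id W 0 := by
  refine ⟨?_, ?_, ?_⟩
  · simp [enc_UX, enc_Uh]
  · simp [enc_b_two]
  · simp [enc_a_two]

/-- the division step: a primitive linear factor of a binary quadratic form splits off -/
lemma enc_factor_step {a' b' U V Wq : K[X]} (hcop : IsCoprime a' b') (ha' : a' ≠ 0) (hb' : b' ≠ 0)
    (hQ : U * a' ^ 2 - V * a' * b' + Wq * b' ^ 2 = 0) :
    U = (U / b') * b' ∧ V = (Wq / a') * b' + a' * (U / b') ∧ Wq = (Wq / a') * a' := by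
  have hbU : b' ∣ U := by
    have h1 : b' ∣ U * a' ^ 2 := ⟨V * a' - Wq * b', by linear_combination hQ⟩
    exact (hcop.symm.pow_right (n := 2)).dvd_of_dvd_mul_right h1
  have haW : a' ∣ Wq := by
    have h1 : a' ∣ Wq * b' ^ 2 := ⟨V * b' - U * a', by linear_combination hQ⟩
    exact (hcop.pow_right (n := 2)).dvd_of_dvd_mul_right h1
  obtain ⟨u, rfl⟩ := hbU
  obtain ⟨w, rfl⟩ := haW
  rw [mul_div_cancel_left₀ u hb', mul_div_cancel_left₀ w ha']
  refine ⟨mul_comm _ _, ?_, mul_comm _ _⟩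
  have h2 : a' * b' * (u * a' - V + w * b') = 0 := by linear_combination hQ
  rcases mul_eq_zero.mp h2 with h3 | h3
  · exact absurd h3 (mul_ne_zero ha' hb')
  · linear_combination -h3

/-- the identities propagate (given coprimality and non-vanishing of the middle pair) -/
lemma enc_Id_succ (W : WeierstrassCurve K) (k : ℕ) (hId : enc_Id W k)
    (hcop : IsCoprime (enc_a W (k + 1)) (enc_b W (k + 1))) (ha : enc_a W (k + 1) ≠ 0)
    (hb : enc_b W (k + 1) ≠ 0) : enc_Id W (k + 1) := by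
  obtain ⟨hU, hV, hW⟩ := hId
  have hQ : enc_UX (enc_a W (k + 2)) (enc_b W (k + 2)) * enc_a W (k + 1) ^ 2 -
      enc_VX W (enc_a W (k + 2)) (enc_b W (k + 2)) * enc_a W (k + 1) * enc_b W (k + 1) +
      enc_WX W (enc_a W (k + 2)) (enc_b W (k + 2)) * enc_b W (k + 1) ^ 2 = 0 := by
    have hsymm := enc_Qh_symm (C W.b₂) (C W.b₄) (C W.b₆) (C W.b₈) (enc_a W (k + 2))
      (enc_b W (k + 2)) X 1 (enc_a W (k + 1)) (enc_b W (k + 1))
    simp only [enc_Qh] at hsymm
    simp only [enc_UX, enc_VX, enc_WX] at hU hV hW ⊢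
    rw [hsymm, hU, hV, hW]
    ring
  obtain ⟨h1, h2, h3⟩ := enc_factor_step hcop ha hb hQ
  refine ⟨?_, ?_, ?_⟩
  · rw [show k + 1 + 2 = k + 3 from rfl, show k + 1 + 1 = k + 2 from rfl, enc_b_succ]
    exact h1
  · rw [show k + 1 + 2 = k + 3 from rfl, show k + 1 + 1 = k + 2 from rfl, enc_b_succ, enc_a_succ]
    exact h2
  · rw [show k + 1 + 2 = k + 3 from rfl, show k + 1 + 1 = k + 2 from rfl, enc_a_succ]
    exact h3

/-- over an algebraically closed field, polynomials without a common root are coprime -/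
lemma enc_isCoprime_of_no_common_root [IsAlgClosed K] {p q : K[X]}
    (h : ∀ x : K, p.eval x = 0 → q.eval x = 0 → False) : IsCoprime p q := by
  rw [isCoprime_iff_aeval_ne_zero_of_isAlgClosed (k := K) K]
  intro x
  by_contra hcon
  push Not at hcon
  obtain ⟨h1, h2⟩ := hcon
  rw [coe_aeval_eq_eval] at h1 h2
  exact h x h1 h2

/-- coprimality propagates, by base-point-freeness -/
lemma enc_coprime_succ [IsAlgClosed K] (W : WeierstrassCurve K) (hΔ : W.Δ ≠ 0) (k : ℕ)
    (hId : enc_Id W k) (hcop : IsCoprime (enc_a W (k + 1)) (enc_b W (k + 1))) :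
    IsCoprime (enc_a W (k + 2)) (enc_b W (k + 2)) := by
  obtain ⟨hU, hV, hW⟩ := hId
  refine enc_isCoprime_of_no_common_root fun x ha hb => ?_
  have hU' := congrArg (eval x) hU
  have hV' := congrArg (eval x) hV
  have hW' := congrArg (eval x) hW
  rw [enc_eval_UX, eval_mul, hb, zero_mul] at hU'
  rw [enc_eval_VX, eval_add, eval_mul, eval_mul, ha, hb, zero_mul, mul_zero, add_zero] at hV'
  rw [enc_eval_WX, eval_mul, ha, zero_mul] at hW'
  refine enc_bpf W hΔ ?_ hU' hV' hW'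
  by_contra hcon
  push Not at hcon
  exact enc_not_both_zero hcop x hcon.1 hcon.2

section degrees

/-- `W(a, b)` is monic of degree `2d + 2` if `a` is monic of degree `d` and `deg b < d` -/
lemma enc_WX_monic (W : WeierstrassCurve K) {a b : K[X]} {d : ℕ} (ha : a.Monic)
    (hda : a.natDegree = d) (hdb : b.natDegree < d) :
    (enc_WX W a b).Monic ∧ (enc_WX W a b).natDegree = 2 * d + 2 := by
  have hmain : (a ^ 2 * X ^ 2).Monic := (ha.pow 2).mul (monic_X_pow 2)
  have hmaindeg : (a ^ 2 * X ^ 2).natDegree = 2 * d + 2 := by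
    rw [Monic.natDegree_mul (ha.pow 2) (monic_X_pow 2), Monic.natDegree_pow ha, natDegree_X_pow,
      hda]
  have hdb' : b.natDegree ≤ d - 1 := by omega
  have hsplit : enc_WX W a b = a ^ 2 * X ^ 2 +
      -(C W.b₄ * a * b * X + C W.b₆ * b * (a + X * b) + C W.b₈ * b ^ 2) := by
    simp only [enc_WX, enc_Wh]
    ring
  have hrest : (-(C W.b₄ * a * b * X + C W.b₆ * b * (a + X * b) + C W.b₈ * b ^ 2)).natDegree ≤
      2 * d := by
    rw [natDegree_neg]
    have h1 : (C W.b₄ * a * b * X).natDegree ≤ 2 * d := by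
      calc (C W.b₄ * a * b * X).natDegree ≤ (0 + d + (d - 1)) + 1 :=
            natDegree_mul_le_of_le (natDegree_mul_le_of_le (natDegree_mul_le_of_le
              (natDegree_C _).le hda.le) hdb') natDegree_X_le
        _ ≤ 2 * d := by omega
    have h2 : (C W.b₆ * b * (a + X * b)).natDegree ≤ 2 * d := by
      have h3 : (a + X * b).natDegree ≤ d :=
        natDegree_add_le_of_degree_le hda.le (by
          calc (X * b).natDegree ≤ 1 + (d - 1) := natDegree_mul_le_of_le natDegree_X_le hdb'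
            _ ≤ d := by omega)
      calc (C W.b₆ * b * (a + X * b)).natDegree ≤ (0 + (d - 1)) + d :=
            natDegree_mul_le_of_le (natDegree_mul_le_of_le (natDegree_C _).le hdb') h3
        _ ≤ 2 * d := by omega
    have h4 : (C W.b₈ * b ^ 2).natDegree ≤ 2 * d := by
      calc (C W.b₈ * b ^ 2).natDegree ≤ 0 + 2 * (d - 1) :=
            natDegree_mul_le_of_le (natDegree_C _).le (natDegree_pow_le_of_le 2 hdb')
        _ ≤ 2 * d := by omega
    exact natDegree_add_le_of_degree_le (natDegree_add_le_of_degree_le h1 h2) h4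
  have hlt : (-(C W.b₄ * a * b * X + C W.b₆ * b * (a + X * b) + C W.b₈ * b ^ 2)).degree <
      (a ^ 2 * X ^ 2).degree := by
    apply degree_lt_degree
    rw [hmaindeg]
    omega
  refine ⟨hsplit ▸ hmain.add_of_left hlt, ?_⟩
  rw [hsplit, natDegree_add_eq_left_of_degree_lt hlt, hmaindeg]

/-- `a - X b` has degree `d` and leading coefficient `1 - β` if `a` is monic of degree `d ≥ 1`,
`b` has degree `d - 1` and leading coefficient `β ≠ 1` -/
lemma enc_sub_X_mul {a b : K[X]} {d : ℕ} (hd : 0 < d) (ha : a.Monic) (hda : a.natDegree = d)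
    (hdb : b.natDegree = d - 1) (hβ : b.leadingCoeff ≠ 1) :
    (a - X * b).natDegree = d ∧ (a - X * b).leadingCoeff = 1 - b.leadingCoeff := by
  have hle : (a - X * b).natDegree ≤ d := by
    have := natDegree_sub_le_of_le (p := a) (q := X * b) hda.le (by
      calc (X * b).natDegree ≤ 1 + (d - 1) := natDegree_mul_le_of_le natDegree_X_le hdb.le
        _ ≤ d := by omega)
    simpa using this
  have hcoeff : (a - X * b).coeff d = 1 - b.leadingCoeff := by
    rw [coeff_sub, ← hda, ha.coeff_natDegree, hda]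
    congr 1
    obtain ⟨e, rfl⟩ : ∃ e, d = e + 1 := ⟨d - 1, by omega⟩
    rw [coeff_X_mul, leadingCoeff, hdb]
    rfl
  have hne : (a - X * b).coeff d ≠ 0 := by
    rw [hcoeff]
    exact sub_ne_zero.mpr (Ne.symm hβ)
  have hdeg : (a - X * b).natDegree = d := le_antisymm hle (le_natDegree_of_ne_zero hne)
  exact ⟨hdeg, by rw [leadingCoeff, hdeg, hcoeff]⟩

end degrees

/-- the invariant of the pair `(a_k, b_k)` -/
def enc_Inv (W : WeierstrassCurve K) (k : ℕ) : Prop :=
  IsCoprime (enc_a W k) (enc_b W k) ∧ (enc_a W k).Monic ∧ (enc_a W k).natDegree = k ^ 2 ∧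
    (enc_b W k).natDegree = k ^ 2 - 1 ∧ (enc_b W k).leadingCoeff = (k : K) ^ 2

lemma enc_Inv_zero (W : WeierstrassCurve K) : enc_Inv W 0 := by
  refine ⟨?_, ?_, ?_, ?_, ?_⟩
  · rw [enc_a_zero]
    exact isCoprime_one_left
  · rw [enc_a_zero]
    exact monic_one
  · rw [enc_a_zero, natDegree_one]
    rfl
  · rw [enc_b_zero, natDegree_zero]
    rfl
  · rw [enc_b_zero, leadingCoeff_zero]
    simp

lemma enc_Inv_one (W : WeierstrassCurve K) : enc_Inv W 1 := by
  refine ⟨?_, ?_, ?_, ?_, ?_⟩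
  · rw [enc_b_one]
    exact isCoprime_one_right
  · rw [enc_a_one]
    exact monic_X
  · rw [enc_a_one, natDegree_X]
    rfl
  · rw [enc_b_one, natDegree_one]
    rfl
  · rw [enc_b_one, leadingCoeff_one]
    simp

lemma enc_b_two_eq (W : WeierstrassCurve K) :
    enc_b W 2 = (Cubic.toPoly ⟨4, W.b₂, 2 * W.b₄, W.b₆⟩ : K[X]) := by
  rw [enc_b_two]
  simp only [enc_VX, enc_Vh, Cubic.toPoly, map_mul, map_ofNat]
  ring

/-- the inductive step for the invariant -/
lemma enc_Inv_succ [IsAlgClosed K] [CharZero K] (W : WeierstrassCurve K) (hΔ : W.Δ ≠ 0) (k : ℕ)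
    (h0 : enc_Inv W k) (h1 : enc_Inv W (k + 1)) (hId : enc_Id W k) : enc_Inv W (k + 2) := by
  obtain ⟨hcop0, hmon0, hda0, hdb0, hlc0⟩ := h0
  obtain ⟨hcop1, hmon1, hda1, hdb1, hlc1⟩ := h1
  have hcop2 := enc_coprime_succ W hΔ k hId hcop1
  obtain ⟨hU, hV, hW⟩ := hId
  have hk1 : 0 < (k + 1) ^ 2 := by positivity
  -- the numerator
  obtain ⟨hWm, hWd⟩ := enc_WX_monic W hmon1 hda1 (by rw [hdb1]; omega)
  rw [hW] at hWm hWd
  have hmon2 : (enc_a W (k + 2)).Monic := hmon0.of_mul_monic_right hWm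
  have hda2 : (enc_a W (k + 2)).natDegree = (k + 2) ^ 2 := by
    rw [Monic.natDegree_mul hmon2 hmon0, hda0] at hWd
    have e1 : (k + 2) ^ 2 = k ^ 2 + 4 * k + 4 := by ring
    have e2 : 2 * (k + 1) ^ 2 + 2 = 2 * k ^ 2 + 4 * k + 4 := by ring
    rw [e1]
    rw [e2] at hWd
    omega
  refine ⟨hcop2, hmon2, hda2, ?_⟩
  -- the denominator
  rcases Nat.eq_zero_or_pos k with rfl | hkpos
  · rw [enc_b_two_eq]
    have h4 : (4 : K) ≠ 0 := by norm_num
    constructor
    · rw [Cubic.natDegree_of_a_ne_zero h4]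
      rfl
    · rw [Cubic.leadingCoeff_of_a_ne_zero h4]
      norm_num
  · have hkK : (k : K) ≠ 0 := Nat.cast_ne_zero.mpr hkpos.ne'
    have hβ : (enc_b W (k + 1)).leadingCoeff ≠ 1 := by
      rw [hlc1]
      intro h
      have h' : (((k + 1) ^ 2 : ℕ) : K) = ((1 : ℕ) : K) := by
        push_cast at h ⊢
        exact h
      have h'' := Nat.cast_injective h'
      nlinarith
    obtain ⟨hgd, hgl⟩ := enc_sub_X_mul hk1 hmon1 hda1 hdb1 hβ
    have hg0 : enc_a W (k + 1) - X * enc_b W (k + 1) ≠ 0 := fun h => by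
      rw [h, natDegree_zero] at hgd
      omega
    have hUeq : enc_UX (enc_a W (k + 1)) (enc_b W (k + 1)) =
        (enc_a W (k + 1) - X * enc_b W (k + 1)) ^ 2 := by
      simp only [enc_UX, enc_Uh]
      ring
    rw [hUeq] at hU
    have hb0 : enc_b W k ≠ 0 := fun h => by
      rw [h, leadingCoeff_zero] at hlc0
      exact pow_ne_zero 2 hkK hlc0.symm
    have hb2 : enc_b W (k + 2) ≠ 0 := fun h => by
      rw [h, zero_mul] at hU
      exact pow_ne_zero 2 hg0 hU
    have hdeg := congrArg natDegree hU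
    rw [natDegree_pow, hgd, natDegree_mul hb2 hb0, hdb0] at hdeg
    have hlc := congrArg leadingCoeff hU
    rw [leadingCoeff_pow, hgl, hlc1, leadingCoeff_mul, hlc0] at hlc
    constructor
    · have e1 : (k + 2) ^ 2 = k ^ 2 + 4 * k + 4 := by ring
      have e2 : 2 * (k + 1) ^ 2 = 2 * k ^ 2 + 4 * k + 2 := by ring
      have e3 : 1 ≤ k ^ 2 := Nat.one_le_pow _ _ hkpos
      rw [e1]
      rw [e2] at hdeg
      omega
    · have hk2 : (k : K) ^ 2 ≠ 0 := pow_ne_zero 2 hkK
      apply mul_right_cancel₀ hk2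
      rw [← hlc]
      push_cast
      ring

/-- **the invariants hold for all `k`** -/
theorem enc_Inv_all [IsAlgClosed K] [CharZero K] (W : WeierstrassCurve K) (hΔ : W.Δ ≠ 0) (k : ℕ) :
    enc_Inv W k ∧ enc_Inv W (k + 1) ∧ enc_Id W k := by
  induction k with
  | zero => exact ⟨enc_Inv_zero W, enc_Inv_one W, enc_Id_zero W⟩
  | succ k ih =>
    obtain ⟨h0, h1, hId⟩ := ih
    have h2 := enc_Inv_succ W hΔ k h0 h1 hId
    refine ⟨h1, h2, enc_Id_succ W k hId h1.1 h1.2.1.ne_zero ?_⟩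
    intro h
    have := h1.2.2.2.2
    rw [h, leadingCoeff_zero] at this
    have hk : ((k + 1 : ℕ) : K) ≠ 0 := Nat.cast_ne_zero.mpr (Nat.succ_ne_zero k)
    exact pow_ne_zero 2 hk this.symm

end Fermat.Agent.Lib.EN
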