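/-
(PF) for odd primes: on a curve with `a₃ = a₆ = 0` (2-torsion point at the origin), the abscissae
`S` of the nonzero `p`-torsion points satisfy `(p² (∏_{ξ ∈ S} ξ)²)² = a₄^{p² - 1}`.
-/
import Fermat.Agent.Lib.EN.TorsionPoly
import Fermat.Agent.Lib.EN.FunEq
import Fermat.Agent.Lib.Mz.Asym
import Fermat.Agent.Lib.S13.IfacePF

set_option autoImplicit false
set_option linter.unusedSectionVars false

namespace Fermat.Agent.Lib.EN

open Polynomial WeierstrassCurve WeierstrassCurve.Affine Fermat.Agent.Lib.Mz Fermat.Agent.Lib.Frey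
  Fermat.Agent.Lib.S13

variable {K : Type*} [Field K] [DecidableEq K] (W : WeierstrassCurve K)

/-- **(PF) for odd primes**, general curve with `a₃ = a₆ = 0`. -/
theorem ent_pf_prime [IsAlgClosed K] [CharZero K] [W.IsElliptic] (h3 : W.a₃ = 0) (h6 : W.a₆ = 0)
    {p : ℕ} (hp : p.Prime) (hp2 : p ≠ 2) (S : Finset K)
    (hS : ∀ ξ : K, ξ ∈ S ↔ ∃ (y : K) (h : W.toAffine.Nonsingular ξ y),
      p • (Point.some ξ y h) = 0) :
    ((p : K) ^ 2 * (∏ ξ ∈ S, ξ) ^ 2) ^ 2 = W.a₄ ^ (p ^ 2 - 1) := by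
  have hp1 : 1 ≤ p := hp.one_le
  have hp2' : 2 ≤ p := hp.two_le
  -- the finset of nonzero torsion points
  have hncard := ent_ncard_torsion W p hp1
  have hfin : {P : W.toAffine.Point | p • P = 0}.Finite := by
    apply Set.finite_of_ncard_pos
    rw [hncard]; positivity
  set T : Finset W.toAffine.Point := hfin.toFinset.erase 0 with hTdef
  have hT : ∀ P, P ∈ T ↔ (p • P = 0 ∧ P ≠ 0) := by
    intro P
    rw [hTdef, Finset.mem_erase, Set.Finite.mem_toFinset, Set.mem_ofPred_eq, and_comm]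
  have hTcard : T.card = p ^ 2 - 1 := by
    rw [hTdef, Finset.card_erase_of_mem, ← Set.ncard_eq_toFinset_card _ hfin, hncard]
    rw [Set.Finite.mem_toFinset, Set.mem_ofPred_eq, nsmul_zero]
  -- `S` is the image of `T`
  have hSeq : S = T.image (ent_xc W) := by
    ext ξ
    rw [hS, Finset.mem_image]
    constructor
    · rintro ⟨y, h, hy⟩
      exact ⟨Point.some ξ y h, (hT _).mpr ⟨hy, Point.some_ne_zero h⟩, rfl⟩
    · rintro ⟨P, hPT, hPx⟩
      obtain ⟨hpP, hP0⟩ := (hT P).mp hPT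
      obtain ⟨y, h, rfl⟩ := ent_hasX_iff.mpr ⟨hP0, hPx⟩
      exact ⟨y, h, hpP⟩
  obtain ⟨hda, hdb, hlc⟩ := ptm_r_asym W p hp1
  set a := (ent_r W p).num with ha
  set b := (ent_r W p).denom with hb
  have hdeg : b.natDegree ≤ T.card := by rw [hdb, hTcard]
  have hbprod : b = ∏ x₀ ∈ S, (X - C x₀) ^ 2 := by
    rw [hSeq]; exact ent_denom_eq_prod W hp hp2 T hT hdeg
  have hb0 : b.eval 0 = (∏ ξ ∈ S, ξ) ^ 2 := by
    rw [hbprod, eval_prod, ← Finset.prod_pow]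
    apply Finset.prod_congr rfl
    intro ξ _
    simp
  -- the functional equation
  obtain ⟨B, hB⟩ := ent_spec W p hp2'
  have hodd : Odd p := hp.eq_two_or_odd'.resolve_left hp2
  have hpos : 0 < p ^ 2 := by positivity
  have hfeq := ent_feq W h3 h6 p hodd (p ^ 2) a b (RatFunc.isCoprime_num_denom _) hda
    (by rw [hdb]; omega) B (by
      intro P x₀ hP hx₀
      obtain ⟨ξ, hξ, hv⟩ := hB P x₀ hP hx₀ p hp1 le_rfl
      obtain ⟨h1, h2⟩ := hv.num_denom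
      exact ⟨h1, ξ, hξ, h2⟩)
  rw [← hb0]
  have : ((p : K) ^ 2 * b.eval 0) ^ 2 = ((a.leadingCoeff * (p : K) ^ 2) ^ 2) * (b.eval 0 ^ 2 / a.leadingCoeff ^ 2) := by
    have hlc0 : a.leadingCoeff ≠ 0 := by
      intro h0; rw [h0, zero_mul] at hlc; exact zero_ne_one hlc
    field_simp
  rw [this, hlc, hfeq]
  have hlc0 : a.leadingCoeff ≠ 0 := by
    intro h0; rw [h0, zero_mul] at hlc; exact zero_ne_one hlc
  field_simp

/-- The Legendre-type model `Y² = X (X − δ) (X − ε)` has discriminant `16 δ² ε² (δ − ε)²`. -/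
theorem ent_fl_curve_Δ (δ ε : K) : (fl_curve δ ε).Δ = 16 * δ ^ 2 * ε ^ 2 * (δ - ε) ^ 2 := by
  simp only [WeierstrassCurve.Δ, WeierstrassCurve.b₂, WeierstrassCurve.b₄, WeierstrassCurve.b₆,
    WeierstrassCurve.b₈, fl_curve_a₁, fl_curve_a₂, fl_curve_a₃, fl_curve_a₄, fl_curve_a₆]
  ring

theorem ent_fl_curve_isElliptic [CharZero K] {δ ε : K} (hδ : δ ≠ 0) (hε : ε ≠ 0) (hδε : δ ≠ ε) :
    (fl_curve δ ε).IsElliptic := by
  refine ⟨isUnit_iff_ne_zero.mpr ?_⟩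
  rw [ent_fl_curve_Δ]
  have h16 : (16 : K) ≠ 0 := by norm_num
  exact mul_ne_zero (mul_ne_zero (mul_ne_zero h16 (pow_ne_zero 2 hδ)) (pow_ne_zero 2 hε))
    (pow_ne_zero 2 (sub_ne_zero.mpr hδε))

/-- The interface `s13_IfacePF` restricted to odd PRIMES `n` (all that the consumers need). -/
def ent_IfacePFPrime : Prop :=
  ∀ {K : Type} [Field K] [DecidableEq K] [IsAlgClosed K] [CharZero K] (δ ε : K),
    δ ≠ 0 → ε ≠ 0 → δ ≠ ε → ∀ (n : ℕ), n.Prime → n ≠ 2 → ∀ (S : Finset K),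
    (∀ ξ : K, ξ ∈ S ↔ ∃ (y : K) (h : (fl_curve δ ε).toAffine.Nonsingular ξ y),
      n • (Affine.Point.some ξ y h) = 0) →
    ((n : K) ^ 2 * (∏ ξ ∈ S, ξ) ^ 2) ^ 2 = (δ * ε) ^ (n ^ 2 - 1)

/-- **(PF) for odd primes, in the shape of `s13_IfacePF`.** -/
theorem ent_ifacePFPrime : ent_IfacePFPrime := by
  intro K _ _ _ _ δ ε hδ hε hδε n hn hn2 S hS
  have := ent_fl_curve_isElliptic hδ hε hδε
  exact ent_pf_prime (fl_curve δ ε) rfl rfl hn hn2 S hS

end Fermat.Agent.Lib.EN
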