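/-
S13 interface (B) `s13_IfaceLocalP`: local analysis at `p`.  First clause = helper8's `cfh_T_quot`
(Lib/S13/LocD).  Second clause (supersingular type excluded): the product formula `ent_pf_prime`
applied DIRECTLY to the frozen Frey model `y² + xy = x³ + a₂x² + a₄x` (which has `a₃ = a₆ = 0`)
plus helper5's `kwr_no_split_ge_vQ`.
-/
import Fermat.Agent.Lib.S13.LocD
import Fermat.Agent.Lib.S13.Iface
import Fermat.Agent.Lib.EN.PFPrime
import Fermat.Agent.Lib.EN.FreyCard
import Fermat.Agent.Lib.KW.RatProdGe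
import Fermat.Agent.Lib.CFT.RamBridge

set_option autoImplicit false
set_option linter.unusedSectionVars false

namespace Fermat.Agent.Lib.EN

open WeierstrassCurve WeierstrassCurve.Affine WeierstrassCurve.Affine.Point
open Fermat.Agent.Lib.Frey Fermat.Agent.Lib.S13 Fermat.Agent.Lib.KW Fermat.Agent.Lib.CFT

local notation "Qb" => AlgebraicClosure ℚ

/-- The Galois action on an affine point of the Frey curve is coordinatewise. -/
theorem ent_smul_some (P : FreyPackage) (σ : Qb ≃ₐ[ℚ] Qb) {X Y : Qb}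
    (h : (P.freyCurve⁄Qb).Nonsingular X Y) :
    ∃ h' : (P.freyCurve⁄Qb).Nonsingular (σ X) (σ Y),
      σ • (Point.some X Y h : (P.freyCurve⁄Qb).Point) = Point.some (σ X) (σ Y) h' := by
  rw [cfh_smul_eq_sigma, fab_sigma_some]
  exact ⟨_, rfl⟩

/-- `0 ≤ v a₄` for the Frey curve at `p`. -/
theorem ent_frey_a₄_nonneg (P : FreyPackage) (A : ValuationSubring Qb) (hA : A.LiesOverPrime P.p) :
    0 ≤ cfh_vp P A hA (P.freyCurve.baseChange Qb).a₄ := by
  set v := cfh_vp P A hA with hv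
  have h16 : v (16 : Qb) = 0 := by
    have : (16 : Qb) = 2 ^ 4 := by norm_num
    rw [this, AddValuation.map_pow, cfh_vp_two, nsmul_zero]
  have hrel : (P.freyCurve.baseChange Qb).a₄ * 16 = ((-(P.a ^ P.p * P.b ^ P.p) : ℤ) : Qb) := by
    simp only [WeierstrassCurve.baseChange, WeierstrassCurve.map, FreyPackage.freyCurve]
    push_cast
    simp only [map_intCast, map_ofNat]
    field_simp
  have h1 : v ((P.freyCurve.baseChange Qb).a₄ * 16) = v (P.freyCurve.baseChange Qb).a₄ := by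
    rw [AddValuation.map_mul, h16, add_zero]
  rw [← h1, hrel]
  exact cfh_vp_int P A hA _

/-- **(B)** of the S13 interface. -/
theorem ent_ifaceLocalP : s13_IfaceLocalP := by
  intro P A hA
  classical
  refine ⟨cfh_T₀ P A hA, fun σ hσ x => (cfh_mem_T_iff P A hA _).mp (cfh_T_quot P A hA σ hσ x), ?_⟩
  intro hT N hN
  by_contra hcon
  push Not at hcon
  obtain ⟨hbot, htop⟩ := hcon
  set W : WeierstrassCurve Qb := P.freyCurve.baseChange Qb with hW
  set v := cfh_vp P A hA with hv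
  have hell : W.IsElliptic :=
    inferInstanceAs ((P.freyCurve.map (algebraMap ℚ Qb)).IsElliptic)
  have h3 : W.a₃ = 0 := by
    simp [hW, WeierstrassCurve.baseChange, WeierstrassCurve.map, FreyPackage.freyCurve]
  have h6 : W.a₆ = 0 := by
    simp [hW, WeierstrassCurve.baseChange, WeierstrassCurve.map, FreyPackage.freyCurve]
  have hp2 : P.p ≠ 2 := by have := P.hp5; omega
  -- finiteness of `V`
  have hcard : Nat.card (s13_V P) = P.p ^ 2 := ent_ifaceCard P
  have hfin : Finite (s13_V P) := by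
    apply Nat.finite_of_card_ne_zero
    rw [hcard]; exact pow_ne_zero 2 P.pp.ne_zero
  let _ : Fintype (s13_V P) := Fintype.ofFinite _
  -- abscissae
  let xc : s13_V P → Qb := fun x => ent_xc W (x : W.toAffine.Point)
  have hxc : ∀ x : s13_V P, x ≠ 0 → ent_HasX W (x : W.toAffine.Point) (xc x) := by
    intro x hx
    apply ent_hasX_xc
    intro h0
    exact hx (Subtype.ext h0)
  have hpx : ∀ x : s13_V P, P.p • (x : W.toAffine.Point) = 0 := by
    intro x
    have := (Submodule.mem_torsionBy_iff _ _).mp x.2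
    rwa [natCast_zsmul] at this
  set S₁ : Finset Qb := (Finset.univ.filter (fun x : s13_V P => x ∈ N ∧ x ≠ 0)).image xc with hS₁
  set S₂ : Finset Qb := (Finset.univ.filter (fun x : s13_V P => x ∉ N)).image xc with hS₂
  have hnotN_ne : ∀ x : s13_V P, x ∉ N → x ≠ 0 := by
    intro x hx h0; rw [h0] at hx; exact hx N.zero_mem
  -- all abscissae have negative valuation
  have hnegx : ∀ x : s13_V P, x ≠ 0 → v (xc x) < 0 := by
    intro x hx
    have hxT : x ∈ cfh_T₀ P A hA := by rw [hT]; exact AddSubgroup.mem_top x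
    have hE1 : fl_InE1 v (x : (P.freyCurve⁄Qb).Point) := hxT
    rcases hE1 with h0 | ⟨X, Y, h, hxy, hX⟩
    · exact absurd (Subtype.ext h0) hx
    · have : xc x = X := by
        show ent_xc W (x : W.toAffine.Point) = X
        rw [hxy]; rfl
      rw [this]; exact hX
  have hneg₁ : ∀ ξ ∈ S₁, v ξ < 0 := by
    intro ξ hξ
    obtain ⟨x, hx, rfl⟩ := Finset.mem_image.mp hξ
    exact hnegx x (Finset.mem_filter.mp hx).2.2
  have hneg₂ : ∀ ξ ∈ S₂, v ξ < 0 := by
    intro ξ hξ
    obtain ⟨x, hx, rfl⟩ := Finset.mem_image.mp hξ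
    exact hnegx x (hnotN_ne x (Finset.mem_filter.mp hx).2)
  -- nonempty
  have hne₁ : S₁.Nonempty := by
    obtain ⟨x, hxN, hx0⟩ := Submodule.exists_mem_ne_zero_of_ne_bot hbot
    exact ⟨xc x, Finset.mem_image_of_mem _ (Finset.mem_filter.mpr ⟨Finset.mem_univ _, hxN, hx0⟩)⟩
  have hne₂ : S₂.Nonempty := by
    have : ∃ x : s13_V P, x ∉ N := by
      by_contra hall
      push Not at hall
      exact htop (eq_top_iff.mpr fun x _ => hall x)
    obtain ⟨x, hx⟩ := this
    exact ⟨xc x, Finset.mem_image_of_mem _ (Finset.mem_filter.mpr ⟨Finset.mem_univ _, hx⟩)⟩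
  -- disjoint
  have hdisj : Disjoint S₁ S₂ := by
    rw [Finset.disjoint_left]
    intro ξ h1 h2
    obtain ⟨x, hx, hxξ⟩ := Finset.mem_image.mp h1
    obtain ⟨x', hx', hxξ'⟩ := Finset.mem_image.mp h2
    obtain ⟨_, hxN, hx0⟩ := Finset.mem_filter.mp hx
    have hx'N : x' ∉ N := (Finset.mem_filter.mp hx').2
    have hX := hxc x hx0
    have hX' := hxc x' (hnotN_ne x' hx'N)
    rw [hxξ] at hX
    rw [hxξ'] at hX'
    rcases ent_HasX.eq_or_eq_neg hX' hX with h | h
    · exact hx'N (by rw [Subtype.ext h]; exact hxN)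
    · have : x' = -x := Subtype.ext (by rw [h]; rfl)
      exact hx'N (by rw [this]; exact N.neg_mem hxN)
  -- Galois action on abscissae
  have hxcσ : ∀ (σ : Qb ≃ₐ[ℚ] Qb) (x : s13_V P), x ≠ 0 → xc (σ • x) = σ (xc x) := by
    intro σ x hx
    obtain ⟨Y, h, hxy⟩ := hxc x hx
    obtain ⟨h', hσ⟩ := ent_smul_some P σ h
    show ent_xc W ((σ • x : s13_V P) : W.toAffine.Point) = σ (xc x)
    rw [cfh_coe_smul, hxy, hσ]
    rfl
  have hσ0 : ∀ (σ : Qb ≃ₐ[ℚ] Qb) (x : s13_V P), x ≠ 0 → σ • x ≠ 0 := by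
    intro σ x hx h0
    apply hx
    have := congrArg (fun y => σ⁻¹ • y) h0
    simpa using this
  have hstab₁ : ∀ σ : Qb ≃ₐ[ℚ] Qb, ∀ ξ ∈ S₁, σ ξ ∈ S₁ := by
    intro σ ξ hξ
    obtain ⟨x, hx, rfl⟩ := Finset.mem_image.mp hξ
    obtain ⟨_, hxN, hx0⟩ := Finset.mem_filter.mp hx
    rw [← hxcσ σ x hx0]
    exact Finset.mem_image_of_mem _
      (Finset.mem_filter.mpr ⟨Finset.mem_univ _, hN σ x hxN, hσ0 σ x hx0⟩)
  have hstab₂ : ∀ σ : Qb ≃ₐ[ℚ] Qb, ∀ ξ ∈ S₂, σ ξ ∈ S₂ := by
    intro σ ξ hξ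
    obtain ⟨x, hx, rfl⟩ := Finset.mem_image.mp hξ
    have hxN : x ∉ N := (Finset.mem_filter.mp hx).2
    rw [← hxcσ σ x (hnotN_ne x hxN)]
    refine Finset.mem_image_of_mem _ (Finset.mem_filter.mpr ⟨Finset.mem_univ _, ?_⟩)
    intro hmem
    apply hxN
    have := hN σ⁻¹ (σ • x) hmem
    simpa using this
  -- the product formula on the frozen model
  have hS : ∀ ξ : Qb, ξ ∈ S₁ ∪ S₂ ↔ ∃ (y : Qb) (h : W.toAffine.Nonsingular ξ y),
      P.p • (Point.some ξ y h) = 0 := by
    intro ξ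
    constructor
    · intro hξ
      have : ∃ x : s13_V P, x ≠ 0 ∧ xc x = ξ := by
        rcases Finset.mem_union.mp hξ with h | h
        · obtain ⟨x, hx, rfl⟩ := Finset.mem_image.mp h
          exact ⟨x, (Finset.mem_filter.mp hx).2.2, rfl⟩
        · obtain ⟨x, hx, rfl⟩ := Finset.mem_image.mp h
          exact ⟨x, hnotN_ne x (Finset.mem_filter.mp hx).2, rfl⟩
      obtain ⟨x, hx0, rfl⟩ := this
      obtain ⟨y, h, hxy⟩ := hxc x hx0
      refine ⟨y, h, ?_⟩
      rw [← hxy]; exact hpx x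
    · rintro ⟨y, h, hp⟩
      let x : s13_V P := ⟨Point.some ξ y h, by
        rw [Submodule.mem_torsionBy_iff, natCast_zsmul]; exact hp⟩
      have hx0 : x ≠ 0 := by
        intro h0
        have : (x : W.toAffine.Point) = 0 := congrArg Subtype.val h0
        exact Point.some_ne_zero h this
      have hxx : xc x = ξ := rfl
      by_cases hxN : x ∈ N
      · exact Finset.mem_union_left _ (Finset.mem_image.mpr
          ⟨x, Finset.mem_filter.mpr ⟨Finset.mem_univ _, hxN, hx0⟩, hxx⟩)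
      · exact Finset.mem_union_right _ (Finset.mem_image.mpr
          ⟨x, Finset.mem_filter.mpr ⟨Finset.mem_univ _, hxN⟩, hxx⟩)
  have hPF := ent_pf_prime W h3 h6 P.pp hp2 (S₁ ∪ S₂) hS
  have hu : 0 ≤ v (W.a₄ ^ (P.p ^ 2 - 1)) := by
    rw [AddValuation.map_pow]
    exact nsmul_nonneg (ent_frey_a₄_nonneg P A hA) _
  have := cfg_isGalois_QBar
  exact kwr_no_split_ge_vQ P.pp hA S₁ S₂ hdisj hne₁ hne₂ hstab₁ hstab₂ hneg₁ hneg₂ hu hPF

end Fermat.Agent.Lib.EN
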