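/-
Moonshot M1 (S13), step (a): the universal symmetric addition law.  For two points `P₁, P₂` of a
Weierstrass curve with `Δ ≠ 0` the binary quadratic form `U T² - V T S + W S²` (forms of
`SymForms.lean` at the projective abscissae of `P₁, P₂`) is a nonzero multiple of
`(t₊ T - s₊ S)(t₋ T - s₋ S)`, `(s± : t±)` the projective abscissae of `P₁ ± P₂` — all degenerate cases
included.
-/
import Fermat.Agent.Lib.EN.SymForms

set_option autoImplicit false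

namespace Fermat.Agent.Lib.EN

open WeierstrassCurve WeierstrassCurve.Affine

section ringlevel

variable {R : Type*} [CommRing R]

/-- numerator of the abscissa of the sum: `(x₁-x₂)² x(P₁+P₂)` -/
def enc_N (W : Affine R) (x₁ y₁ x₂ y₂ : R) : R :=
  (y₁ - y₂) ^ 2 + W.a₁ * (x₁ - x₂) * (y₁ - y₂) - (W.a₂ + x₁ + x₂) * (x₁ - x₂) ^ 2

lemma enc_N_add (W : Affine R) {x₁ y₁ x₂ y₂ : R} (e₁ : W.Equation x₁ y₁) (e₂ : W.Equation x₂ y₂) :
    enc_N W x₁ y₁ x₂ y₂ + enc_N W x₁ y₁ x₂ (W.negY x₂ y₂) = enc_Vh W.b₂ W.b₄ W.b₆ x₁ 1 x₂ 1 := by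
  rw [W.equation_iff] at e₁ e₂
  simp only [enc_N, enc_Vh, negY, b₂, b₄, b₆]
  linear_combination 2 * e₁ + 2 * e₂

lemma enc_N_mul (W : Affine R) {x₁ y₁ x₂ y₂ : R} (e₁ : W.Equation x₁ y₁) (e₂ : W.Equation x₂ y₂) :
    enc_N W x₁ y₁ x₂ y₂ * enc_N W x₁ y₁ x₂ (W.negY x₂ y₂) =
      (x₁ - x₂) ^ 2 * enc_Wh W.b₄ W.b₆ W.b₈ x₁ 1 x₂ 1 := by
  rw [W.equation_iff] at e₁ e₂
  simp only [enc_N, enc_Wh, negY, b₄, b₆, b₈]
  linear_combination
    ((x₁ - x₂) * (2 * x₁ * x₂ + 4 * x₂ ^ 2 + (W.a₁ ^ 2 + 4 * W.a₂) * x₂ + (2 * W.a₄ + W.a₁ * W.a₃)) +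
      ((y₁ ^ 2 + W.a₁ * x₁ * y₁ + W.a₃ * y₁ - (x₁ ^ 3 + W.a₂ * x₁ ^ 2 + W.a₄ * x₁ + W.a₆)) -
        (y₂ ^ 2 + W.a₁ * x₂ * y₂ + W.a₃ * y₂ - (x₂ ^ 3 + W.a₂ * x₂ ^ 2 + W.a₄ * x₂ + W.a₆)))) * e₁ +
    (-(x₁ - x₂) * (4 * x₁ ^ 2 + 2 * x₁ * x₂ + (W.a₁ ^ 2 + 4 * W.a₂) * x₁ +
        (2 * W.a₄ + W.a₁ * W.a₃)) -
      ((y₁ ^ 2 + W.a₁ * x₁ * y₁ + W.a₃ * y₁ - (x₁ ^ 3 + W.a₂ * x₁ ^ 2 + W.a₄ * x₁ + W.a₆)) -
        (y₂ ^ 2 + W.a₁ * x₂ * y₂ + W.a₃ * y₂ - (x₂ ^ 3 + W.a₂ * x₂ ^ 2 + W.a₄ * x₂ + W.a₆)))) * e₂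

/-- `Ψ₂Sq(x) = (2y + a₁x + a₃)²` on the curve -/
lemma enc_Vh_diag_eq (W : Affine R) {x y : R} (e : W.Equation x y) :
    enc_Vh W.b₂ W.b₄ W.b₆ x 1 x 1 = (y - W.negY x y) ^ 2 := by
  rw [W.equation_iff] at e
  simp only [enc_Vh, negY, b₂, b₄, b₆]
  linear_combination (-4 : R) * e

/-- numerator of the duplication formula -/
lemma enc_dup_ring (W : Affine R) {x y : R} (e : W.Equation x y) :
    (3 * x ^ 2 + 2 * W.a₂ * x + W.a₄ - W.a₁ * y) ^ 2 +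
        W.a₁ * (3 * x ^ 2 + 2 * W.a₂ * x + W.a₄ - W.a₁ * y) * (y - W.negY x y) -
        (W.a₂ + x + x) * (y - W.negY x y) ^ 2 =
      enc_Wh W.b₄ W.b₆ W.b₈ x 1 x 1 := by
  rw [W.equation_iff] at e
  simp only [enc_Wh, negY, b₄, b₆, b₈]
  linear_combination (-(W.a₁ ^ 2 + 4 * W.a₂ + 8 * x)) * e

end ringlevel

section field

variable {K : Type*} [Field K]

/-- projective abscissa of a point, first coordinate -/
def enc_sx {W : Affine K} : W.Point → K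
  | .zero => 1
  | .some x _ _ => x

/-- projective abscissa of a point, second coordinate -/
def enc_tx {W : Affine K} : W.Point → K
  | .zero => 0
  | .some _ _ _ => 1

@[simp] lemma enc_sx_zero {W : Affine K} : enc_sx (0 : W.Point) = 1 := rfl
@[simp] lemma enc_tx_zero {W : Affine K} : enc_tx (0 : W.Point) = 0 := rfl
@[simp] lemma enc_sx_some {W : Affine K} {x y : K} (h : W.Nonsingular x y) :
    enc_sx (Point.some x y h) = x := rfl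
@[simp] lemma enc_tx_some {W : Affine K} {x y : K} (h : W.Nonsingular x y) :
    enc_tx (Point.some x y h) = 1 := rfl

lemma enc_sx_neg {W : Affine K} (P : W.Point) : enc_sx (-P) = enc_sx P := by
  rcases P with _ | ⟨x, y, h⟩ <;> rfl

lemma enc_tx_neg {W : Affine K} (P : W.Point) : enc_tx (-P) = enc_tx P := by
  rcases P with _ | ⟨x, y, h⟩ <;> rfl

lemma enc_sx_tx_ne_zero {W : Affine K} (P : W.Point) : enc_sx P ≠ 0 ∨ enc_tx P ≠ 0 := by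
  rcases P with _ | ⟨x, y, h⟩
  · exact Or.inl one_ne_zero
  · exact Or.inr one_ne_zero

lemma enc_tx_eq_zero_iff {W : Affine K} (P : W.Point) : enc_tx P = 0 ↔ P = 0 := by
  rcases P with _ | ⟨x, y, h⟩
  · exact ⟨fun _ => rfl, fun _ => rfl⟩
  · exact ⟨fun h0 => absurd h0 one_ne_zero, fun h0 => absurd h0 (Point.some_ne_zero h)⟩

variable [DecidableEq K]

/-- abscissa of a sum of affine points with distinct abscissae -/
lemma enc_sx_add_of_X_ne {W : Affine K} {x₁ y₁ x₂ y₂ : K} (h₁ : W.Nonsingular x₁ y₁)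
    (h₂ : W.Nonsingular x₂ y₂) (hx : x₁ ≠ x₂) :
    enc_tx (Point.some x₁ y₁ h₁ + Point.some x₂ y₂ h₂) = 1 ∧
      (x₁ - x₂) ^ 2 * enc_sx (Point.some x₁ y₁ h₁ + Point.some x₂ y₂ h₂) = enc_N W x₁ y₁ x₂ y₂ := by
  rw [Point.add_of_X_ne hx]
  refine ⟨rfl, ?_⟩
  rw [enc_sx_some, slope_of_X_ne hx, addX, enc_N]
  have hd : x₁ - x₂ ≠ 0 := sub_ne_zero.mpr hx
  field_simp
  ring

/-- abscissa of the double of an affine point which is not `2`-torsion -/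
lemma enc_sx_double {W : Affine K} {x y : K} (h : W.Nonsingular x y) (hy : y ≠ W.negY x y) :
    enc_tx (Point.some x y h + Point.some x y h) = 1 ∧
      (y - W.negY x y) ^ 2 * enc_sx (Point.some x y h + Point.some x y h) =
        enc_Wh W.b₄ W.b₆ W.b₈ x 1 x 1 := by
  rw [Point.add_self_of_Y_ne hy]
  refine ⟨rfl, ?_⟩
  rw [enc_sx_some, slope_of_Y_ne rfl hy, addX, ← enc_dup_ring W h.1]
  have hd : y - W.negY x y ≠ 0 := sub_ne_zero.mpr hy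
  field_simp
  ring

/-- the universal symmetric addition law -/
theorem enc_universal_law (W : Affine K) (hΔ : W.Δ ≠ 0) (P₁ P₂ : W.Point) :
    ∃ c : K, c ≠ 0 ∧
      enc_Uh (enc_sx P₁) (enc_tx P₁) (enc_sx P₂) (enc_tx P₂) =
        c * (enc_tx (P₁ + P₂) * enc_tx (P₁ - P₂)) ∧
      enc_Vh W.b₂ W.b₄ W.b₆ (enc_sx P₁) (enc_tx P₁) (enc_sx P₂) (enc_tx P₂) =
        c * (enc_sx (P₁ + P₂) * enc_tx (P₁ - P₂) + enc_sx (P₁ - P₂) * enc_tx (P₁ + P₂)) ∧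
      enc_Wh W.b₄ W.b₆ W.b₈ (enc_sx P₁) (enc_tx P₁) (enc_sx P₂) (enc_tx P₂) =
        c * (enc_sx (P₁ + P₂) * enc_sx (P₁ - P₂)) := by
  rcases P₁ with _ | ⟨x₁, y₁, h₁⟩
  · -- `P₁ = 0`
    refine ⟨1, one_ne_zero, ?_, ?_, ?_⟩
    all_goals
      rw [show (Point.zero : W.Point) = 0 from rfl, zero_add, zero_sub]
      simp only [enc_sx_neg, enc_tx_neg, enc_sx_zero, enc_tx_zero, enc_Uh, enc_Vh, enc_Wh]
      ring
  rcases P₂ with _ | ⟨x₂, y₂, h₂⟩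
  · -- `P₂ = 0`
    refine ⟨1, one_ne_zero, ?_, ?_, ?_⟩
    all_goals
      rw [show (Point.zero : W.Point) = 0 from rfl, add_zero, sub_zero]
      simp only [enc_sx_zero, enc_tx_zero, enc_sx_some, enc_tx_some, enc_Uh, enc_Vh, enc_Wh]
      ring
  by_cases hx : x₁ = x₂
  · -- same abscissa
    subst hx
    have hV := enc_Vh_diag_eq W h₁.1
    have hU : enc_Uh x₁ 1 x₁ 1 = 0 := by
      simp only [enc_Uh]
      ring
    -- the case of a double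
    have hdouble : y₁ ≠ W.negY x₁ y₁ →
        enc_tx (Point.some x₁ y₁ h₁ + Point.some x₁ y₁ h₁) = 1 ∧
        enc_Wh W.b₄ W.b₆ W.b₈ x₁ 1 x₁ 1 = enc_Vh W.b₂ W.b₄ W.b₆ x₁ 1 x₁ 1 *
          enc_sx (Point.some x₁ y₁ h₁ + Point.some x₁ y₁ h₁) ∧
        enc_Vh W.b₂ W.b₄ W.b₆ x₁ 1 x₁ 1 ≠ 0 := by
      intro hy'
      obtain ⟨h1, h2⟩ := enc_sx_double h₁ hy'
      refine ⟨h1, ?_, ?_⟩
      · rw [hV, h2]
      · rw [hV]
        exact pow_ne_zero _ (sub_ne_zero.mpr hy')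
    by_cases hy : y₁ = W.negY x₁ y₂
    · -- `P₁ = -P₂`
      have hneg : -Point.some x₁ y₂ h₂ = Point.some x₁ y₁ h₁ := by
        rw [Point.neg_some, Point.some.injEq]
        exact ⟨rfl, hy.symm⟩
      have hadd : Point.some x₁ y₁ h₁ + Point.some x₁ y₂ h₂ = 0 := Point.add_of_Y_eq rfl hy
      have hsub : Point.some x₁ y₁ h₁ - Point.some x₁ y₂ h₂ =
          Point.some x₁ y₁ h₁ + Point.some x₁ y₁ h₁ := by
        rw [sub_eq_add_neg, hneg]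
      rw [hadd, hsub]
      simp only [enc_sx_some, enc_tx_some, enc_sx_zero, enc_tx_zero]
      by_cases hy' : y₁ = W.negY x₁ y₁
      · -- `2`-torsion
        have h2 : Point.some x₁ y₁ h₁ + Point.some x₁ y₁ h₁ = 0 := Point.add_self_of_Y_eq hy'
        have hV0 : enc_Vh W.b₂ W.b₄ W.b₆ x₁ 1 x₁ 1 = 0 := by
          rw [hV, sub_eq_zero.mpr hy']
          ring
        rw [h2]
        simp only [enc_sx_zero, enc_tx_zero]
        refine ⟨enc_Wh W.b₄ W.b₆ W.b₈ x₁ 1 x₁ 1, ?_, ?_, ?_, ?_⟩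
        · intro h0
          exact enc_bpf W hΔ (Or.inr one_ne_zero) hU hV0 h0
        · rw [hU]
          ring
        · rw [hV0]
          ring
        · ring
      · obtain ⟨h1, h2, h3⟩ := hdouble hy'
        refine ⟨enc_Vh W.b₂ W.b₄ W.b₆ x₁ 1 x₁ 1, h3, ?_, ?_, ?_⟩
        · rw [hU]
          ring
        · rw [h1]
          ring
        · rw [h2]
          ring
    · -- `P₁ = P₂`, not `2`-torsion
      have hyy : y₁ = y₂ := (Y_eq_of_X_eq h₁.1 h₂.1 rfl).resolve_right hy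
      subst hyy
      obtain ⟨h1, h2, h3⟩ := hdouble hy
      rw [sub_self]
      simp only [enc_sx_some, enc_tx_some, enc_sx_zero, enc_tx_zero]
      refine ⟨enc_Vh W.b₂ W.b₄ W.b₆ x₁ 1 x₁ 1, h3, ?_, ?_, ?_⟩
      · rw [hU]
        ring
      · rw [h1]
        ring
      · rw [h2]
        ring
  · -- generic case
    have hd : x₁ - x₂ ≠ 0 := sub_ne_zero.mpr hx
    obtain ⟨htp, hsp⟩ := enc_sx_add_of_X_ne h₁ h₂ hx
    have h₂' : W.Nonsingular x₂ (W.negY x₂ y₂) := (nonsingular_neg ..).mpr h₂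
    have hsub : Point.some x₁ y₁ h₁ - Point.some x₂ y₂ h₂ =
        Point.some x₁ y₁ h₁ + Point.some x₂ (W.negY x₂ y₂) h₂' := by
      rw [sub_eq_add_neg, Point.neg_some]
    obtain ⟨htm, hsm⟩ := enc_sx_add_of_X_ne h₁ h₂' hx
    rw [← hsub] at htm hsm
    refine ⟨(x₁ - x₂) ^ 2, pow_ne_zero _ hd, ?_, ?_, ?_⟩
    · rw [htp, htm]
      simp only [enc_sx_some, enc_tx_some, enc_Uh]
      ring
    · rw [htp, htm, enc_sx_some, enc_tx_some, enc_sx_some, enc_tx_some,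
        ← enc_N_add W h₁.1 h₂.1, ← hsp, ← hsm]
      ring
    · rw [enc_sx_some, enc_tx_some, enc_sx_some, enc_tx_some]
      have := enc_N_mul W h₁.1 h₂.1
      rw [← hsp, ← hsm] at this
      have hd2 : (x₁ - x₂) ^ 2 ≠ 0 := pow_ne_zero _ hd
      apply mul_left_cancel₀ hd2
      rw [← this]
      ring

end field

end Fermat.Agent.Lib.EN
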