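/-
Moonshot M1 (S13), step (a): the pointwise multiplication formula at ALL points,
`x([k]P) = (a_k(x(P)) : b_k(x(P)))` projectively, and the count `#E[n] = n²`
over an algebraically closed field of characteristic `0`.
-/
import Fermat.Agent.Lib.EN.MulRec
import Fermat.Agent.Lib.EN.SymAdd
import Fermat.Agent.Lib.EN.CountCurve

set_option autoImplicit false

namespace Fermat.Agent.Lib.EN

open Polynomial WeierstrassCurve WeierstrassCurve.Affine

variable {K : Type*} [Field K]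

lemma enc_Uh_smul_left (l s₁ t₁ s₂ t₂ : K) :
    enc_Uh (l * s₁) (l * t₁) s₂ t₂ = l ^ 2 * enc_Uh s₁ t₁ s₂ t₂ := by
  simp only [enc_Uh]
  ring

lemma enc_Vh_smul_left (b₂ b₄ b₆ l s₁ t₁ s₂ t₂ : K) :
    enc_Vh b₂ b₄ b₆ (l * s₁) (l * t₁) s₂ t₂ = l ^ 2 * enc_Vh b₂ b₄ b₆ s₁ t₁ s₂ t₂ := by
  simp only [enc_Vh]
  ring

lemma enc_Wh_smul_left (b₄ b₆ b₈ l s₁ t₁ s₂ t₂ : K) :
    enc_Wh b₄ b₆ b₈ (l * s₁) (l * t₁) s₂ t₂ = l ^ 2 * enc_Wh b₄ b₆ b₈ s₁ t₁ s₂ t₂ := by
  simp only [enc_Wh]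
  ring

/-- cancellation of a common nonzero linear factor of two binary quadratic forms -/
lemma enc_cancel_linear {a' b' a'' b'' sp tp κ : K} (hab : a' ≠ 0 ∨ b' ≠ 0)
    (h1 : tp * b' = κ * (b'' * b')) (h2 : sp * b' + a' * tp = κ * (a'' * b' + a' * b''))
    (h3 : sp * a' = κ * (a'' * a')) : sp = κ * a'' ∧ tp = κ * b'' := by
  by_cases hb : b' = 0
  · have ha : a' ≠ 0 := hab.resolve_right (not_not.mpr hb)
    subst hb
    constructor
    · apply mul_right_cancel₀ ha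
      linear_combination h3
    · apply mul_left_cancel₀ ha
      linear_combination h2
  · have ht : tp = κ * b'' := by
      apply mul_right_cancel₀ hb
      linear_combination h1
    constructor
    · apply mul_right_cancel₀ hb
      rw [ht] at h2
      linear_combination h2
    · exact ht

variable [DecidableEq K]

/-- **pointwise multiplication formula, at all points, projectively** -/
theorem enc_pointwise [IsAlgClosed K] [CharZero K] (W : Affine K) (hΔ : W.Δ ≠ 0) {x₀ y₀ : K}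
    (h : W.Nonsingular x₀ y₀) (k : ℕ) :
    ∃ μ : K, μ ≠ 0 ∧ enc_sx (k • Point.some x₀ y₀ h) = μ * (enc_a W k).eval x₀ ∧
      enc_tx (k • Point.some x₀ y₀ h) = μ * (enc_b W k).eval x₀ := by
  suffices hboth : (∃ μ : K, μ ≠ 0 ∧ enc_sx (k • Point.some x₀ y₀ h) = μ * (enc_a W k).eval x₀ ∧
      enc_tx (k • Point.some x₀ y₀ h) = μ * (enc_b W k).eval x₀) ∧
      (∃ μ : K, μ ≠ 0 ∧
        enc_sx ((k + 1) • Point.some x₀ y₀ h) = μ * (enc_a W (k + 1)).eval x₀ ∧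
        enc_tx ((k + 1) • Point.some x₀ y₀ h) = μ * (enc_b W (k + 1)).eval x₀) from hboth.1
  induction k with
  | zero =>
    refine ⟨⟨1, one_ne_zero, ?_, ?_⟩, ⟨1, one_ne_zero, ?_, ?_⟩⟩
    · rw [zero_smul]
      simp
    · rw [zero_smul]
      simp
    · rw [zero_add, one_smul]
      simp
    · rw [zero_add, one_smul]
      simp
  | succ k ih =>
    obtain ⟨⟨μ₀, hμ₀, hs₀, ht₀⟩, ⟨μ₁, hμ₁, hs₁, ht₁⟩⟩ := ih
    refine ⟨⟨μ₁, hμ₁, hs₁, ht₁⟩, ?_⟩
    obtain ⟨hInv0, -, hId⟩ := enc_Inv_all W hΔ k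
    obtain ⟨hU, hV, hW⟩ := hId
    set P := Point.some x₀ y₀ h with hP
    have hadd : (k + 1) • P + P = (k + 1 + 1) • P := (succ_nsmul P (k + 1)).symm
    have hsub : (k + 1) • P - P = k • P := by
      rw [succ_nsmul, add_sub_cancel_right]
    obtain ⟨c, hc, hcU, hcV, hcW⟩ := enc_universal_law W hΔ ((k + 1) • P) P
    have hxP : enc_sx P = x₀ := rfl
    have htP : enc_tx P = 1 := rfl
    simp only [hadd, hsub, hs₁, ht₁, hs₀, ht₀, hxP, htP] at hcU hcV hcW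
    rw [enc_Uh_smul_left, ← enc_eval_UX, hU, eval_mul] at hcU
    rw [enc_Vh_smul_left, ← enc_eval_VX, hV, eval_add, eval_mul, eval_mul] at hcV
    rw [enc_Wh_smul_left, ← enc_eval_WX, hW, eval_mul] at hcW
    have hcμ : c * μ₀ ≠ 0 := mul_ne_zero hc hμ₀
    have hab : (enc_a W k).eval x₀ ≠ 0 ∨ (enc_b W k).eval x₀ ≠ 0 := by
      by_contra hcon
      push Not at hcon
      exact enc_not_both_zero hInv0.1 x₀ hcon.1 hcon.2
    obtain ⟨e1, e2⟩ := enc_cancel_linear (κ := μ₁ ^ 2 / (c * μ₀)) hab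
      (sp := enc_sx ((k + 1 + 1) • P)) (tp := enc_tx ((k + 1 + 1) • P))
      (a'' := (enc_a W (k + 2)).eval x₀) (b'' := (enc_b W (k + 2)).eval x₀)
      (by rw [div_mul_eq_mul_div, eq_div_iff hcμ]; linear_combination -hcU)
      (by rw [div_mul_eq_mul_div, eq_div_iff hcμ]; linear_combination -hcV)
      (by rw [div_mul_eq_mul_div, eq_div_iff hcμ]; linear_combination -hcW)
    exact ⟨μ₁ ^ 2 / (c * μ₀), div_ne_zero (pow_ne_zero 2 hμ₁) hcμ, e1, e2⟩

/-- `[k]P = 0` iff the abscissa of `P` is a root of `b_k` -/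
theorem enc_nsmul_eq_zero_iff [IsAlgClosed K] [CharZero K] (W : Affine K) (hΔ : W.Δ ≠ 0)
    {x₀ y₀ : K} (h : W.Nonsingular x₀ y₀) (k : ℕ) :
    k • Point.some x₀ y₀ h = 0 ↔ (enc_b W k).eval x₀ = 0 := by
  obtain ⟨μ, hμ, -, ht⟩ := enc_pointwise W hΔ h k
  rw [← enc_tx_eq_zero_iff, ht, mul_eq_zero]
  exact ⟨fun h' => h'.resolve_left hμ, Or.inr⟩

/-- the abscissa of `[k]P` is `a_k(x(P)) / b_k(x(P))` -/
theorem enc_nsmul_some [IsAlgClosed K] [CharZero K] (W : Affine K) (hΔ : W.Δ ≠ 0)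
    {x₀ y₀ : K} (h : W.Nonsingular x₀ y₀) (k : ℕ) {x' y' : K} {h' : W.Nonsingular x' y'}
    (hk : k • Point.some x₀ y₀ h = Point.some x' y' h') :
    x' * (enc_b W k).eval x₀ = (enc_a W k).eval x₀ := by
  obtain ⟨μ, hμ, hs, ht⟩ := enc_pointwise W hΔ h k
  rw [hk] at hs ht
  rw [enc_sx_some] at hs
  rw [enc_tx_some] at ht
  rw [hs]
  linear_combination (-(enc_a W k).eval x₀) * ht

omit [DecidableEq K] in
lemma enc_b_ne_zero [IsAlgClosed K] [CharZero K] (W : Affine K) (hΔ : W.Δ ≠ 0) {k : ℕ}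
    (hk : 0 < k) : enc_b W k ≠ 0 := by
  intro h
  have := (enc_Inv_all W hΔ k).1.2.2.2.2
  rw [h, leadingCoeff_zero] at this
  have hk' : ((k : ℕ) : K) ≠ 0 := Nat.cast_ne_zero.mpr hk.ne'
  exact pow_ne_zero 2 hk' this.symm

/-- **`#E[n] = n²`** over an algebraically closed field of characteristic `0` -/
theorem enc_card_torsion_of_Δ [IsAlgClosed K] [CharZero K] (W : Affine K) (hΔ : W.Δ ≠ 0) (n : ℕ)
    (hn : 0 < n) : Nat.card (Submodule.torsionBy ℤ W.Point (n : ℤ)) = n ^ 2 := by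
  obtain ⟨hcop, -, hda, hdb, -⟩ := (enc_Inv_all W hΔ n).1
  have hb0 := enc_b_ne_zero W hΔ hn
  refine enc_card_torsionBy W hΔ n hn (enc_a W n) (enc_b W n) hcop ?_
    (enc_b W n).roots.toFinset ?_
  · rw [hda, hdb]
    exact max_eq_left (Nat.sub_le _ _)
  · intro x y h hx
    have hbx : (enc_b W n).eval x ≠ 0 := by
      intro h0
      apply hx
      rw [Multiset.mem_toFinset, mem_roots hb0]
      exact h0
    refine ⟨hbx, ?_⟩
    have hne : n • Point.some x y h ≠ 0 := fun h0 =>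
      hbx ((enc_nsmul_eq_zero_iff W hΔ h n).mp h0)
    rcases hP : n • Point.some x y h with _ | ⟨x', y', h'⟩
    · exact absurd hP hne
    · exact ⟨x', y', h', rfl, enc_nsmul_some W hΔ h n hP⟩

/-- the same for `{P // n • P = 0}` -/
theorem enc_card_torsion_of_Δ' [IsAlgClosed K] [CharZero K] (W : Affine K) (hΔ : W.Δ ≠ 0) (n : ℕ)
    (hn : 0 < n) : Nat.card {P : W.Point // n • P = 0} = n ^ 2 := by
  rw [← enc_card_torsion_of_Δ W hΔ n hn]
  refine Nat.card_congr (Equiv.subtypeEquivRight fun P => ?_)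
  rw [Submodule.mem_torsionBy_iff, natCast_zsmul]

end Fermat.Agent.Lib.EN
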