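/-
Moonshot M1 (S13), product formula (PF), squareness part: for odd `n` the denominator `b_n`
(`enc_b W n`) of the multiplication-by-`n` map is a constant times a square, all its roots are
double, its roots are exactly the abscissae of the nonzero `n`-torsion points, and hence
`b_n(0) = n² · (∏_{ξ ∈ S} ξ)²` where `S` is the finite set of these abscissae.
-/
import Fermat.Agent.Lib.EN.Pointwise

set_option autoImplicit false

namespace Fermat.Agent.Lib.EN

open Polynomial WeierstrassCurve WeierstrassCurve.Affine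

variable {K : Type*} [Field K]

/-- (Q1) for odd `n`, `b_n` is a nonzero constant times a square. -/
theorem enq_b_odd_sq [IsAlgClosed K] [CharZero K] (W : WeierstrassCurve K) (hΔ : W.Δ ≠ 0)
    (j : ℕ) : ∃ (c : K) (β : K[X]), c ≠ 0 ∧ enc_b W (2 * j + 1) = C c * β ^ 2 := by
  induction j with
  | zero => exact ⟨1, 1, one_ne_zero, by simp⟩
  | succ j ih =>
    obtain ⟨c, β, hc, hβ⟩ := ih
    have hId := (enc_Inv_all W hΔ (2 * j + 1)).2.2.1
    have hb0 : enc_b W (2 * j + 1) ≠ 0 := enc_b_ne_zero W hΔ (by omega)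
    have hβ0 : β ≠ 0 := by
      rintro rfl
      apply hb0
      rw [hβ]; simp
    set g : K[X] := enc_a W (2 * j + 1 + 1) * 1 - X * enc_b W (2 * j + 1 + 1) with hg
    have hU : g ^ 2 = enc_b W (2 * j + 1 + 2) * enc_b W (2 * j + 1) := by
      rw [← hId]; rfl
    have hdvd : β ^ 2 ∣ g ^ 2 := by
      rw [hU, hβ]
      exact ⟨enc_b W (2 * j + 1 + 2) * C c, by ring⟩
    obtain ⟨h, hh⟩ := (IsIntegrallyClosed.pow_dvd_pow_iff two_ne_zero).mp hdvd
    refine ⟨c⁻¹, h, inv_ne_zero hc, ?_⟩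
    have hβ2 : β ^ 2 ≠ 0 := pow_ne_zero 2 hβ0
    have hcC : (C c : K[X]) ≠ 0 := by rwa [Ne, C_eq_zero]
    have e : 2 * (j + 1) + 1 = 2 * j + 1 + 2 := by ring
    rw [e]
    apply mul_right_cancel₀ (mul_ne_zero hcC hβ2)
    rw [← hβ, ← hU, hh, hβ]
    have : (C c⁻¹ : K[X]) * C c = 1 := by rw [← C_mul, inv_mul_cancel₀ hc, C_1]
    calc (β * h) ^ 2 = 1 * (β * h) ^ 2 := (one_mul _).symm
      _ = C c⁻¹ * C c * (β * h) ^ 2 := by rw [this]
      _ = C c⁻¹ * h ^ 2 * (C c * β ^ 2) := by ring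

variable [DecidableEq K]

/-- the number of nonzero `n`-torsion points is at most twice the number of their abscissae -/
theorem enq_card_le_two_mul [IsAlgClosed K] [CharZero K] (W : Affine K) (hΔ : W.Δ ≠ 0) (n : ℕ)
    (hn : 0 < n) (S : Finset K)
    (hS : ∀ ξ : K, (∃ (y : K) (h : W.Nonsingular ξ y), n • (Point.some ξ y h) = 0) → ξ ∈ S) :
    n ^ 2 - 1 ≤ 2 * S.card := by
  have hcard := enc_card_torsion_of_Δ' W hΔ n hn
  have : Finite {P : W.Point // n • P = 0} :=
    Nat.finite_of_card_ne_zero (by rw [hcard]; positivity)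
  have : Fintype {P : W.Point // n • P = 0} := Fintype.ofFinite _
  rw [Nat.card_eq_fintype_card] at hcard
  set z : {P : W.Point // n • P = 0} := ⟨0, smul_zero n⟩ with hz
  set s : Finset {P : W.Point // n • P = 0} := Finset.univ.erase z with hs
  have hscard : s.card = n ^ 2 - 1 := by
    rw [hs, Finset.card_erase_of_mem (Finset.mem_univ z), Finset.card_univ, hcard]
  set f : {P : W.Point // n • P = 0} → K := fun P => enc_xOf P.1 with hf
  have hne : ∀ P ∈ s, P.1 ≠ 0 := by
    intro P hP h0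
    rw [hs, Finset.mem_erase] at hP
    exact hP.1 (Subtype.ext h0)
  have himg : s.image f ⊆ S := by
    intro ξ hξ
    rw [Finset.mem_image] at hξ
    obtain ⟨P, hP, rfl⟩ := hξ
    have h0 := hne P hP
    obtain ⟨Q, hQ⟩ := P
    rcases Q with _ | ⟨x, y, h⟩
    · exact absurd rfl h0
    · exact hS x ⟨y, h, hQ⟩
  have hfib : ∀ b ∈ s.image f, (s.filter fun a => f a = b).card ≤ 2 := by
    intro b hb
    rw [Finset.mem_image] at hb
    obtain ⟨P₀, hP₀, rfl⟩ := hb
    set P₁ : {P : W.Point // n • P = 0} := ⟨-P₀.1, by rw [smul_neg, P₀.2, neg_zero]⟩ with hP₁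
    have hsub : (s.filter fun a => f a = f P₀) ⊆ {P₀, P₁} := by
      intro P hP
      rw [Finset.mem_filter] at hP
      rw [Finset.mem_insert, Finset.mem_singleton]
      rcases enc_eq_or_eq_neg_of_xOf (hne P hP.1) (hne P₀ hP₀) hP.2 with h | h
      · exact Or.inl (Subtype.ext h)
      · exact Or.inr (Subtype.ext h)
    exact (Finset.card_le_card hsub).trans Finset.card_le_two
  calc n ^ 2 - 1 = s.card := hscard.symm
    _ ≤ 2 * (s.image f).card := Finset.card_le_mul_card_image s 2 hfib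
    _ ≤ 2 * S.card := Nat.mul_le_mul_left 2 (Finset.card_le_card himg)

/-- (Q2) for odd `n`, the value of `b_n` at `0` is `n²` times the square of the product of the
abscissae of the nonzero `n`-torsion points. -/
theorem enq_b_eval_zero [IsAlgClosed K] [CharZero K] (W : Affine K) (hΔ : W.Δ ≠ 0) (n : ℕ)
    (hn : Odd n) (S : Finset K)
    (hS : ∀ ξ : K, ξ ∈ S ↔ ∃ (y : K) (h : W.Nonsingular ξ y), n • (Point.some ξ y h) = 0) :
    (enc_b W n).eval 0 = (n : K) ^ 2 * (∏ ξ ∈ S, ξ) ^ 2 := by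
  obtain ⟨j, rfl⟩ := hn
  have hn0 : 0 < 2 * j + 1 := by omega
  obtain ⟨c, β, hc, hβ⟩ := enq_b_odd_sq W hΔ j
  obtain ⟨-, -, -, hdb, hlc⟩ := (enc_Inv_all W hΔ (2 * j + 1)).1
  have hb0 : enc_b W (2 * j + 1) ≠ 0 := enc_b_ne_zero W hΔ hn0
  have hroots : (enc_b W (2 * j + 1)).roots = 2 • β.roots := by
    rw [hβ, roots_C_mul _ hc, roots_pow]
  -- the roots of `β` are the elements of `S`
  have hmem : ∀ ξ, ξ ∈ β.roots ↔ ξ ∈ S := by
    intro ξ
    have h1 : ξ ∈ β.roots ↔ ξ ∈ (enc_b W (2 * j + 1)).roots := by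
      rw [hroots, Multiset.mem_nsmul]
      simp
    rw [h1, mem_roots hb0, IsRoot.def, hS]
    constructor
    · intro h0
      exact ⟨enc_y W ξ, enc_y_nonsingular W hΔ ξ,
        (enc_nsmul_eq_zero_iff W hΔ (enc_y_nonsingular W hΔ ξ) (2 * j + 1)).mpr h0⟩
    · rintro ⟨y, h, h0⟩
      exact (enc_nsmul_eq_zero_iff W hΔ h (2 * j + 1)).mp h0
  have hfin : β.roots.toFinset = S := by
    ext ξ
    rw [Multiset.mem_toFinset, hmem]
  -- counting
  have hcardb : (enc_b W (2 * j + 1)).roots.card = (2 * j + 1) ^ 2 - 1 := by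
    rw [splits_iff_card_roots.mp (IsAlgClosed.splits _), hdb]
  have hcardβ : 2 * β.roots.card = (2 * j + 1) ^ 2 - 1 := by
    rw [← hcardb, hroots, Multiset.card_nsmul]
  have hle := enq_card_le_two_mul W hΔ (2 * j + 1) hn0 S (fun ξ h => (hS ξ).mpr h)
  have hnodup : β.roots.Nodup := by
    rw [← Multiset.toFinset_card_eq_card_iff_nodup]
    apply le_antisymm (Multiset.toFinset_card_le _)
    rw [hfin]
    omega
  have hval : β.roots = S.val := by
    rw [← hfin, Multiset.toFinset_val, Multiset.dedup_eq_self.mpr hnodup]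
  -- evaluation at `0`
  rw [(IsAlgClosed.splits (enc_b W (2 * j + 1))).eval_eq_prod_roots, hlc, hroots,
    Multiset.map_nsmul, Multiset.prod_nsmul, hval]
  congr 1
  have : (Multiset.map (fun x => (0 : K) - x) S.val) = Multiset.map (fun x => -x) S.val := by
    congr 1
    ext x
    rw [zero_sub]
  rw [this, Multiset.prod_map_neg, mul_pow, ← pow_mul, mul_comm _ 2, pow_mul, neg_one_sq, one_pow,
    one_mul, Finset.prod_eq_multiset_prod, Multiset.map_id']

end Fermat.Agent.Lib.EN
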