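/-
Moonshot M1 (S13), product formula (PF), part a: for odd `n` the denominator `b_n` of the
multiplication-by-`n` map is `n²` times the square of the monic polynomial whose (simple) roots are
the abscissae of the nonzero `n`-torsion points.
-/
import Fermat.Agent.Lib.EN.Pointwise

set_option autoImplicit false

namespace Fermat.Agent.Lib.EN

open Polynomial WeierstrassCurve WeierstrassCurve.Affine

variable {K : Type*} [Field K] [DecidableEq K]

/-- an odd-torsion point which is its own negative is trivial -/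
lemma enc_eq_zero_of_odd_of_eq_neg {W : Affine K} {n : ℕ} (hn : Odd n) {P : W.Point}
    (hP : n • P = 0) (h2 : P = -P) : P = 0 := by
  obtain ⟨q, rfl⟩ := hn
  have h2' : 2 • P = 0 := by
    rw [two_nsmul]
    nth_rewrite 1 [h2]
    exact neg_add_cancel P
  rw [add_smul, mul_comm, mul_smul, h2', smul_zero, zero_add, one_smul] at hP
  exact hP

/-- the chosen point above an abscissa is killed by `k` iff the abscissa is a root of `b_k` -/
lemma enc_nsmul_pt_eq_zero_iff [IsAlgClosed K] [CharZero K] (W : Affine K) (hΔ : W.Δ ≠ 0) (k : ℕ)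
    (ξ : K) : k • enc_pt W hΔ ξ = 0 ↔ (enc_b W k).eval ξ = 0 :=
  enc_nsmul_eq_zero_iff W hΔ (enc_y_nonsingular W hΔ ξ) k

/-- for odd `n ≥ 3`, `b_n` and `b_{n-2}` are coprime -/
lemma enc_coprime_b_odd [IsAlgClosed K] [CharZero K] (W : Affine K) (hΔ : W.Δ ≠ 0) (m : ℕ)
    (hm : Odd m) : IsCoprime (enc_b W (m + 2)) (enc_b W m) := by
  refine enc_isCoprime_of_no_common_root fun ξ h1 h2 => ?_
  rw [← enc_nsmul_pt_eq_zero_iff W hΔ] at h1 h2
  have h3 : 2 • enc_pt W hΔ ξ = 0 := by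
    rw [add_smul, h2, zero_add] at h1
    exact h1
  have h4 : enc_pt W hΔ ξ = -enc_pt W hΔ ξ := by
    rw [two_nsmul] at h3
    exact eq_neg_of_add_eq_zero_left h3
  exact Point.some_ne_zero _ (enc_eq_zero_of_odd_of_eq_neg hm h2 h4)

/-- for odd `n`, `b_n = n² g²` with `g` monic -/
lemma enc_b_odd_square [IsAlgClosed K] [CharZero K] (W : Affine K) (hΔ : W.Δ ≠ 0) (n : ℕ)
    (hn : Odd n) : ∃ g : K[X], g.Monic ∧ enc_b W n = C ((n : K) ^ 2) * g ^ 2 := by
  have hlc : (enc_b W n).leadingCoeff = (n : K) ^ 2 := (enc_Inv_all W hΔ n).1.2.2.2.2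
  -- `b_n` is associated to a square
  have hsq : ∃ d : K[X], Associated (d ^ 2) (enc_b W n) := by
    rcases Nat.lt_or_ge n 3 with h3 | h3
    · have h1 : n = 1 := by
        obtain ⟨q, rfl⟩ := hn
        omega
      subst h1
      exact ⟨1, by rw [enc_b_one, one_pow]⟩
    · obtain ⟨m, rfl⟩ : ∃ m, n = m + 2 := ⟨n - 2, by omega⟩
      have hm : Odd m := by
        rcases Nat.even_or_odd m with he | ho
        · exact absurd (he.add (by decide : Even 2)) (Nat.not_even_iff_odd.mpr hn)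
        · exact ho
      have hU := (enc_Inv_all W hΔ m).2.2.1
      have hU' : enc_b W (m + 2) * enc_b W m =
          (enc_a W (m + 1) - X * enc_b W (m + 1)) ^ 2 := by
        rw [← hU]
        simp only [enc_UX, enc_Uh]
        ring
      exact exists_associated_pow_of_mul_eq_pow' (enc_coprime_b_odd W hΔ m hm) hU'
  obtain ⟨d, u, hu⟩ := hsq
  obtain ⟨c, hc, hcu⟩ : ∃ c : K, c ≠ 0 ∧ (u : K[X]) = C c := by
    obtain ⟨c, hc, hcu⟩ := Polynomial.isUnit_iff.mp u.isUnit
    exact ⟨c, hc.ne_zero, hcu.symm⟩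
  have hb0 : enc_b W n ≠ 0 := fun h => by
    rw [h, leadingCoeff_zero] at hlc
    obtain ⟨q, rfl⟩ := hn
    have : ((2 * q + 1 : ℕ) : K) ≠ 0 := Nat.cast_ne_zero.mpr (by omega)
    exact pow_ne_zero 2 this hlc.symm
  have hd0 : d ≠ 0 := fun h => by
    rw [h] at hu
    simp at hu
    exact hb0 hu.symm
  have hdl : d.leadingCoeff ≠ 0 := leadingCoeff_ne_zero.mpr hd0
  refine ⟨d * C d.leadingCoeff⁻¹, monic_mul_leadingCoeff_inv hd0, ?_⟩
  have hlc' : d.leadingCoeff ^ 2 * c = (n : K) ^ 2 := by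
    rw [← hlc, ← hu, hcu, leadingCoeff_mul, leadingCoeff_pow, leadingCoeff_C]
  rw [← hu, hcu, ← hlc', mul_pow, ← C_pow, map_mul]
  have : C (d.leadingCoeff ^ 2) * C ((d.leadingCoeff⁻¹) ^ 2) = (1 : K[X]) := by
    rw [← C_mul, ← mul_pow, mul_inv_cancel₀ hdl, one_pow, C_1]
  calc d ^ 2 * C c = d ^ 2 * C c * (C (d.leadingCoeff ^ 2) * C ((d.leadingCoeff⁻¹) ^ 2)) := by
        rw [this, mul_one]
    _ = C (d.leadingCoeff ^ 2) * C c * (d ^ 2 * C (d.leadingCoeff⁻¹ ^ 2)) := by ring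

/-- membership in the set of torsion abscissae, via the chosen points -/
lemma enc_mem_abscissae_iff [IsAlgClosed K] [CharZero K] (W : Affine K) (hΔ : W.Δ ≠ 0) (n : ℕ)
    (S : Finset K)
    (hS : ∀ ξ : K, ξ ∈ S ↔ ∃ (y : K) (h : W.Nonsingular ξ y), n • Point.some ξ y h = 0) (ξ : K) :
    (ξ ∈ S ↔ n • enc_pt W hΔ ξ = 0) ∧ (ξ ∈ S ↔ (enc_b W n).eval ξ = 0) := by
  have h2 : ξ ∈ S ↔ (enc_b W n).eval ξ = 0 := by
    rw [hS]
    constructor
    · rintro ⟨y, h, hy⟩
      exact (enc_nsmul_eq_zero_iff W hΔ h n).mp hy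
    · intro hb
      exact ⟨enc_y W ξ, enc_y_nonsingular W hΔ ξ,
        (enc_nsmul_eq_zero_iff W hΔ (enc_y_nonsingular W hΔ ξ) n).mpr hb⟩
  exact ⟨h2.trans (enc_nsmul_pt_eq_zero_iff W hΔ n ξ).symm, h2⟩

/-- the count of the `n`-torsion through its abscissae, `n` odd -/
lemma enc_card_torsion_abscissae [IsAlgClosed K] [CharZero K] (W : Affine K) (hΔ : W.Δ ≠ 0)
    (n : ℕ) (hn : Odd n) (S : Finset K)
    (hS : ∀ ξ : K, ξ ∈ S ↔ ∃ (y : K) (h : W.Nonsingular ξ y), n • Point.some ξ y h = 0) :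
    Nat.card {P : W.Point // n • P = 0} = 2 * S.card + 1 := by
  have hS' : ∀ ξ : K, ξ ∈ S ↔ n • enc_pt W hΔ ξ = 0 := fun ξ =>
    (enc_mem_abscissae_iff W hΔ n S hS ξ).1
  -- the parametrisation
  let g₀ : Option (S × Bool) → W.Point := fun o =>
    o.elim 0 (fun q => if q.2 then enc_pt W hΔ q.1 else -enc_pt W hΔ q.1)
  have hg₀ : ∀ o, n • g₀ o = 0 := by
    rintro (_ | ⟨ξ, b⟩)
    · exact smul_zero n
    · cases b
      · change n • (-enc_pt W hΔ ξ) = 0
        rw [smul_neg, (hS' ξ).mp ξ.2, neg_zero]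
      · exact (hS' ξ).mp ξ.2
  have hx : ∀ (ξ : S) (b : Bool), enc_xOf (g₀ (some (ξ, b))) = ξ := by
    intro ξ b
    cases b
    · change enc_xOf (-enc_pt W hΔ ξ) = ξ
      rw [enc_xOf_neg]
      rfl
    · rfl
  have hne : ∀ (ξ : S) (b : Bool), g₀ (some (ξ, b)) ≠ 0 := by
    intro ξ b
    cases b
    · change -enc_pt W hΔ ξ ≠ 0
      rw [neg_ne_zero]
      exact Point.some_ne_zero _
    · exact Point.some_ne_zero _
  have hbij : Function.Bijective
      (fun o => (⟨g₀ o, hg₀ o⟩ : {P : W.Point // n • P = 0})) := by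
    constructor
    · rintro (_ | ⟨ξ, b⟩) (_ | ⟨ξ', b'⟩) h
      · rfl
      · exact absurd (congrArg Subtype.val h).symm (hne ξ' b')
      · exact absurd (congrArg Subtype.val h) (hne ξ b)
      · have h' : g₀ (some (ξ, b)) = g₀ (some (ξ', b')) := congrArg Subtype.val h
        have hξ : ξ = ξ' := Subtype.ext (by rw [← hx ξ b, ← hx ξ' b', h'])
        subst hξ
        have hb : b = b' := by
          by_contra hbb
          have hpt : enc_pt W hΔ ξ = -enc_pt W hΔ ξ := by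
            cases b <;> cases b'
            · exact absurd rfl hbb
            · exact (neg_eq_iff_eq_neg.mp h')
            · exact h'
            · exact absurd rfl hbb
          exact Point.some_ne_zero _
            (enc_eq_zero_of_odd_of_eq_neg hn ((hS' ξ).mp ξ.2) hpt)
        rw [hb]
    · rintro ⟨P, hP⟩
      rcases P with _ | ⟨x, y, h⟩
      · exact ⟨none, rfl⟩
      · have hxS : x ∈ S := (hS x).mpr ⟨y, h, hP⟩
        rcases (Point.X_eq_iff (h₁ := h) (h₂ := enc_y_nonsingular W hΔ x)).mp rfl with e | e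
        · exact ⟨some (⟨x, hxS⟩, true), Subtype.ext e.symm⟩
        · exact ⟨some (⟨x, hxS⟩, false), Subtype.ext e.symm⟩
  rw [← Nat.card_eq_of_bijective _ hbij]
  simp [Nat.card_eq_fintype_card, Fintype.card_option, Fintype.card_prod, Fintype.card_bool]
  ring

/-- for odd `n`: `b_n(0) = n² (∏ ξ)²`, the product over the abscissae of the nonzero `n`-torsion
points -/
theorem enc_b_odd_eval_zero [IsAlgClosed K] [CharZero K] (W : Affine K) (hΔ : W.Δ ≠ 0) (n : ℕ)
    (hn : Odd n) (S : Finset K)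
    (hS : ∀ ξ : K, ξ ∈ S ↔ ∃ (y : K) (h : W.Nonsingular ξ y), n • Point.some ξ y h = 0) :
    (enc_b W n).eval 0 = (n : K) ^ 2 * (∏ ξ ∈ S, ξ) ^ 2 := by
  obtain ⟨g, hg, hbg⟩ := enc_b_odd_square W hΔ n hn
  have hn0 : 0 < n := hn.pos
  have hnK : ((n : K)) ^ 2 ≠ 0 := pow_ne_zero 2 (Nat.cast_ne_zero.mpr hn0.ne')
  have hg0 : g ≠ 0 := hg.ne_zero
  have hroots : g.roots.toFinset = S := by
    ext ξ
    rw [Multiset.mem_toFinset, mem_roots hg0, IsRoot.def, (enc_mem_abscissae_iff W hΔ n S hS ξ).2,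
      hbg, eval_mul, eval_C, eval_pow]
    constructor
    · intro h
      rw [h]
      ring
    · intro h
      rcases mul_eq_zero.mp h with h | h
      · exact absurd h hnK
      · exact pow_eq_zero_iff (two_ne_zero) |>.mp h
  -- degrees and the count
  have hdeg : (enc_b W n).natDegree = n ^ 2 - 1 := (enc_Inv_all W hΔ n).1.2.2.2.1
  have hdeg2 : (enc_b W n).natDegree = 2 * g.natDegree := by
    rw [hbg, natDegree_C_mul hnK, natDegree_pow]
  have hcount := enc_card_torsion_abscissae W hΔ n hn S hS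
  rw [enc_card_torsion_of_Δ' W hΔ n hn0] at hcount
  have hcard : g.roots.toFinset.card = Multiset.card g.roots := by
    rw [hroots, IsAlgClosed.card_roots_eq_natDegree]
    have h1 : 1 ≤ n ^ 2 := Nat.one_le_pow _ _ hn0
    omega
  have hnodup : g.roots.Nodup := Multiset.toFinset_card_eq_card_iff_nodup.mp hcard
  have hprod : ∏ ξ ∈ S, ξ = g.roots.prod := by
    rw [← hroots, Finset.prod_eq_multiset_prod, Multiset.toFinset_val, hnodup.dedup,
      Multiset.map_id']
  have hc0 := (IsAlgClosed.splits g).coeff_zero_eq_prod_roots_of_monic hg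
  rw [hbg, eval_mul, eval_C, eval_pow, ← coeff_zero_eq_eval_zero, hc0, hprod, mul_pow, ← pow_mul,
    Even.neg_one_pow ⟨g.natDegree, by ring⟩, one_mul]

end Fermat.Agent.Lib.EN
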