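/-
Moonshot M1 (S13), product formula (PF), part b: the functional equation under translation by the
`2`-torsion point `(0,0)` (curves with `a₃ = a₆ = 0`), `b_n(0)² = a₄^(n²-1)` for odd `n`, and the
product formula in the shape `s13_IfacePF`.
-/
import Fermat.Agent.Lib.EN.PFa
import Fermat.Agent.Lib.S13.IfacePF

set_option autoImplicit false

namespace Fermat.Agent.Lib.EN

open Polynomial WeierstrassCurve WeierstrassCurve.Affine

variable {K : Type*} [Field K]

/-- the twisted reversal `X^N f(c/X)` -/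
noncomputable def enc_rev (N : ℕ) (c : K) (f : K[X]) : K[X] :=
  ∑ i ∈ Finset.range (N + 1), C (f.coeff i * c ^ i) * X ^ (N - i)

lemma enc_rev_eval {N : ℕ} (c : K) {f : K[X]} (hf : f.natDegree ≤ N) {x : K} (hx : x ≠ 0) :
    (enc_rev N c f).eval x = x ^ N * f.eval (c / x) := by
  rw [enc_rev, eval_finsetSum, eval_eq_sum_range' (Nat.lt_succ_of_le hf), Finset.mul_sum]
  refine Finset.sum_congr rfl fun i hi => ?_
  have hiN : i ≤ N := Nat.lt_succ_iff.mp (Finset.mem_range.mp hi)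
  rw [eval_mul, eval_C, eval_pow, eval_X, div_pow]
  have hxN : x ^ N = x ^ (N - i) * x ^ i := by rw [← pow_add, Nat.sub_add_cancel hiN]
  rw [hxN]
  have hxi : x ^ i ≠ 0 := pow_ne_zero i hx
  field_simp

lemma enc_rev_coeff_zero (N : ℕ) (c : K) (f : K[X]) :
    (enc_rev N c f).coeff 0 = f.coeff N * c ^ N := by
  rw [enc_rev, finsetSum_coeff, Finset.sum_eq_single N]
  · rw [Nat.sub_self, pow_zero, mul_one, coeff_C_zero]
  · intro i hi hiN
    have hiN' : i < N := lt_of_le_of_ne (Nat.lt_succ_iff.mp (Finset.mem_range.mp hi)) hiN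
    rw [coeff_C_mul_X_pow, if_neg (by omega)]
  · intro h
    exact absurd (Finset.mem_range.mpr (Nat.lt_succ_self N)) h

lemma enc_rev_coeff_top (N : ℕ) (c : K) (f : K[X]) :
    (enc_rev N c f).coeff N = f.coeff 0 := by
  rw [enc_rev, finsetSum_coeff, Finset.sum_eq_single 0]
  · rw [Nat.sub_zero, pow_zero, mul_one, coeff_C_mul_X_pow, if_pos rfl]
  · intro i hi hi0
    have hiN : i ≤ N := Nat.lt_succ_iff.mp (Finset.mem_range.mp hi)
    rw [coeff_C_mul_X_pow, if_neg (by omega)]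
  · intro h
    exact absurd (Finset.mem_range.mpr (Nat.succ_pos N)) h

lemma enc_rev_natDegree_le (N : ℕ) (c : K) (f : K[X]) : (enc_rev N c f).natDegree ≤ N := by
  rw [enc_rev]
  refine natDegree_sum_le_of_forall_le _ _ fun i _ => ?_
  exact (natDegree_C_mul_X_pow_le _ _).trans (Nat.sub_le _ _)

/-- the algebra behind the functional equation -/
lemma enc_func_eq_abstract {a b : K[X]} {N : ℕ} {c : K} (hc : c ≠ 0) (hN : 0 < N)
    (hcop : IsCoprime a b) (ha : a.Monic) (hda : a.natDegree = N) (hdb : b.natDegree ≤ N)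
    (hFE : ∀ x : K, x ≠ 0 → c * b.eval x * b.eval (c / x) = a.eval x * a.eval (c / x))
    [Infinite K] : b.eval 0 ^ 2 = c ^ (N - 1) := by
  set A := enc_rev N c a with hA
  set B := enc_rev N c b with hB
  have ha0 : a ≠ 0 := ha.ne_zero
  -- the polynomial identity
  have hpoly : C c * b * B = a * A := by
    apply eq_of_infinite_eval_eq
    apply Set.Infinite.mono (s := {x : K | x ≠ 0})
    · intro x hx
      simp only [Set.mem_ofPred_eq, eval_mul, eval_C]
      rw [hA, hB, enc_rev_eval c hdb hx, enc_rev_eval c hda.le hx]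
      linear_combination x ^ N * hFE x hx
    · exact (Set.finite_singleton (0 : K)).infinite_compl
  -- `a ∣ C c * B`
  have hdvd : a ∣ C c * B := by
    have h1 : a ∣ C c * B * b := ⟨A, by rw [← hpoly]; ring⟩
    exact hcop.dvd_of_dvd_mul_right h1
  obtain ⟨q, hq⟩ := hdvd
  have hBdeg : (C c * B).natDegree ≤ N :=
    (natDegree_C_mul_le _ _).trans (enc_rev_natDegree_le N c b)
  have hqC : q = C (q.coeff 0) := by
    by_cases hq0 : q = 0
    · rw [hq0]
      simp
    · apply eq_C_of_natDegree_eq_zero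
      rw [hq, natDegree_mul ha0 hq0, hda] at hBdeg
      omega
  set l := q.coeff 0 / c with hl
  have hBl : B = C l * a := by
    have h1 : C c * B = C c * (C l * a) := by
      rw [hq, hl, ← mul_assoc, ← C_mul, mul_div_cancel₀ _ hc]
      nth_rewrite 1 [hqC]
      ring
    exact mul_left_cancel₀ (C_ne_zero.mpr hc) h1
  -- `l = b(0)`
  have hlb : l = b.coeff 0 := by
    have h1 := congrArg (fun p => coeff p N) hBl
    simp only [coeff_C_mul] at h1
    rw [hB, enc_rev_coeff_top, ← hda, ha.coeff_natDegree, mul_one] at h1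
    exact h1.symm
  -- `A = C (c l) * b`
  have hAl : A = C (c * l) * b := by
    have h1 : a * A = a * (C (c * l) * b) := by
      rw [← hpoly, hBl, C_mul]
      ring
    exact mul_left_cancel₀ ha0 h1
  have h2 := congrArg (fun p => coeff p 0) hAl
  simp only [coeff_C_mul] at h2
  rw [hA, enc_rev_coeff_zero, ← hda, ha.coeff_natDegree, one_mul, hda, hlb] at h2
  rw [← coeff_zero_eq_eval_zero]
  have hcN : c ^ N = c * c ^ (N - 1) := by
    rw [← pow_succ', Nat.sub_add_cancel hN]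
  rw [hcN] at h2
  have h3 : c * c ^ (N - 1) = c * (b.coeff 0 ^ 2) := by rw [h2]; ring
  exact (mul_left_cancel₀ hc h3).symm

section translation

variable [DecidableEq K]

omit [DecidableEq K] in
/-- the `2`-torsion point `(0,0)` of a curve with `a₃ = a₆ = 0`, `a₄ ≠ 0` -/
lemma enc_T0_nonsingular (W : Affine K) (h6 : W.a₆ = 0) (h4 : W.a₄ ≠ 0) : W.Nonsingular 0 0 :=
  W.nonsingular_zero.mpr ⟨h6, Or.inr h4⟩

lemma enc_T0_add_self (W : Affine K) (h3 : W.a₃ = 0) (h6 : W.a₆ = 0) (h4 : W.a₄ ≠ 0) :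
    Point.some 0 0 (enc_T0_nonsingular W h6 h4) + Point.some 0 0 (enc_T0_nonsingular W h6 h4) =
      0 := by
  apply Point.add_self_of_Y_eq
  simp [negY, h3]

lemma enc_odd_nsmul_T0 (W : Affine K) (h3 : W.a₃ = 0) (h6 : W.a₆ = 0) (h4 : W.a₄ ≠ 0) {n : ℕ}
    (hn : Odd n) :
    n • Point.some 0 0 (enc_T0_nonsingular W h6 h4) =
      Point.some 0 0 (enc_T0_nonsingular W h6 h4) := by
  obtain ⟨q, rfl⟩ := hn
  rw [add_smul, mul_comm, mul_smul, two_nsmul, enc_T0_add_self W h3 h6 h4, smul_zero, zero_add,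
    one_smul]

/-- translation by `(0,0)` inverts the abscissa up to `a₄` -/
lemma enc_add_T0 (W : Affine K) (h3 : W.a₃ = 0) (h6 : W.a₆ = 0) (h4 : W.a₄ ≠ 0) {x y : K}
    (h : W.Nonsingular x y) (hx : x ≠ 0) :
    ∃ (y' : K) (h' : W.Nonsingular (W.a₄ / x) y'),
      Point.some x y h + Point.some 0 0 (enc_T0_nonsingular W h6 h4) =
        Point.some (W.a₄ / x) y' h' := by
  have key : ∀ (X' Y' : K) (H' : W.Nonsingular X' Y'), X' = W.a₄ / x →
      ∃ (y' : K) (h' : W.Nonsingular (W.a₄ / x) y'),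
        Point.some X' Y' H' = Point.some (W.a₄ / x) y' h' := by
    rintro X' Y' H' rfl
    exact ⟨Y', H', rfl⟩
  rw [Point.add_of_X_ne hx]
  apply key
  rw [slope_of_X_ne hx, addX]
  have he := (W.equation_iff x y).mp h.1
  rw [h3, h6] at he
  field_simp
  linear_combination x * he

omit [DecidableEq K] in
/-- a point with abscissa `0` is `(0,0)` -/
lemma enc_eq_T0 (W : Affine K) (h3 : W.a₃ = 0) (h6 : W.a₆ = 0) (h4 : W.a₄ ≠ 0) {y : K}
    (h : W.Nonsingular 0 y) : Point.some 0 y h = Point.some 0 0 (enc_T0_nonsingular W h6 h4) := by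
  have he := (W.equation_iff 0 y).mp h.1
  rw [h3, h6] at he
  have hy : y = 0 := by
    have : y ^ 2 = 0 := by linear_combination he
    exact pow_eq_zero_iff (two_ne_zero) |>.mp this
  subst hy
  rfl

/-- the functional equation of the multiplication-by-`n` map (`n` odd) under `x ↦ a₄/x` -/
theorem enc_func_eq [IsAlgClosed K] [CharZero K] (W : Affine K) (hΔ : W.Δ ≠ 0) (h3 : W.a₃ = 0)
    (h6 : W.a₆ = 0) (h4 : W.a₄ ≠ 0) {n : ℕ} (hn : Odd n) {x₀ : K} (hx₀ : x₀ ≠ 0) :
    W.a₄ * (enc_b W n).eval x₀ * (enc_b W n).eval (W.a₄ / x₀) =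
      (enc_a W n).eval x₀ * (enc_a W n).eval (W.a₄ / x₀) := by
  set T₀ := Point.some 0 0 (enc_T0_nonsingular W h6 h4) with hT₀
  have h := enc_y_nonsingular W hΔ x₀
  obtain ⟨y₁, h₁, hPT⟩ := enc_add_T0 W h3 h6 h4 h hx₀
  have hn1 : n • Point.some (W.a₄ / x₀) y₁ h₁ = n • Point.some x₀ (enc_y W x₀) h + T₀ := by
    rw [← hPT, smul_add, enc_odd_nsmul_T0 W h3 h6 h4 hn]
  rcases hnP : n • Point.some x₀ (enc_y W x₀) h with _ | ⟨x', y', h'⟩
  · -- `n • P = 0`
    have hb : (enc_b W n).eval x₀ = 0 := (enc_nsmul_eq_zero_iff W hΔ h n).mp hnP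
    rw [hnP] at hn1
    have hn1' : n • Point.some (W.a₄ / x₀) y₁ h₁ = T₀ := by
      rw [hn1]
      exact zero_add T₀
    have ha := enc_nsmul_some W hΔ h₁ n hn1'
    rw [zero_mul] at ha
    rw [hb, ← ha]
    ring
  · have ha := enc_nsmul_some W hΔ h n hnP
    rw [hnP] at hn1
    by_cases hx' : x' = 0
    · subst hx'
      rw [enc_eq_T0 W h3 h6 h4 h', enc_T0_add_self W h3 h6 h4] at hn1
      have hb : (enc_b W n).eval (W.a₄ / x₀) = 0 := (enc_nsmul_eq_zero_iff W hΔ h₁ n).mp hn1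
      rw [zero_mul] at ha
      rw [hb, ← ha]
      ring
    · obtain ⟨y'', h'', hQT⟩ := enc_add_T0 W h3 h6 h4 h' hx'
      rw [hQT] at hn1
      have ha' := enc_nsmul_some W hΔ h₁ n hn1
      rw [← ha, ← ha']
      field_simp

/-- `b_n(0)² = a₄^(n²-1)` for odd `n` -/
theorem enc_b_eval_zero_sq [IsAlgClosed K] [CharZero K] (W : Affine K) (hΔ : W.Δ ≠ 0)
    (h3 : W.a₃ = 0) (h6 : W.a₆ = 0) (h4 : W.a₄ ≠ 0) {n : ℕ} (hn : Odd n) :
    (enc_b W n).eval 0 ^ 2 = W.a₄ ^ (n ^ 2 - 1) := by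
  obtain ⟨hcop, hmon, hda, hdb, -⟩ := (enc_Inv_all W hΔ n).1
  have hn0 : 0 < n := hn.pos
  refine enc_func_eq_abstract h4 (by positivity) hcop hmon hda (by rw [hdb]; omega) ?_
  intro x hx
  exact enc_func_eq W hΔ h3 h6 h4 hn hx

end translation

open Fermat.Agent.Lib.Frey Fermat.Agent.Lib.S13 in
/-- **the product formula (PF)** -/
theorem enc_ifacePF : s13_IfacePF := by
  intro K _ _ _ _ δ ε hδ hε hδε n hn S hS
  have hΔ : (fl_curve δ ε).toAffine.Δ ≠ 0 := by
    have : (fl_curve δ ε).Δ = 16 * δ ^ 2 * ε ^ 2 * (δ - ε) ^ 2 := by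
      simp only [WeierstrassCurve.Δ, b₂, b₄, b₆, b₈, fl_curve_a₁, fl_curve_a₂, fl_curve_a₃,
        fl_curve_a₄, fl_curve_a₆]
      ring
    rw [this]
    have h16 : (16 : K) ≠ 0 := by norm_num
    exact mul_ne_zero (mul_ne_zero (mul_ne_zero h16 (pow_ne_zero 2 hδ)) (pow_ne_zero 2 hε))
      (pow_ne_zero 2 (sub_ne_zero.mpr hδε))
  have h4 : (fl_curve δ ε).toAffine.a₄ ≠ 0 := mul_ne_zero hδ hε
  have h1 := enc_b_odd_eval_zero (fl_curve δ ε).toAffine hΔ n hn S hS
  have h2 := enc_b_eval_zero_sq (fl_curve δ ε).toAffine hΔ rfl rfl h4 hn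
  rw [← h1, h2]
  rfl

end Fermat.Agent.Lib.EN
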