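/-
(SS-core): the valuation-theoretic contradiction behind the supersingular-type case of S13.
If all abscissae of the nonzero `p`-torsion points have negative valuation (with `v p = 1`,
`v a₄ = 0` on a model with `a₃ = a₆ = 0`), they cannot be split into two nonempty sets whose
products both have integer valuation.
-/
import Fermat.Agent.Lib.EN.PFPrime

set_option autoImplicit false
set_option linter.unusedSectionVars false

namespace Fermat.Agent.Lib.EN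

open Polynomial WeierstrassCurve WeierstrassCurve.Affine

variable {K : Type*} [Field K]

theorem ent_val_prod_neg (v : AddValuation K (WithTop ℚ)) (S : Finset K) (hS : S.Nonempty)
    (h : ∀ ξ ∈ S, v ξ < 0) : v (∏ ξ ∈ S, ξ) < 0 := by
  classical
  induction hS using Finset.Nonempty.cons_induction with
  | singleton a =>
    rw [Finset.prod_singleton]; exact h a (Finset.mem_singleton_self a)
  | cons a s ha hs ih =>
    rw [Finset.prod_cons, AddValuation.map_mul]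
    have h1 : v a < 0 := h a (Finset.mem_cons_self a s)
    have h2 : v (∏ ξ ∈ s, ξ) < 0 := ih (fun ξ hξ => h ξ (Finset.mem_cons_of_mem hξ))
    exact Left.add_neg_of_neg_of_nonpos h1 h2.le

/-- **(SS-core).** -/
theorem ent_ss_core [DecidableEq K] [IsAlgClosed K] [CharZero K] (v : AddValuation K (WithTop ℚ))
    (W : WeierstrassCurve K) [W.IsElliptic] (h3 : W.a₃ = 0) (h6 : W.a₆ = 0) (hv4 : v W.a₄ = 0)
    {p : ℕ} (hp : p.Prime) (hp2 : p ≠ 2) (hvp : v (p : K) = 1)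
    (S : Finset K) (hS : ∀ ξ : K, ξ ∈ S ↔ ∃ (y : K) (h : W.toAffine.Nonsingular ξ y),
      p • (Point.some ξ y h) = 0)
    (S₁ S₂ : Finset K) (hdisj : Disjoint S₁ S₂) (hunion : S₁ ∪ S₂ = S)
    (h1 : S₁.Nonempty) (h2 : S₂.Nonempty) (hneg : ∀ ξ ∈ S, v ξ < 0)
    (hint1 : ∃ n : ℤ, v (∏ ξ ∈ S₁, ξ) = ((n : ℚ) : WithTop ℚ))
    (hint2 : ∃ n : ℤ, v (∏ ξ ∈ S₂, ξ) = ((n : ℚ) : WithTop ℚ)) : False := by
  have hpf := ent_pf_prime W h3 h6 hp hp2 S hS
  obtain ⟨n₁, hn₁⟩ := hint1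
  obtain ⟨n₂, hn₂⟩ := hint2
  have hneg1 : v (∏ ξ ∈ S₁, ξ) < 0 :=
    ent_val_prod_neg v S₁ h1 (fun ξ hξ => hneg ξ (hunion ▸ Finset.mem_union_left _ hξ))
  have hneg2 : v (∏ ξ ∈ S₂, ξ) < 0 :=
    ent_val_prod_neg v S₂ h2 (fun ξ hξ => hneg ξ (hunion ▸ Finset.mem_union_right _ hξ))
  rw [hn₁] at hneg1
  rw [hn₂] at hneg2
  have hq1 : (n₁ : ℚ) < 0 := by exact_mod_cast hneg1
  have hq2 : (n₂ : ℚ) < 0 := by exact_mod_cast hneg2
  have hz1 : n₁ ≤ -1 := by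
    have : n₁ < 0 := by exact_mod_cast hq1
    omega
  have hz2 : n₂ ≤ -1 := by
    have : n₂ < 0 := by exact_mod_cast hq2
    omega
  have hprod : ∏ ξ ∈ S, ξ = (∏ ξ ∈ S₁, ξ) * (∏ ξ ∈ S₂, ξ) := by
    rw [← hunion, Finset.prod_union hdisj]
  have hvProd : v (∏ ξ ∈ S, ξ) = (((n₁ + n₂ : ℤ) : ℚ) : WithTop ℚ) := by
    rw [hprod, AddValuation.map_mul, hn₁, hn₂, Int.cast_add, WithTop.coe_add]
  have hL : v (((p : K) ^ 2 * (∏ ξ ∈ S, ξ) ^ 2) ^ 2) =
      2 • (2 • v (p : K) + 2 • v (∏ ξ ∈ S, ξ)) := by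
    rw [AddValuation.map_pow, AddValuation.map_mul, AddValuation.map_pow, AddValuation.map_pow]
  have hR : v (W.a₄ ^ (p ^ 2 - 1)) = 0 := by
    rw [AddValuation.map_pow, hv4, nsmul_zero]
  have h : 2 • (2 • (1 : WithTop ℚ) + 2 • (((n₁ + n₂ : ℤ) : ℚ) : WithTop ℚ)) = 0 := by
    rw [← hvp, ← hvProd, ← hL, hpf, hR]
  have h' : (((2 • (2 • (1:ℚ) + 2 • ((n₁ + n₂ : ℤ) : ℚ)) : ℚ)) : WithTop ℚ) =
      ((0 : ℚ) : WithTop ℚ) := by
    rw [WithTop.coe_zero, ← h]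
    simp only [WithTop.coe_nsmul, WithTop.coe_add, WithTop.coe_one]
  have h2' : (2 • (2 • (1:ℚ) + 2 • ((n₁ + n₂ : ℤ) : ℚ)) : ℚ) = 0 := by exact_mod_cast h'
  simp only [nsmul_eq_mul, Nat.cast_ofNat] at h2'
  have h3' : (n₁ + n₂ : ℤ) = -1 := by
    have : ((n₁ + n₂ : ℤ) : ℚ) = -1 := by linarith
    exact_mod_cast this
  omega

end Fermat.Agent.Lib.EN
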