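/-
Moonshot M1 (S13), interface (B): the local analysis at `p`, assembled directly on the frozen
Frey model `y² + xy = x³ + a₂x² + a₄x` (no Legendre detour): with `T` the kernel of reduction
(helper8's `cfh_T₀`), inertia acts trivially on `V/T`, and if `T = V` there is no proper nonzero
Galois-stable submodule (product formula on the Frey model + rationality of Galois-stable products).
-/
import Fermat.Agent.Lib.EN.PFb
import Fermat.Agent.Lib.EN.FreyCard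
import Fermat.Agent.Lib.S13.LocD
import Fermat.Agent.Lib.S13.Iface
import Fermat.Agent.Lib.KW.RatProdGe
import Fermat.Agent.Lib.CFT.RamBridge

set_option autoImplicit false

namespace Fermat.Agent.Lib.EN

open WeierstrassCurve WeierstrassCurve.Affine WeierstrassCurve.Affine.Point
open Fermat.Agent.Lib.Frey Fermat.Agent.Lib.S13 Fermat.Agent.Lib.KW

local notation "Qb" => AlgebraicClosure ℚ

section frey

variable (P : FreyPackage)

lemma enc_frey_a₃ : (P.freyCurve⁄Qb).a₃ = 0 := by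
  simp [WeierstrassCurve.baseChange, WeierstrassCurve.map, FreyPackage.freyCurve]

lemma enc_frey_a₆ : (P.freyCurve⁄Qb).a₆ = 0 := by
  simp [WeierstrassCurve.baseChange, WeierstrassCurve.map, FreyPackage.freyCurve]

lemma enc_frey_a₄_mul : (P.freyCurve⁄Qb).a₄ * 16 = ((-(P.a ^ P.p * P.b ^ P.p) : ℤ) : Qb) := by
  simp only [WeierstrassCurve.baseChange, WeierstrassCurve.map, FreyPackage.freyCurve]
  rw [map_div₀, map_mul, map_neg, map_pow, map_pow, map_ofNat]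
  simp only [map_intCast]
  push_cast
  have h16 : (16 : Qb) ≠ 0 := by norm_num
  field_simp

lemma enc_frey_a₄_ne_zero : (P.freyCurve⁄Qb).a₄ ≠ 0 := by
  intro h
  have := enc_frey_a₄_mul P
  rw [h, zero_mul] at this
  have h2 : (-(P.a ^ P.p * P.b ^ P.p) : ℤ) ≠ 0 :=
    neg_ne_zero.mpr (mul_ne_zero (pow_ne_zero _ P.ha0) (pow_ne_zero _ P.hb0))
  exact h2 (by exact_mod_cast this.symm)

lemma enc_frey_Δ_ne_zero : (P.freyCurve⁄Qb).Δ ≠ 0 := by
  change (P.freyCurve.map (algebraMap ℚ Qb)).Δ ≠ 0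
  rw [WeierstrassCurve.map_Δ]
  exact (map_ne_zero _).mpr (ent_frey_Δ_ne_zero P)

/-- abscissa of a Galois conjugate -/
lemma enc_xOf_smul (σ : Qb ≃ₐ[ℚ] Qb) (Q : (P.freyCurve⁄Qb).Point) :
    enc_xOf (σ • Q) = σ (enc_xOf Q) := by
  rcases Q with _ | ⟨X, Y, h⟩
  · change (0 : Qb) = σ 0
    rw [_root_.map_zero]
  · rfl

/-- a nonzero torsion point is affine -/
lemma enc_torsion_affine (x : s13_V P) (hx : x ≠ 0) :
    ∃ (X Y : Qb) (h : (P.freyCurve⁄Qb).Nonsingular X Y),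
      (x : (P.freyCurve⁄Qb).Point) = Point.some X Y h ∧
        P.p • Point.some X Y h = (0 : (P.freyCurve⁄Qb).Point) := by
  have hx1 : (x : (P.freyCurve⁄Qb).Point) ≠ 0 := fun h => hx (Subtype.ext h)
  have hp : P.p • (x : (P.freyCurve⁄Qb).Point) = 0 := by
    have := (Submodule.mem_torsionBy_iff _ _).mp x.2
    rwa [natCast_zsmul] at this
  rcases hxe : (x : (P.freyCurve⁄Qb).Point) with _ | ⟨X, Y, h⟩
  · exact absurd hxe hx1
  · refine ⟨X, Y, h, rfl, ?_⟩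
    rw [← hxe]
    exact hp

end frey

/-- **the supersingular-type case**: if the kernel of reduction is everything, there is no proper
nonzero Galois-stable submodule -/
theorem enc_SS (P : FreyPackage) (A : ValuationSubring Qb) (hA : A.LiesOverPrime P.p)
    (hT : cfh_T₀ P A hA = ⊤) (N : Submodule (ZMod P.p) (s13_V P)) (hN : IsGaloisStable ℚ N) :
    N = ⊥ ∨ N = ⊤ := by
  by_contra hcon
  push Not at hcon
  obtain ⟨hNbot, hNtop⟩ := hcon
  have hall : ∀ x : s13_V P, fl_InE1 (cfh_vp P A hA) (x : (P.freyCurve⁄Qb).Point) := fun x => by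
    have hx : x ∈ cfh_T₀ P A hA := hT ▸ AddSubgroup.mem_top x
    exact hx
  have hcard := ent_ifaceCard P
  have : Finite (s13_V P) :=
    Nat.finite_of_card_ne_zero (by rw [hcard]; exact pow_ne_zero 2 P.pp.ne_zero)
  let _ : Fintype (s13_V P) := Fintype.ofFinite _
  have : DecidablePred (fun x : s13_V P => x ≠ 0 ∧ x ∈ N) := Classical.decPred _
  have : DecidablePred (fun x : s13_V P => x ∉ N) := Classical.decPred _
  let f : s13_V P → Qb := fun x => enc_xOf (x : (P.freyCurve⁄Qb).Point)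
  let S₁ : Finset Qb := (Finset.univ.filter (fun x : s13_V P => x ≠ 0 ∧ x ∈ N)).image f
  let S₂ : Finset Qb := (Finset.univ.filter (fun x : s13_V P => x ∉ N)).image f
  have hmem₁ : ∀ ξ, ξ ∈ S₁ ↔ ∃ x : s13_V P, (x ≠ 0 ∧ x ∈ N) ∧ f x = ξ := by
    intro ξ
    simp only [S₁, Finset.mem_image, Finset.mem_filter, Finset.mem_univ, true_and]
  have hmem₂ : ∀ ξ, ξ ∈ S₂ ↔ ∃ x : s13_V P, x ∉ N ∧ f x = ξ := by
    intro ξ
    simp only [S₂, Finset.mem_image, Finset.mem_filter, Finset.mem_univ, true_and]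
  have hne0 : ∀ x : s13_V P, x ∉ N → x ≠ 0 := fun x hx h0 => hx (h0 ▸ N.zero_mem)
  -- the abscissa of a nonzero point has negative valuation
  have hnegx : ∀ x : s13_V P, x ≠ 0 → cfh_vp P A hA (f x) < 0 := by
    intro x hx
    rcases hall x with h0 | ⟨X, Y, h, hxy, hX⟩
    · exact absurd (Subtype.ext h0) hx
    · have : f x = X := by
        change enc_xOf (x : (P.freyCurve⁄Qb).Point) = X
        rw [hxy]
        rfl
      rw [this]
      exact hX
  -- characterisation of `S₁ ∪ S₂`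
  have hS : ∀ ξ : Qb, ξ ∈ S₁ ∪ S₂ ↔ ∃ (y : Qb) (h : (P.freyCurve⁄Qb).Nonsingular ξ y),
      P.p • Point.some ξ y h = 0 := by
    intro ξ
    constructor
    · intro h
      have hx : ∃ x : s13_V P, x ≠ 0 ∧ f x = ξ := by
        rcases Finset.mem_union.mp h with h | h
        · obtain ⟨x, ⟨hx0, -⟩, hfx⟩ := (hmem₁ ξ).mp h
          exact ⟨x, hx0, hfx⟩
        · obtain ⟨x, hxN, hfx⟩ := (hmem₂ ξ).mp h
          exact ⟨x, hne0 x hxN, hfx⟩
      obtain ⟨x, hx0, hfx⟩ := hx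
      obtain ⟨X, Y, hXY, hxe, hp⟩ := enc_torsion_affine P x hx0
      have hX : X = ξ := by
        rw [← hfx]
        change X = enc_xOf (x : (P.freyCurve⁄Qb).Point)
        rw [hxe]
        rfl
      subst hX
      exact ⟨Y, hXY, hp⟩
    · rintro ⟨y, h, hp⟩
      have hmemV : Point.some ξ y h ∈ Submodule.torsionBy ℤ (P.freyCurve⁄Qb).Point P.p := by
        rw [Submodule.mem_torsionBy_iff, natCast_zsmul]
        exact hp
      set x : s13_V P := ⟨Point.some ξ y h, hmemV⟩ with hxdef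
      have hx0 : x ≠ 0 := fun h0 => Point.some_ne_zero h (congrArg Subtype.val h0)
      have hfx : f x = ξ := rfl
      by_cases hxN : x ∈ N
      · exact Finset.mem_union_left _ ((hmem₁ ξ).mpr ⟨x, ⟨hx0, hxN⟩, hfx⟩)
      · exact Finset.mem_union_right _ ((hmem₂ ξ).mpr ⟨x, hxN, hfx⟩)
  -- disjointness
  have hdisj : Disjoint S₁ S₂ := by
    rw [Finset.disjoint_left]
    intro ξ h1 h2
    obtain ⟨x, ⟨hx0, hxN⟩, hfx⟩ := (hmem₁ ξ).mp h1
    obtain ⟨y, hyN, hfy⟩ := (hmem₂ ξ).mp h2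
    have hy0 := hne0 y hyN
    have hx1 : (x : (P.freyCurve⁄Qb).Point) ≠ 0 := fun h => hx0 (Subtype.ext h)
    have hy1 : (y : (P.freyCurve⁄Qb).Point) ≠ 0 := fun h => hy0 (Subtype.ext h)
    have hxy : enc_xOf (y : (P.freyCurve⁄Qb).Point) = enc_xOf (x : (P.freyCurve⁄Qb).Point) :=
      hfy.trans hfx.symm
    rcases enc_eq_or_eq_neg_of_xOf hy1 hx1 hxy with e | e
    · exact hyN ((Subtype.ext e : y = x) ▸ hxN)
    · have : y = -x := Subtype.ext e
      exact hyN (this ▸ N.neg_mem hxN)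
  -- nonemptiness
  have hne₁ : S₁.Nonempty := by
    obtain ⟨x, hxN, hx0⟩ := N.exists_mem_ne_zero_of_ne_bot hNbot
    exact ⟨f x, (hmem₁ _).mpr ⟨x, ⟨hx0, hxN⟩, rfl⟩⟩
  have hne₂ : S₂.Nonempty := by
    obtain ⟨x, hxN⟩ : ∃ x : s13_V P, x ∉ N := by
      by_contra hcon
      push Not at hcon
      exact hNtop (eq_top_iff.mpr fun x _ => hcon x)
    exact ⟨f x, (hmem₂ _).mpr ⟨x, hxN, rfl⟩⟩
  -- Galois stability
  have hfσ : ∀ (σ : Qb ≃ₐ[ℚ] Qb) (x : s13_V P), f (σ • x) = σ (f x) := fun σ x =>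
    enc_xOf_smul P σ (x : (P.freyCurve⁄Qb).Point)
  have hst₁ : ∀ σ : Qb ≃ₐ[ℚ] Qb, ∀ ξ ∈ S₁, σ ξ ∈ S₁ := by
    intro σ ξ hξ
    obtain ⟨x, ⟨hx0, hxN⟩, hfx⟩ := (hmem₁ ξ).mp hξ
    refine (hmem₁ _).mpr ⟨σ • x, ⟨?_, hN σ x hxN⟩, by rw [hfσ, hfx]⟩
    intro h0
    apply hx0
    have := congrArg (fun z => σ⁻¹ • z) h0
    simpa using this
  have hst₂ : ∀ σ : Qb ≃ₐ[ℚ] Qb, ∀ ξ ∈ S₂, σ ξ ∈ S₂ := by
    intro σ ξ hξ
    obtain ⟨x, hxN, hfx⟩ := (hmem₂ ξ).mp hξ
    refine (hmem₂ _).mpr ⟨σ • x, ?_, by rw [hfσ, hfx]⟩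
    intro hσx
    apply hxN
    have := hN σ⁻¹ (σ • x) hσx
    simpa using this
  -- negativity
  have hneg₁ : ∀ ξ ∈ S₁, cfh_vp P A hA ξ < 0 := by
    intro ξ hξ
    obtain ⟨x, ⟨hx0, -⟩, hfx⟩ := (hmem₁ ξ).mp hξ
    rw [← hfx]
    exact hnegx x hx0
  have hneg₂ : ∀ ξ ∈ S₂, cfh_vp P A hA ξ < 0 := by
    intro ξ hξ
    obtain ⟨x, hxN, hfx⟩ := (hmem₂ ξ).mp hξ
    rw [← hfx]
    exact hnegx x (hne0 x hxN)
  -- the product formula on the Frey model
  have hodd : Odd P.p := P.pp.odd_of_ne_two (by have := P.hp5; omega)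
  have hPF : ((P.p : Qb) ^ 2 * (∏ ξ ∈ S₁ ∪ S₂, ξ) ^ 2) ^ 2 =
      (P.freyCurve⁄Qb).a₄ ^ (P.p ^ 2 - 1) := by
    rw [← enc_b_odd_eval_zero (P.freyCurve⁄Qb) (enc_frey_Δ_ne_zero P) P.p hodd (S₁ ∪ S₂) hS,
      enc_b_eval_zero_sq (P.freyCurve⁄Qb) (enc_frey_Δ_ne_zero P) (enc_frey_a₃ P) (enc_frey_a₆ P)
        (enc_frey_a₄_ne_zero P) hodd]
  -- integrality of `a₄`
  have hv4 : 0 ≤ cfh_vp P A hA ((P.freyCurve⁄Qb).a₄) := by
    have h1 := congrArg (cfh_vp P A hA) (enc_frey_a₄_mul P)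
    rw [AddValuation.map_mul] at h1
    have h16 : cfh_vp P A hA (16 : Qb) = 0 := by
      have : (16 : Qb) = 2 ^ 4 := by norm_num
      rw [this, AddValuation.map_pow, cfh_vp_two]
      simp
    rw [h16, add_zero] at h1
    rw [h1]
    exact cfh_vp_int P A hA _
  have hu : 0 ≤ cfh_vp P A hA ((P.freyCurve⁄Qb).a₄ ^ (P.p ^ 2 - 1)) := by
    rw [AddValuation.map_pow]
    exact nsmul_nonneg hv4 _
  have := Fermat.Agent.Lib.CFT.cfg_isGalois_QBar
  exact kwr_no_split_ge_vQ P.pp hA S₁ S₂ hdisj hne₁ hne₂ hst₁ hst₂ hneg₁ hneg₂ hu hPF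

/-- **interface (B)** of the S13 assembly -/
theorem enc_ifaceLocalP : s13_IfaceLocalP := by
  intro P A hA
  refine ⟨cfh_T₀ P A hA, fun σ hσ x => ?_, fun hT N hN => enc_SS P A hA hT N hN⟩
  exact cfh_T_quot P A hA σ hσ x

end Fermat.Agent.Lib.EN
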